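/-
Row 62 §M1, leaf (PEU-LOCAL): an element `R` of `PadicAlgCl p` on which the inertia group acts
through `p`-th roots of unity, trivially on the part fixing `L` pointwise, has INTEGRAL valuation as
soon as all unramified enlargements of `L` are peu ramifiées:  `‖R‖ ∈ p ^ ℤ`.

In the application (row 62 / row 63 T6′): `R = U_s / U_s′` from (EV′), `L = ℚ_p(V)`, `V ≅ E[p]`,
and `v(R) = trop_s(D) - trop_s′(D)`.
-/
import Mathlib
import Fermat.Agent.S40.P.PeuVal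
import Fermat.Agent.S56.PT.UnramInstNorm
import Fermat.Agent.S56.Flat.Etale.Connected

set_option autoImplicit false
set_option linter.style.haveILetI false
set_option linter.unusedSectionVars false

namespace Fermat.Agent.S40.P.PeuLocal

open IsLocalRing IntermediateField Fermat.Agent.S55.LocalInt Fermat.Agent.S55.Local.Unram
  Fermat.Agent.S56.Flat.KummerBound Fermat.Agent.S56.PT.UnramInstNorm
  Fermat.Agent.S56.Flat.Etale.Connected Fermat.Agent.S40.P.PeuVal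

variable {p : ℕ} [Fact p.Prime]

local notation "Ω" => PadicAlgCl p

/-- An element fixed by the inertial automorphisms that fix `L` pointwise lies in the compositum of
`L` with a finite unramified extension. -/
theorem exists_mem_sup_En {L : IntermediateField ℚ_[p] Ω} {x : Ω}
    (hx : ∀ τ : Ω ≃ₐ[ℚ_[p]] Ω, τ ∈ normInertia p → (∀ y ∈ L, τ y = y) → τ x = x) :
    ∃ k : ℕ, x ∈ L ⊔ En p (k + 1) := by
  have h1 : x ∈ IntermediateField.fixedField (L ⊔ ⨆ n : ℕ, En p n).fixingSubgroup := by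
    rw [IntermediateField.mem_fixedField_iff]
    intro τ hτ
    rw [IntermediateField.mem_fixingSubgroup_iff] at hτ
    refine hx τ ?_ fun y hy => hτ y ((le_sup_left : L ≤ L ⊔ ⨆ n : ℕ, En p n) hy)
    rw [normInertia_eq_iInf, Subgroup.mem_iInf]
    intro n
    rw [IntermediateField.mem_fixingSubgroup_iff]
    intro y hy
    exact hτ y ((le_sup_right : (⨆ n : ℕ, En p n) ≤ L ⊔ ⨆ n : ℕ, En p n)
      ((le_iSup (En p) n) hy))
  rw [InfiniteGalois.fixedField_fixingSubgroup, sup_iSup] at h1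
  have hdir : Directed (· ≤ ·) fun n : ℕ => L ⊔ En p n := by
    intro n m
    obtain ⟨k, hn, hm⟩ := En_directed p n m
    exact ⟨k, sup_le_sup_left hn L, sup_le_sup_left hm L⟩
  have h2 : x ∈ ((⨆ n : ℕ, L ⊔ En p n : IntermediateField ℚ_[p] Ω) : Set Ω) := h1
  rw [IntermediateField.coe_iSup_of_directed hdir, Set.mem_iUnion] at h2
  obtain ⟨n, hn⟩ := h2
  rcases Nat.eq_zero_or_pos n with rfl | hpos
  · refine ⟨0, ?_⟩
    have : L ⊔ En p 0 ≤ L ⊔ En p (0 + 1) := sup_le_sup_left (by rw [En_zero]; exact bot_le) L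
    exact this hn
  · obtain ⟨k, rfl⟩ := Nat.exists_eq_succ_of_ne_zero hpos.ne'
    exact ⟨k, hn⟩

/-- **(PEU-LOCAL).**  `L ⊆ PadicAlgCl p` such that every unramified enlargement `L ⊔ E₀` is peu
ramifiée, `ζ_p ∈ L`.  Let `R ≠ 0` be such that every inertial `τ` multiplies `R` by a `p`-th root of
unity, and fixes `R` if it fixes `L` pointwise.  Then `‖R‖ = p ^ m` for some `m : ℤ`. -/
theorem exists_norm_eq_zpow_of_inertia_kummer {L : IntermediateField ℚ_[p] Ω}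
    (hPeu : ∀ E₀ : IntermediateField ℚ_[p] Ω, IsUnramifiedIn ℤ_[p] E₀ → IsPeuRamifie p (L ⊔ E₀))
    {ζ : Ω} (hζ : IsPrimitiveRoot ζ p) (hζL : ζ ∈ L) {R : Ω} (hR : R ≠ 0)
    (h1 : ∀ τ : Ω ≃ₐ[ℚ_[p]] Ω, IsInertial τ → (τ R / R) ^ p = 1)
    (h2 : ∀ τ : Ω ≃ₐ[ℚ_[p]] Ω, IsInertial τ → (∀ y ∈ L, τ y = y) → τ R = R) :
    ∃ m : ℤ, ‖R‖ = (p : ℝ) ^ m := by
  have hp : p.Prime := Fact.out
  have hp0 : (0 : ℝ) < p := by exact_mod_cast hp.pos
  -- `w = R ^ p` is fixed by inertia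
  have hw : ∀ τ : Ω ≃ₐ[ℚ_[p]] Ω, τ ∈ normInertia p → (∀ y ∈ (⊥ : IntermediateField ℚ_[p] Ω), τ y = y) →
      τ (R ^ p) = R ^ p := by
    intro τ hτ _
    have h3 := h1 τ hτ
    rw [div_pow, div_eq_one_iff_eq (pow_ne_zero p hR)] at h3
    rw [map_pow, h3]
  obtain ⟨k₁, hk₁⟩ := exists_mem_sup_En (L := (⊥ : IntermediateField ℚ_[p] Ω)) hw
  rw [bot_sup_eq] at hk₁
  obtain ⟨k₂, hk₂⟩ := exists_mem_sup_En (L := L) (x := R) (fun τ hτ hL => h2 τ hτ hL)
  set n : ℕ := (k₁ + 1) * (k₂ + 1) with hn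
  have hnpos : 0 < n := Nat.mul_pos (Nat.succ_pos k₁) (Nat.succ_pos k₂)
  have hn₁ : En p (k₁ + 1) ≤ En p n :=
    (unramExt_le_iff ℤ_[p] Ω (Nat.succ_pos k₁) hnpos).2 (dvd_mul_right _ _)
  have hn₂ : En p (k₂ + 1) ≤ En p n :=
    (unramExt_le_iff ℤ_[p] Ω (Nat.succ_pos k₂) hnpos).2 (dvd_mul_left _ _)
  have hunr : IsUnramifiedIn ℤ_[p] (En p n) := isUnramifiedIn_En p hnpos
  haveI : FiniteDimensional ℚ_[p] (En p n) := hunr.1
  have hwE : R ^ p ∈ En p n := hn₁ hk₁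
  have hRL : R ∈ L ⊔ En p n := (sup_le_sup_left hn₂ L) hk₂
  have hw0 : (⟨R ^ p, hwE⟩ : En p n) ≠ 0 := fun h =>
    pow_ne_zero p hR (congrArg (fun t : En p n => (t : Ω)) h)
  obtain ⟨a, ha⟩ := (isUnramifiedIn_iff_forall_norm_eq_zpow (En p n)).1 hunr ⟨R ^ p, hwE⟩ hw0
  have ha' : ‖R ^ p‖ = (p : ℝ) ^ a := ha
  obtain ⟨m, rfl⟩ := dvd_of_isPeuRamifie (hPeu (En p n) hunr) le_sup_right hunr hζ
    ((le_sup_left : L ≤ L ⊔ En p n) hζL) hwE ha' hRL rfl
  refine ⟨m, ?_⟩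
  rw [norm_pow, mul_comm, zpow_mul, zpow_natCast] at ha'
  exact (pow_left_inj₀ (norm_nonneg R) (zpow_nonneg hp0.le m) hp.ne_zero).1 ha'

end Fermat.Agent.S40.P.PeuLocal
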