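/-
Row 62 [E1-d](β): **Fontaine's property and "peu ramifiée" survive unramified enlargements.**

* `fontaineProp_of_isUnramifiedIn` : a finite unramified `E₀/ℚ_p` has Fontaine's property (any ring
  homomorphism `𝒪_{E₀} → 𝒪_E / 𝔪_E ^ k`, `k ≥ 1`, forces `E₀ ≤ E`: residue degrees);
* `fontaineProp_sup` : `FontaineProp p L → FontaineProp p L' → FontaineProp p (L ⊔ L')`;
* `isPeuRamifie_sup_of_fontaineProp` : `L/ℚ_p` finite Galois with Fontaine's property, `E₀` finite
  unramified, `p` odd ⇒ `IsPeuRamifie p (L ⊔ E₀)`.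

(No Hopf order on `E[p] ⊕ étale` is needed.)
-/
import Mathlib
import Fermat.Agent.S56.Flat.KummerBound.Main

set_option autoImplicit false
set_option linter.style.haveILetI false
set_option linter.unusedSectionVars false

namespace Fermat.Agent.S40.P.PeuUnram

open IsLocalRing IntermediateField Fermat.Agent.S55.LocalInt Fermat.Agent.S55.Local.Unram
  Fermat.Agent.S56.Flat.KummerBound

variable {p : ℕ} [Fact p.Prime]

local notation "Ω" => PadicAlgCl p
local notation "𝒪" E => integralClosure ℤ_[p] E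

/-- every `p`-adic integer is a natural number plus a multiple of `p` -/
theorem exists_eq_natCast_add (z : ℤ_[p]) : ∃ (n : ℕ) (z' : ℤ_[p]), z = n + p * z' := by
  obtain ⟨n, -, hn⟩ := PadicInt.exists_mem_range (x := z)
  rw [PadicInt.maximalIdeal_eq_span_p, Ideal.mem_span_singleton] at hn
  obtain ⟨z', hz'⟩ := hn
  exact ⟨n, z', by rw [← hz']; ring⟩

/-- **Residue degrees**: a ring homomorphism `𝒪_{E₀} → 𝒪_E / 𝔪_E ^ k` (`k ≥ 1`, `E₀` unramified)
forces the residue degree of `E₀` to divide that of `E`. -/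
theorem finrank_residueField_dvd_of_ringHom {E₀ E : IntermediateField ℚ_[p] Ω}
    [FiniteDimensional ℚ_[p] E₀] [FiniteDimensional ℚ_[p] E] (hunr : IsUnramifiedIn ℤ_[p] E₀)
    {k : ℕ} (hk : k ≠ 0) (f : (𝒪 E₀) →+* (𝒪 E) ⧸ maximalIdeal (𝒪 E) ^ k) :
    Module.finrank (ResidueField ℤ_[p]) (ResidueField (𝒪 E₀)) ∣
      Module.finrank (ResidueField ℤ_[p]) (ResidueField (𝒪 E)) := by
  have hp : p.Prime := Fact.out
  -- the composite to the residue field of `E`
  let g : (𝒪 E₀) →+* ResidueField (𝒪 E) :=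
    (Ideal.Quotient.factor (Ideal.pow_le_self hk)).comp f
  have hgnat : ∀ n : ℕ, g (n : 𝒪 E₀) = (n : ResidueField (𝒪 E)) := fun n => map_natCast g n
  have hpres : ((p : ℕ) : ResidueField (𝒪 E)) = 0 := by
    have h1 : ((p : ℕ) : ResidueField (𝒪 E)) = residue (𝒪 E) ((p : ℕ) : 𝒪 E) := by
      rw [map_natCast]
    rw [h1, residue_eq_zero_iff]
    exact natCast_mem_maximalIdeal E
  -- `g` kills the maximal ideal
  have hmax : maximalIdeal (𝒪 E₀) = Ideal.span {((p : ℕ) : 𝒪 E₀)} := by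
    have h1 := hunr.2
    rw [map_maximalIdeal_eq_span] at h1
    exact (IsLocalRing.eq_maximalIdeal h1).symm
  have hgker : ∀ x ∈ maximalIdeal (𝒪 E₀), g x = 0 := by
    intro x hx
    rw [hmax, Ideal.mem_span_singleton] at hx
    obtain ⟨y, rfl⟩ := hx
    rw [map_mul, hgnat, hpres, zero_mul]
  let g' : ResidueField (𝒪 E₀) →+* ResidueField (𝒪 E) :=
    Ideal.Quotient.lift (maximalIdeal (𝒪 E₀)) g hgker
  have hg' : ∀ x : 𝒪 E₀, g' (residue (𝒪 E₀) x) = g x := fun x => Ideal.Quotient.lift_mk _ _ _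
  -- `g'` is an algebra homomorphism over the residue field of `ℤ_p`
  have hcomm : ∀ c : ResidueField ℤ_[p],
      g' (algebraMap (ResidueField ℤ_[p]) (ResidueField (𝒪 E₀)) c) =
        algebraMap (ResidueField ℤ_[p]) (ResidueField (𝒪 E)) c := by
    intro c
    obtain ⟨z, rfl⟩ := residue_surjective c
    obtain ⟨n, z', rfl⟩ := exists_eq_natCast_add z
    have h1 : residue ℤ_[p] ((n : ℤ_[p]) + p * z') = (n : ResidueField ℤ_[p]) := by
      rw [map_add, map_mul, map_natCast, map_natCast]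
      have : ((p : ℕ) : ResidueField ℤ_[p]) = 0 := by
        have h2 : ((p : ℕ) : ResidueField ℤ_[p]) = residue ℤ_[p] ((p : ℕ) : ℤ_[p]) := by
          rw [map_natCast]
        rw [h2, residue_eq_zero_iff, PadicInt.maximalIdeal_eq_span_p]
        exact Ideal.mem_span_singleton_self _
      rw [this, zero_mul, add_zero]
    rw [h1, map_natCast, map_natCast, map_natCast]
  let G : ResidueField (𝒪 E₀) →ₐ[ResidueField ℤ_[p]] ResidueField (𝒪 E) :=
    { g' with commutes' := hcomm }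
  haveI : Finite (ResidueField (𝒪 E)) := inferInstance
  haveI : Finite (ResidueField (𝒪 E₀)) := inferInstance
  exact FiniteField.nonempty_algHom_iff_finrank_dvd.mp ⟨G⟩

/-- **A finite unramified extension of `ℚ_p` has Fontaine's property.** -/
theorem fontaineProp_of_isUnramifiedIn {E₀ : IntermediateField ℚ_[p] Ω}
    (hunr : IsUnramifiedIn ℤ_[p] E₀) : FontaineProp p E₀ := by
  have hp : p.Prime := Fact.out
  haveI : FiniteDimensional ℚ_[p] E₀ := hunr.1
  intro E _ e k _ hk ⟨f⟩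
  have hk0 : k ≠ 0 := by
    rintro rfl
    have := hp.one_lt
    simp at hk
  exact hunr.le_of_finrank_residueField_dvd (finrank_residueField_dvd_of_ringHom hunr hk0 f)

/-- Fontaine's property passes to composita. -/
theorem fontaineProp_sup {L L' : IntermediateField ℚ_[p] Ω} (hL : FontaineProp p L)
    (hL' : FontaineProp p L') : FontaineProp p (L ⊔ L') := by
  intro E _ e k he hk ⟨f⟩
  refine sup_le ?_ ?_
  · exact hL E e k he hk ⟨f.comp (intIncl ℤ_[p] (le_sup_left : L ≤ L ⊔ L')).toRingHom⟩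
  · exact hL' E e k he hk ⟨f.comp (intIncl ℤ_[p] (le_sup_right : L' ≤ L ⊔ L')).toRingHom⟩

/-- **[E1-d](β).**  `L/ℚ_p` finite Galois with Fontaine's property, `E₀/ℚ_p` finite unramified,
`p` odd: the compositum `L ⊔ E₀` is peu ramifiée. -/
theorem isPeuRamifie_sup_of_fontaineProp (hp2 : p ≠ 2) {L E₀ : IntermediateField ℚ_[p] Ω}
    [FiniteDimensional ℚ_[p] L] [IsGalois ℚ_[p] L] (hL : FontaineProp p L)
    (hunr : IsUnramifiedIn ℤ_[p] E₀) : IsPeuRamifie p (L ⊔ E₀) := by
  haveI : FiniteDimensional ℚ_[p] E₀ := hunr.1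
  haveI : IsGalois ℚ_[p] E₀ := hunr.isGalois
  haveI : FiniteDimensional ℚ_[p] (L ⊔ E₀ : IntermediateField ℚ_[p] Ω) :=
    IntermediateField.finiteDimensional_sup L E₀
  haveI : Normal ℚ_[p] (L ⊔ E₀ : IntermediateField ℚ_[p] Ω) := inferInstance
  haveI : IsGalois ℚ_[p] (L ⊔ E₀ : IntermediateField ℚ_[p] Ω) := ⟨⟩
  exact Main.isPeuRamifie_of_fontaineProp hp2 _
    (fontaineProp_sup hL (fontaineProp_of_isUnramifiedIn hunr))

end Fermat.Agent.S40.P.PeuUnram
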