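/-
Row 62 §M1 / row 63 T6′ — the (PEU) package in GLOBAL form, for an elliptic curve over `ℚ` with
good reduction at an odd prime `p`:

`M ⊆ E(ℚ̄)` finite Galois-stable killed by `p` (in the application `M = E[p] ≅ V`), `ζ_p` fixed by
the automorphisms fixing `M` pointwise (Weil pairing / `det = cyclotomic`), and `U ∈ ℚ̄ˣ` such that
every `σ` in the inertia group at `padicPlace p` multiplies `U` by a `p`-th root of unity, trivially
if `σ` fixes `M` pointwise.  Then the `p`-adic valuation of `U` is an INTEGER: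
`‖padicEmbedding p U‖ = p ^ m`.

Ingredients: (E-HOPF) `S40/E/Main.exists_isHopfOrder`, `S56/Flat/PointsField.fontaineProp_pointsField`,
`PeuUnram.isPeuRamifie_sup_of_fontaineProp` ([E1-d](β)), `PeuLocal.exists_norm_eq_zpow_of_inertia_kummer`,
`PT/UnramInstNorm.comap_inertiaSubgroupIn_eq`.
-/
import Mathlib
import Fermat.Agent.S40.E.Main
import Fermat.Agent.S40.P.PeuLocal
import Fermat.Agent.S40.P.PeuUnram

set_option autoImplicit false
set_option linter.style.haveILetI false
set_option linter.unusedSectionVars false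

namespace Fermat.Agent.S40.P.PeuPack

open WeierstrassCurve WeierstrassCurve.Affine Fermat.Agent.S05 Fermat.Agent.S19.Abs
  Fermat.Agent.S56.Flat Fermat.Agent.S56.Flat.PointsField Fermat.Agent.S56.Flat.KummerBound
  Fermat.Agent.S56.Flat.Etale.Connected Fermat.Agent.S56.PT.UnramInstNorm
  Fermat.Agent.S55.Local.Unram Fermat.Agent.S40.E Fermat.Agent.S40.P.PeuLocal
  Fermat.Agent.S40.P.PeuUnram

variable {p : ℕ} [Fact p.Prime]

local notation "Ω" => PadicAlgCl p

/-! ### [E1-d](α′): automorphisms fixing the field of points fix the points -/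

/-- A local automorphism fixing the field of points of a Hopf order pointwise acts trivially on the
underlying Galois module. -/
theorem act_eq_of_fixes_pointsField {M : Type} [AddCommGroup M] {act : GQ → M → M}
    {Hs : Subalgebra (GaloisRep.ratLocalizedAt p) (M → Qb)} (h : IsHopfOrder p act Hs)
    {τ : Ω ≃ₐ[ℚ_[p]] Ω} (hτ : ∀ y ∈ pointsField p Hs, τ y = y) (m : M) :
    act (localGaloisToGlobal p τ) m = m := by
  by_contra hne
  obtain ⟨φ, hφ, hφne⟩ := h.separates _ _ hne
  apply hφne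
  rw [h.equivariant φ hφ]
  apply (padicEmbedding p).toRingHom.injective
  show padicEmbedding p (localGaloisToGlobal p τ (φ m)) = padicEmbedding p (φ m)
  rw [padicEmbedding_localGaloisToGlobal]
  exact hτ _ (embed_mem_pointsField hφ m)

/-! ### The abstract global wrapper -/

/-- **(PEU), global form for a Hopf order.**  `Hs` a Hopf order on a finite Galois module `M` killed
by `p` (`p` odd), `ζ_p` and `U` as in the header. -/
theorem exists_norm_eq_zpow_of_isHopfOrder (hp2 : p ≠ 2) {M : Type} [AddCommGroup M] [Finite M]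
    {act : GQ → M → M} (hact : IsGalAction act)
    {Hs : Subalgebra (GaloisRep.ratLocalizedAt p) (M → Qb)} (h : IsHopfOrder p act Hs)
    (hpM : ∀ y : M, p • y = 0)
    {ζ : Qb} (hζ : IsPrimitiveRoot ζ p)
    (hζM : ∀ σ : GQ, (∀ y : M, act σ y = y) → σ ζ = ζ)
    {U : Qb} (hU : U ≠ 0)
    (h1 : ∀ σ ∈ (padicPlace p).inertiaSubgroupIn ℚ, (σ U / U) ^ p = 1)
    (h2 : ∀ σ ∈ (padicPlace p).inertiaSubgroupIn ℚ, (∀ y : M, act σ y = y) → σ U = U) :
    ∃ m : ℤ, ‖padicEmbedding p U‖ = (p : ℝ) ^ m := by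
  haveI : FiniteDimensional ℚ_[p] (pointsField p Hs) := finiteDimensional_pointsField h
  haveI : IsGalois ℚ_[p] (pointsField p Hs) := isGalois_pointsField h
  have hFont : FontaineProp p (pointsField p Hs) := fontaineProp_pointsField hact h hpM
  have hinj : Function.Injective (padicEmbedding p) := (padicEmbedding p).toRingHom.injective
  -- `ζ_p` lies in the field of points
  have hζΩ : IsPrimitiveRoot (padicEmbedding p ζ) p := hζ.map_of_injective hinj
  have hζL : padicEmbedding p ζ ∈ pointsField p Hs := by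
    rw [← InfiniteGalois.fixedField_fixingSubgroup (pointsField p Hs),
      IntermediateField.mem_fixedField_iff]
    intro τ hτ
    rw [IntermediateField.mem_fixingSubgroup_iff] at hτ
    rw [← padicEmbedding_localGaloisToGlobal,
      hζM _ (fun y => act_eq_of_fixes_pointsField h hτ y)]
  have hmem : ∀ τ : Ω ≃ₐ[ℚ_[p]] Ω, IsInertial τ →
      localGaloisToGlobal p τ ∈ (padicPlace p).inertiaSubgroupIn ℚ := by
    intro τ hτ
    have h3 : τ ∈ ((padicPlace p).inertiaSubgroupIn ℚ).comap (localGaloisToGlobal p) := by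
      rw [comap_inertiaSubgroupIn_eq]
      exact hτ
    exact h3
  refine exists_norm_eq_zpow_of_inertia_kummer
    (fun E₀ hE₀ => isPeuRamifie_sup_of_fontaineProp hp2 hFont hE₀) hζΩ hζL
    ((map_ne_zero_iff _ hinj).2 hU) ?_ ?_
  · intro τ hτ
    have h3 := congrArg (padicEmbedding p) (h1 _ (hmem τ hτ))
    rwa [map_pow, map_div₀, padicEmbedding_localGaloisToGlobal, map_one] at h3
  · intro τ hτ hL
    rw [← padicEmbedding_localGaloisToGlobal,
      h2 _ (hmem τ hτ) (fun y => act_eq_of_fixes_pointsField h hL y)]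

/-! ### The elliptic curve instance -/

/-- **(PEU) for an elliptic curve with good reduction at `p`.** -/
theorem exists_norm_eq_zpow_of_goodReduction (W : Affine ℚ) (hp2 : p ≠ 2)
    (A : ValuationSubring Qb) (hA : A.LiesOverPrime p)
    (hW : IntegralAt (W⁄Qb) A) (hΔ : (W⁄Qb).Δ ∉ A.nonunits)
    (M : AddSubgroup (W⁄Qb).Point) (hfin : Finite M)
    (hM : ∀ σ : GQ, ∀ y ∈ M, Stab.actE W σ y ∈ M) (hpM : ∀ y ∈ M, p • y = 0)
    {ζ : Qb} (hζ : IsPrimitiveRoot ζ p)
    (hζM : ∀ σ : GQ, (∀ y ∈ M, Stab.actE W σ y = y) → σ ζ = ζ)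
    {U : Qb} (hU : U ≠ 0)
    (h1 : ∀ σ ∈ (padicPlace p).inertiaSubgroupIn ℚ, (σ U / U) ^ p = 1)
    (h2 : ∀ σ ∈ (padicPlace p).inertiaSubgroupIn ℚ,
      (∀ y ∈ M, Stab.actE W σ y = y) → σ U = U) :
    ∃ m : ℤ, ‖padicEmbedding p U‖ = (p : ℝ) ^ m := by
  obtain ⟨Hs, hHs⟩ := Main.exists_isHopfOrder W p A hA hW hΔ M hfin hM
  haveI : Finite M := hfin
  have hsub : ∀ σ : GQ, (∀ y : M, Main.actSub W M hM σ y = y) → ∀ y ∈ M, Stab.actE W σ y = y :=
    fun σ hσ y hy => congrArg Subtype.val (hσ ⟨y, hy⟩)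
  exact exists_norm_eq_zpow_of_isHopfOrder hp2 (Main.isGalAction_actSub W M hM) hHs
    (fun y => Subtype.ext (by simpa using hpM y y.2)) hζ
    (fun σ hσ => hζM σ (hsub σ hσ)) hU h1 (fun σ hσI hσ => h2 σ hσI (hsub σ hσ))

end Fermat.Agent.S40.P.PeuPack
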