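/-
S40, row 65 (T6′, static route; helper5 #3073 (R5), helper19 #3092 (R5′)): **the approximate
peu-ramifié lemma, ABSTRACT CORE** (Mathlib only; the instantiation at `K = L_V ⊔ E₀`, `F` = its
maximal tamely ramified subfield, is helper17's).

Setting: a field `K` with a nonarchimedean absolute value `v`, an isometric ring endomorphism `σ`, a
subfield `F` fixed by `σ`, a real `r < 1`.

* `Break v σ F r` : the "first ramification break" package
    (B1) `v (σ z - z) ≤ r * v z` for all `z`,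
    (B2) `v (σ γ - γ) = r * v γ` whenever `v γ ∉ v (F)`.
* `break_of_powerBasis` : (B1) + (B2) hold with `r = v (σ π / π - 1)` as soon as `1, π, …, π^(p-1)` span `K`
  over `F`, `v π ^ i ∉ v (Fˣ)` for `0 < i < p` (totally ramified of degree `p`), `v p < 1`.
* `exists_mem_of_approx_root` (**(R5′)**): if moreover `θ ∈ K`, `σ θ = ζ θ` (`ζ ≠ 1`, `v p = v (ζ - 1)^(p-1)`),
  `v (θ - 1) ^ p ≤ v p` (a peu-ramifié Kummer generator `θ ^ p ∈ 1 + p 𝒪_F`), then for `γ ≠ 0` with
  `γ ^ p = c ν`, `σ c = c`, `v (ν - 1) ≤ v (ζ - 1)`:  `v γ ∈ v (F)`.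
  (So `γ ^ p ∈ p ^ a (1 + (ζ - 1) 𝒪_K)` forces `v γ ∈ v (Fˣ)`, hence `p ∣ a` when `p ∤ e(F)`.)
-/
import Mathlib

set_option autoImplicit false

namespace Fermat.Agent.S40.P.PeuApprox

open Finset

variable {K : Type*} [Field K]

/-! ### Ultrametric helpers for an `AbsoluteValue K ℝ` -/

section Ultra

variable (v : AbsoluteValue K ℝ) (hv : IsNonarchimedean v)

include hv

theorem sub_le_max (a b : K) : v (a - b) ≤ max (v a) (v b) := by
  have := hv a (-b)
  rwa [← sub_eq_add_neg, v.map_neg] at this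

theorem add_eq_of_lt {a b : K} (h : v b < v a) : v (a + b) = v a := by
  refine le_antisymm ((hv a b).trans (max_le le_rfl h.le)) ?_
  by_contra hlt
  rw [not_le] at hlt
  have h1 : v a ≤ max (v (a + b)) (v b) := by
    have := sub_le_max v hv (a + b) b
    rwa [add_sub_cancel_right] at this
  exact absurd h1 (not_le.2 (max_lt hlt h))

theorem sum_le {ι : Type*} (s : Finset ι) (f : ι → K) {C : ℝ} (hC : 0 ≤ C)
    (h : ∀ i ∈ s, v (f i) ≤ C) : v (∑ i ∈ s, f i) ≤ C := by
  classical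
  induction s using Finset.induction_on with
  | empty => simpa using hC
  | insert a s ha ih =>
    rw [Finset.sum_insert ha]
    exact (hv _ _).trans (max_le (h a (Finset.mem_insert_self a s))
      (ih fun i hi => h i (Finset.mem_insert_of_mem hi)))

theorem natCast_le_one (n : ℕ) : v (n : K) ≤ 1 := by
  induction n with
  | zero => simp
  | succ n ih =>
    rw [Nat.cast_succ]
    exact (hv _ _).trans (max_le ih (by rw [v.map_one]))

/-- A sum whose nonzero terms have pairwise distinct absolute values has the absolute value of its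
largest term. -/
theorem exists_sum_eq (n : ℕ) (w : ℕ → K)
    (hw : ∀ i < n, ∀ j < n, i < j → w i ≠ 0 → w j ≠ 0 → v (w i) ≠ v (w j)) (hn : 0 < n) :
    ∃ k < n, (∀ i < n, v (w i) ≤ v (w k)) ∧ v (∑ i ∈ range n, w i) = v (w k) := by
  classical
  obtain ⟨k, hk, hmax⟩ := (range n).exists_max_image (fun i => v (w i))
    ⟨0, Finset.mem_range.2 hn⟩
  rw [Finset.mem_range] at hk
  refine ⟨k, hk, fun i hi => hmax i (Finset.mem_range.2 hi), ?_⟩
  by_cases hk0 : w k = 0
  · have hall : ∀ i ∈ range n, w i = 0 := by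
      intro i hi
      have := hmax i hi
      rw [hk0, v.map_zero] at this
      exact (v.eq_zero).1 (le_antisymm this (v.nonneg _))
    rw [Finset.sum_eq_zero hall, hk0]
  · have hlt : ∀ j ∈ range n, j ≠ k → v (w j) < v (w k) := by
      intro j hj hjk
      rw [Finset.mem_range] at hj
      refine lt_of_le_of_ne (hmax j (Finset.mem_range.2 hj)) ?_
      by_cases hj0 : w j = 0
      · rw [hj0, v.map_zero]
        exact (v.pos hk0).ne
      · rcases lt_or_gt_of_ne hjk with h | h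
        · exact hw j hj k hk h hj0 hk0
        · exact (hw k hk j hj h hk0 hj0).symm
    rw [← Finset.add_sum_erase _ _ (Finset.mem_range.2 hk)]
    by_cases he : ∑ i ∈ (range n).erase k, w i = 0
    · rw [he, add_zero]
    · refine add_eq_of_lt v hv ?_
      -- the rest is `< v (w k)`: bound by the max over a finite set of smaller values
      have hpos : 0 < v (w k) := v.pos hk0
      -- choose `C` = max of the others
      by_cases hne : ((range n).erase k).Nonempty
      · obtain ⟨m, hm, hmm⟩ := ((range n).erase k).exists_max_image (fun i => v (w i)) hne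
        have hm' := Finset.mem_erase.1 hm
        refine lt_of_le_of_lt (sum_le v hv _ _ (v.nonneg (w m)) fun i hi => hmm i hi) ?_
        exact hlt m hm'.2 hm'.1
      · rw [Finset.not_nonempty_iff_eq_empty] at hne
        rw [hne, Finset.sum_empty] at he
        exact absurd rfl he

end Ultra

/-! ### The break package -/

/-- The "first break" package for `(K, v, σ, F, r)`. -/
structure Break (v : AbsoluteValue K ℝ) (σ : K →+* K) (F : Subfield K) (r : ℝ) : Prop where
  le : ∀ z : K, v (σ z - z) ≤ r * v z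
  eq : ∀ γ : K, γ ≠ 0 → (¬ ∃ g ∈ F, v γ = v g) → v (σ γ - γ) = r * v γ

section Approx

variable (v : AbsoluteValue K ℝ) (hv : IsNonarchimedean v) (σ : K →+* K) (F : Subfield K)

include hv

omit σ F in
/-- `(1 + x) ^ p - 1` has absolute value `v x ^ p` when `v p ^ (1/(p-1)) < v x < 1`
(stated with an auxiliary `a`, `v p = a ^ (p - 1)`, `a < v x`). -/
theorem one_add_pow_sub_one {p : ℕ} (hp : p.Prime) {a : ℝ} (ha0 : 0 ≤ a)
    (hpa : v (p : K) = a ^ (p - 1)) {x : K} (hax : a < v x) (hx1 : v x < 1) :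
    v ((1 + x) ^ p - 1) = v x ^ p := by
  classical
  have hp2 : 2 ≤ p := hp.two_le
  have hxpos : 0 < v x := lt_of_le_of_lt ha0 hax
  -- binomial expansion
  have hexp : (1 + x) ^ p - 1 = x ^ p + ∑ m ∈ Ico 1 p, x ^ m * (p.choose m : K) := by
    rw [add_comm 1 x, add_pow, Finset.range_eq_Ico, Finset.sum_Ico_succ_top (Nat.zero_le p),
      Finset.sum_eq_sum_Ico_succ_bot hp.pos]
    simp only [one_pow, mul_one, pow_zero, Nat.choose_zero_right, Nat.cast_one, Nat.sub_self,
      Nat.choose_self, zero_add]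
    ring
  have hmid : v (∑ m ∈ Ico 1 p, x ^ m * (p.choose m : K)) ≤ v (p : K) * v x := by
    refine sum_le v hv _ _ (mul_nonneg (v.nonneg _) (v.nonneg _)) fun m hm => ?_
    rw [Finset.mem_Ico] at hm
    obtain ⟨k, hk⟩ := hp.dvd_choose_self (by omega) hm.2
    rw [hk, Nat.cast_mul, v.map_mul, v.map_mul, map_pow, mul_comm]
    have h1 : v (k : K) ≤ 1 := natCast_le_one v hv k
    have h2 : v x ^ m ≤ v x := by
      calc v x ^ m ≤ v x ^ 1 := pow_le_pow_of_le_one hxpos.le hx1.le hm.1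
        _ = v x := pow_one _
    calc v (p : K) * v (k : K) * v x ^ m ≤ v (p : K) * 1 * v x := by
          gcongr
      _ = v (p : K) * v x := by ring
  have hlt : v (∑ m ∈ Ico 1 p, x ^ m * (p.choose m : K)) < v (x ^ p) := by
    refine lt_of_le_of_lt hmid ?_
    rw [map_pow, hpa]
    have : p = (p - 1) + 1 := by omega
    conv_rhs => rw [this, pow_succ]
    have h3 : a ^ (p - 1) < v x ^ (p - 1) := pow_lt_pow_left₀ hax ha0 (by omega)
    exact mul_lt_mul_of_pos_right h3 hxpos
  rw [hexp, add_eq_of_lt v hv hlt, map_pow]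

/-- **(R5′), abstract form.** -/
theorem exists_mem_of_approx_root {p : ℕ} (hp : p.Prime) {ζ : K} (hζ1 : ζ ≠ 1)
    (hpz : v (p : K) = v (ζ - 1) ^ (p - 1)) (hp1 : v (p : K) < 1)
    {r : ℝ} (hr1 : r < 1) (hB : Break v σ F r)
    {θ : K} (hθ : σ θ = ζ * θ) (hθp : v (θ - 1) ^ p ≤ v (p : K))
    {γ c ν : K} (hγ : γ ≠ 0) (hc : σ c = c) (hc0 : c ≠ 0) (hrel : γ ^ p = c * ν)
    (hν : v (ν - 1) ≤ v (ζ - 1)) :
    ∃ g ∈ F, v γ = v g := by
  classical
  by_contra hno
  have hp2 : 2 ≤ p := hp.two_le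
  set a : ℝ := v (ζ - 1) with ha
  have ha0 : 0 < a := v.pos (sub_ne_zero.2 hζ1)
  -- `a < 1`
  have ha1 : a < 1 := by
    by_contra h
    rw [not_lt] at h
    have : (1 : ℝ) ≤ a ^ (p - 1) := one_le_pow₀ h
    rw [← hpz] at this
    exact absurd hp1 (not_lt.2 this)
  -- `y = θ - 1`
  set y : K := θ - 1 with hy
  have hy1 : v y < 1 := by
    by_contra h
    rw [not_lt] at h
    have : (1 : ℝ) ≤ v y ^ p := one_le_pow₀ h
    exact absurd (lt_of_le_of_lt (this.trans hθp) hp1) (lt_irrefl _)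
  have hθ1 : v θ = 1 := by
    have : θ = 1 + y := by rw [hy]; ring
    rw [this, add_eq_of_lt v hv (by rw [v.map_one]; exact hy1), v.map_one]
  have hσy : σ y - y = (ζ - 1) * θ := by
    rw [hy, map_sub, map_one, hθ]; ring
  have h1 : a ≤ r * v y := by
    have := hB.le y
    rwa [hσy, v.map_mul, hθ1, mul_one] at this
  have hypos : 0 < v y := by
    by_contra h
    have h0 : v y = 0 := le_antisymm (not_lt.1 h) (v.nonneg _)
    rw [h0, mul_zero] at h1
    exact absurd ha0 (not_lt.2 h1)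
  have hrpos : 0 < r := by
    by_contra h
    rw [not_lt] at h
    have : r * v y ≤ 0 := mul_nonpos_of_nonpos_of_nonneg h hypos.le
    exact absurd ha0 (not_lt.2 (h1.trans this))
  -- `a < r`
  have har : a < r := by
    by_contra h
    rw [not_lt] at h
    have : r * v y < a := by
      calc r * v y ≤ a * v y := by gcongr
        _ < a * 1 := by gcongr
        _ = a := mul_one a
    exact absurd h1 (not_le.2 this)
  -- `a ≤ r ^ p`
  have harp : a ≤ r ^ p := by
    have h2 : a ^ p ≤ r ^ p * v y ^ p := by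
      rw [← mul_pow]
      exact pow_le_pow_left₀ ha0.le h1 p
    have h3 : r ^ p * v y ^ p ≤ r ^ p * a ^ (p - 1) := by
      rw [← hpz]
      gcongr
    have h4 : a ^ p = a * a ^ (p - 1) := by
      have : p = (p - 1) + 1 := by omega
      conv_lhs => rw [this, pow_succ]
      ring
    have h5 : a * a ^ (p - 1) ≤ r ^ p * a ^ (p - 1) := h4 ▸ (h2.trans h3)
    exact le_of_mul_le_mul_right h5 (pow_pos ha0 _)
  -- the element `η = σ γ / γ`, `x = η - 1`
  have hσγ : σ γ ≠ 0 := fun h => hγ ((map_eq_zero σ).1 h)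
  set x : K := (σ γ - γ) / γ with hx
  have hvx : v x = r := by
    rw [hx, map_div₀, hB.eq γ hγ hno, mul_div_assoc, div_self (v.pos hγ).ne', mul_one]
  have hηx : 1 + x = σ γ / γ := by
    rw [hx]; field_simp; ring
  -- `ν` is a unit
  have hν1 : v ν = 1 := by
    have : ν = 1 + (ν - 1) := by ring
    rw [this, add_eq_of_lt v hv (by rw [v.map_one]; exact lt_of_le_of_lt hν ha1), v.map_one]
  have hν0 : ν ≠ 0 := fun h => by rw [h, v.map_zero] at hν1; exact zero_ne_one hν1
  -- `η ^ p = σ ν / ν`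
  have hηp : (1 + x) ^ p = σ ν / ν := by
    rw [hηx, div_pow, ← map_pow, hrel, map_mul, hc]
    field_simp
  have hle : v ((1 + x) ^ p - 1) ≤ r * a := by
    have h6 : (1 + x) ^ p - 1 = (σ (ν - 1) - (ν - 1)) / ν := by
      rw [hηp, map_sub, map_one]; field_simp; ring
    rw [h6, map_div₀, hν1, div_one]
    exact (hB.le (ν - 1)).trans (by gcongr)
  have heq : v ((1 + x) ^ p - 1) = r ^ p := by
    have := one_add_pow_sub_one v hv hp ha0.le hpz (x := x) (by rw [hvx]; exact har)
      (by rw [hvx]; exact hr1)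
    rw [this, hvx]
  -- `r ^ (p-1) ≤ a ≤ r ^ p`: contradiction with `r < 1`
  rw [heq] at hle
  have h7 : r ^ p ≤ r * r ^ p := hle.trans (by gcongr)
  have h8 : (1 : ℝ) * r ^ p ≤ r * r ^ p := by rwa [one_mul]
  have h9 : (1 : ℝ) ≤ r := le_of_mul_le_mul_right h8 (pow_pos hrpos _)
  exact absurd hr1 (not_lt.2 h9)

end Approx

/-! ### The break package from a totally ramified power basis -/

section BreakOfBasis

variable (v : AbsoluteValue K ℝ) (hv : IsNonarchimedean v)

include hv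

theorem intCast_le_one (n : ℤ) : v (n : K) ≤ 1 := by
  obtain ⟨m, rfl | rfl⟩ := Int.eq_nat_or_neg n
  · simpa using natCast_le_one v hv m
  · simpa using natCast_le_one v hv m

/-- `v n = 1` for `n` prime to `p` when `v p < 1`. -/
theorem natCast_eq_one {p : ℕ} (hp1 : v (p : K) < 1) {n : ℕ} (hn : Nat.Coprime n p) :
    v (n : K) = 1 := by
  refine le_antisymm (natCast_le_one v hv n) ?_
  obtain ⟨a, b, hab⟩ := (Nat.isCoprime_iff_coprime.2 hn)
  have h1 : (a : K) * (n : K) + (b : K) * (p : K) = 1 := by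
    have := congrArg (Int.cast (R := K)) hab
    push_cast at this
    exact this
  have h2 : v ((b : K) * (p : K)) < 1 := by
    rw [v.map_mul]
    calc v (b : K) * v (p : K) ≤ 1 * v (p : K) := by
          gcongr
          exact intCast_le_one v hv b
      _ = v (p : K) := one_mul _
      _ < 1 := hp1
  have h3 : (1 : ℝ) ≤ v ((a : K) * (n : K)) := by
    by_contra h
    rw [not_le] at h
    have := hv ((a : K) * (n : K)) ((b : K) * (p : K))
    rw [h1, v.map_one] at this
    exact absurd this (not_le.2 (max_lt h h2))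
  rw [v.map_mul] at h3
  calc (1 : ℝ) ≤ v (a : K) * v (n : K) := h3
    _ ≤ 1 * v (n : K) := by
      gcongr
      exact intCast_le_one v hv a
    _ = v (n : K) := one_mul _

/-- `v ((1 + x) ^ j - 1) ≤ v x` for `v x ≤ 1`. -/
theorem one_add_pow_sub_one_le {x : K} (hx : v x ≤ 1) (j : ℕ) : v ((1 + x) ^ j - 1) ≤ v x := by
  have h1 : v (1 + x) ≤ 1 := (hv 1 x).trans (max_le (by rw [v.map_one]) hx)
  have hgeom : (1 + x) ^ j - 1 = (∑ l ∈ range j, (1 + x) ^ l) * x := by
    have := geom_sum_mul (1 + x) j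
    rw [add_sub_cancel_left] at this
    exact this.symm
  rw [hgeom, v.map_mul]
  have h2 : v (∑ l ∈ range j, (1 + x) ^ l) ≤ 1 :=
    sum_le v hv _ _ zero_le_one fun l _ => by
      rw [map_pow]
      exact pow_le_one₀ (v.nonneg _) h1
  calc v (∑ l ∈ range j, (1 + x) ^ l) * v x ≤ 1 * v x := by
        gcongr
    _ = v x := one_mul _

/-- `v ((1 + x) ^ i - 1) = v x` for `v x < 1`, `0 < i < p`, `v p < 1`. -/
theorem one_add_pow_sub_one_eq {p : ℕ} (hp : p.Prime) (hp1 : v (p : K) < 1) {x : K}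
    (hx : v x < 1) {i : ℕ} (hi0 : 0 < i) (hip : i < p) : v ((1 + x) ^ i - 1) = v x := by
  have hgeom : (1 + x) ^ i - 1 = (∑ l ∈ range i, (1 + x) ^ l) * x := by
    have := geom_sum_mul (1 + x) i
    rw [add_sub_cancel_left] at this
    exact this.symm
  have hsum : ∑ l ∈ range i, (1 + x) ^ l = (i : K) + ∑ l ∈ range i, ((1 + x) ^ l - 1) := by
    rw [Finset.sum_sub_distrib, Finset.sum_const, Finset.card_range, nsmul_eq_mul, mul_one]
    ring
  have hi1 : v (i : K) = 1 :=
    natCast_eq_one v hv hp1 ((Nat.coprime_primes_iff_ne_of_lt_aux hp hi0 hip))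
  have h2 : v (∑ l ∈ range i, ((1 + x) ^ l - 1)) < v (i : K) := by
    rw [hi1]
    refine lt_of_le_of_lt (sum_le v hv _ _ (v.nonneg x) fun l _ =>
      one_add_pow_sub_one_le v hv hx.le l) hx
  rw [hgeom, v.map_mul, hsum, add_eq_of_lt v hv h2, hi1, one_mul]
  where
    Nat.coprime_primes_iff_ne_of_lt_aux {p i : ℕ} (hp : p.Prime) (hi0 : 0 < i) (hip : i < p) :
        Nat.Coprime i p :=
      (Nat.coprime_comm.1 ((Nat.Prime.coprime_iff_not_dvd hp).2
        (fun h => absurd (Nat.le_of_dvd hi0 h) (not_le.2 hip))))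

variable (σ : K →+* K) (F : Subfield K)

/-- **The break package from a power basis.**  If `1, π, …, π^(p-1)` span `K` over the `σ`-fixed
subfield `F`, `v π ^ i ∉ v (Fˣ)` for `0 < i < p`, `v p < 1`, and `r := v (σ π / π - 1) < 1`, then
`Break v σ F r`. -/
theorem break_of_powerBasis (hF : ∀ x ∈ F, σ x = x) {p : ℕ} (hp : p.Prime)
    (hp1 : v (p : K) < 1) {π : K} (hπ0 : π ≠ 0)
    (hπ : ∀ i, 0 < i → i < p → ∀ g ∈ F, g ≠ 0 → v π ^ i ≠ v g)
    (hspan : ∀ z : K, ∃ a : ℕ → K, (∀ i, a i ∈ F) ∧ z = ∑ i ∈ range p, a i * π ^ i)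
    (hr1 : v (σ π / π - 1) < 1) :
    Break v σ F (v (σ π / π - 1)) := by
  classical
  set x : K := σ π / π - 1 with hx
  set r : ℝ := v x with hr
  have hσπ : σ π = π * (1 + x) := by
    rw [hx]; field_simp; ring
  have hr0 : 0 ≤ r := v.nonneg _
  -- distinctness of the absolute values of the terms
  have hdist : ∀ (a : ℕ → K), (∀ i, a i ∈ F) → ∀ i < p, ∀ j < p, i < j →
      a i * π ^ i ≠ 0 → a j * π ^ j ≠ 0 → v (a i * π ^ i) ≠ v (a j * π ^ j) := by
    intro a ha i _ j hj hij hi0 hj0 he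
    have hai : a i ≠ 0 := left_ne_zero_of_mul hi0
    have haj : a j ≠ 0 := left_ne_zero_of_mul hj0
    rw [v.map_mul, v.map_mul, map_pow, map_pow] at he
    have hπpos : 0 < v π := v.pos hπ0
    have hji : j = i + (j - i) := by omega
    rw [hji, pow_add] at he
    have h1 : v (a i) = v (a (i + (j - i))) * v π ^ (j - i) := by
      have hpos : 0 < v π ^ i := pow_pos hπpos i
      have : v (a i) * v π ^ i = (v (a (i + (j - i))) * v π ^ (j - i)) * v π ^ i := by
        rw [he]; ring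
      exact mul_right_cancel₀ hpos.ne' this
    rw [← hji] at h1
    refine hπ (j - i) (by omega) (by omega) (a i / a j) (F.div_mem (ha i) (ha j))
      (div_ne_zero hai haj) ?_
    rw [map_div₀, h1]
    field_simp [(v.pos haj).ne']
  -- the two expansions
  have key : ∀ z : K, ∃ a : ℕ → K, (∀ i, a i ∈ F) ∧ z = ∑ i ∈ range p, a i * π ^ i ∧
      σ z - z = ∑ i ∈ range p, a i * π ^ i * ((1 + x) ^ i - 1) := by
    intro z
    obtain ⟨a, ha, hz⟩ := hspan z
    refine ⟨a, ha, hz, ?_⟩
    rw [hz, map_sum, ← Finset.sum_sub_distrib]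
    refine Finset.sum_congr rfl fun i _ => ?_
    rw [map_mul, map_pow, hF _ (ha i), hσπ, mul_pow]
    ring
  have hterm : ∀ (a : ℕ → K) (i : ℕ), 0 < i → i < p →
      v (a i * π ^ i * ((1 + x) ^ i - 1)) = r * v (a i * π ^ i) := by
    intro a i hi0 hip
    rw [v.map_mul (a i * π ^ i), one_add_pow_sub_one_eq v hv hp hp1 hr1 hi0 hip, mul_comm]
  have hcore : ∀ z : K, v (σ z - z) ≤ r * v z ∧
      (z ≠ 0 → (¬ ∃ g ∈ F, v z = v g) → v (σ z - z) = r * v z) := by
    intro z
    obtain ⟨a, ha, hz, hσz⟩ := key z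
    obtain ⟨k, hk, hkmax, hkz⟩ := exists_sum_eq v hv p (fun i => a i * π ^ i)
      (fun i hi j hj hij => hdist a ha i hi j hj hij) hp.pos
    obtain ⟨k', hk', hk'max, hk'z⟩ := exists_sum_eq v hv p
      (fun i => a i * π ^ i * ((1 + x) ^ i - 1)) (by
        intro i hi j hj hij hi0 hj0
        have hi1 : 0 < i := by
          rcases Nat.eq_zero_or_pos i with h | h
          · exfalso; apply hi0; rw [h]; simp
          · exact h
        have hj1 : 0 < j := lt_trans hi1 hij
        rw [hterm a i hi1 hi, hterm a j hj1 hj]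
        have hrpos : 0 < r := by
          rcases hr0.lt_or_eq with h | h
          · exact h
          · exfalso
            apply hi0
            have := hterm a i hi1 hi
            rw [← h, zero_mul] at this
            exact (v.eq_zero).1 this
        intro he
        exact hdist a ha i hi j hj hij (left_ne_zero_of_mul hi0) (left_ne_zero_of_mul hj0)
          (mul_left_cancel₀ hrpos.ne' he)) hp.pos
    have hvz : v z = v (a k * π ^ k) := by rw [hz]; exact hkz
    have hvσz : v (σ z - z) = v (a k' * π ^ k' * ((1 + x) ^ k' - 1)) := by rw [hσz]; exact hk'z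
    have hle : v (σ z - z) ≤ r * v z := by
      rw [hvσz, hvz]
      rcases Nat.eq_zero_or_pos k' with h | h
      · rw [h]
        simp only [pow_zero, mul_one, sub_self, mul_zero, v.map_zero]
        exact mul_nonneg hr0 (v.nonneg _)
      · rw [hterm a k' h hk']
        exact mul_le_mul_of_nonneg_left (hkmax k' hk') hr0
    refine ⟨hle, fun _ hno => le_antisymm hle ?_⟩
    have hk0 : 0 < k := by
      rcases Nat.eq_zero_or_pos k with h | h
      · exfalso
        apply hno
        refine ⟨a 0, ha 0, ?_⟩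
        rw [hvz, h]
        simp
      · exact h
    calc r * v z = v (a k * π ^ k * ((1 + x) ^ k - 1)) := by rw [hterm a k hk0 hk, hvz]
      _ ≤ v (a k' * π ^ k' * ((1 + x) ^ k' - 1)) := hk'max k hk
      _ = v (σ z - z) := hvσz.symm
  exact ⟨fun z => (hcore z).1, fun γ hγ hno => (hcore γ).2 hγ hno⟩

/-- **(R5′) from a power basis**: the combination of `break_of_powerBasis` and
`exists_mem_of_approx_root`. -/
theorem exists_mem_of_powerBasis (hF : ∀ x ∈ F, σ x = x) {p : ℕ} (hp : p.Prime)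
    (hp1 : v (p : K) < 1) {π : K} (hπ0 : π ≠ 0)
    (hπ : ∀ i, 0 < i → i < p → ∀ g ∈ F, g ≠ 0 → v π ^ i ≠ v g)
    (hspan : ∀ z : K, ∃ a : ℕ → K, (∀ i, a i ∈ F) ∧ z = ∑ i ∈ range p, a i * π ^ i)
    (hr1 : v (σ π / π - 1) < 1)
    {ζ : K} (hζ1 : ζ ≠ 1) (hpz : v (p : K) = v (ζ - 1) ^ (p - 1))
    {θ : K} (hθ : σ θ = ζ * θ) (hθp : v (θ - 1) ^ p ≤ v (p : K))
    {γ c ν : K} (hγ : γ ≠ 0) (hc : c ∈ F) (hc0 : c ≠ 0) (hrel : γ ^ p = c * ν)
    (hν : v (ν - 1) ≤ v (ζ - 1)) :
    ∃ g ∈ F, v γ = v g :=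
  exists_mem_of_approx_root v hv σ F hp hζ1 hpz hp1 hr1
    (break_of_powerBasis v hv σ F hF hp hp1 hπ0 hπ hspan hr1) hθ hθp hγ (hF c hc) hc0 hrel hν

end BreakOfBasis

/-! ### The arithmetic conclusion `p ∣ a` -/

section Dvd

variable (v : AbsoluteValue K ℝ) (F : Subfield K)

/-- If the value group of `F` is generated by `ρ`, `v p = ρ ^ e` with `p ∤ e`, and
`γ ^ p = p ^ a * ν` with `ν` a unit and `v γ ∈ v (F)`, then `p ∣ a`. -/
theorem dvd_of_mem {p : ℕ} (hp : p.Prime) {ρ : ℝ} (hρ0 : 0 < ρ) (hρ1 : ρ < 1) {e : ℕ}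
    (hpe : ¬ p ∣ e) (hvp : v (p : K) = ρ ^ e)
    (hval : ∀ g ∈ F, g ≠ 0 → ∃ m : ℤ, v g = ρ ^ m)
    {γ ν : K} {a : ℤ} (hrel : γ ^ p = (p : K) ^ a * ν) (hν1 : v ν = 1)
    (hmem : ∃ g ∈ F, v γ = v g) : (p : ℤ) ∣ a := by
  obtain ⟨g, hgF, hg⟩ := hmem
  have hp0 : (p : K) ≠ 0 := by
    intro h
    rw [h, v.map_zero] at hvp
    exact (pow_pos hρ0 e).ne hvp
  have hν0 : ν ≠ 0 := fun h => by rw [h, v.map_zero] at hν1; exact zero_ne_one hν1
  have hγ0 : γ ≠ 0 := by
    intro h
    rw [h, zero_pow hp.ne_zero] at hrel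
    exact (mul_ne_zero (zpow_ne_zero a hp0) hν0) hrel.symm
  have hg0 : g ≠ 0 := by
    intro h
    rw [h, v.map_zero] at hg
    exact (v.pos hγ0).ne' hg
  obtain ⟨m, hm⟩ := hval g hgF hg0
  have h1 : v γ ^ p = ρ ^ ((e : ℤ) * a) := by
    rw [← map_pow, hrel, v.map_mul, hν1, mul_one, map_zpow₀, hvp, ← zpow_natCast ρ e, ← zpow_mul]
  have h2 : v γ ^ p = ρ ^ (m * (p : ℤ)) := by
    rw [hg, hm, zpow_mul, zpow_natCast]
  have h3 : m * (p : ℤ) = (e : ℤ) * a :=
    zpow_right_injective₀ hρ0 hρ1.ne (h2.symm.trans h1)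
  have h4 : (p : ℤ) ∣ (e : ℤ) * a := ⟨m, by rw [← h3]; ring⟩
  rcases (Nat.prime_iff_prime_int.1 hp).dvd_or_dvd h4 with h | h
  · exact absurd (Int.natCast_dvd_natCast.1 h) hpe
  · exact h

end Dvd

end Fermat.Agent.S40.P.PeuApprox
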