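/-
S40, row 67 (T6′, static route), leaf (R5′): **the CYCLIC form of the approximate peu-ramifié lemma**
(Mathlib + `PeuApprox` only).  Everything of (R5′) that is not dictionary:

`K` a field with a nonarchimedean absolute value `v`, `σ` a ring endomorphism with `σ^[p] = id`,
`F` its fixed subfield, `ζ ∈ F` a primitive `p`-th root of unity, `π ∈ K` with
`v π ^ i ∉ v (Fˣ)` (`0 < i < p`) and `v (σ π / π - 1) < 1`, and the abstract peu-ramifié property
`hPeu` of `K / F` (every `w ∈ Fˣ` with a `p`-th root in `K` is `u z ^ p`, `v (u - 1) ≤ v p`).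
Then for `γ ^ p = c ν`, `c ∈ Fˣ`, `v (ν - 1) ≤ v (ζ - 1)`:  `v γ ∈ v (Fˣ)`.

Inside: Lagrange resolvents `res σ ζ p j x = ∑ i < p, ζ^(-ij) σ^i x` give a Kummer generator `θ`
(`σ θ = ζ θ`) and the eigen-decomposition `z = p⁻¹ ∑ j, (res j z / θ^j) θ^j` (so `[K : F] ≤ p`);
ultrametric independence of `1, π, …, π^(p-1)` and a dimension count give the power basis needed
by `PeuApprox.break_of_powerBasis`.
-/
import Mathlib
import Fermat.Agent.S40.P.PeuApprox

set_option autoImplicit false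
set_option linter.style.haveILetI false

namespace Fermat.Agent.S40.P.PeuCyclic

open Finset Fermat.Agent.S40.P.PeuApprox

variable {K : Type*} [Field K]

/-! ### Lagrange resolvents -/

section Resolvent

variable (σ : K →+* K) (ζ : K) (p : ℕ)

/-- The Lagrange resolvent `∑ i < p, ζ^(-ij) σ^i x`. -/
def res (j : ℕ) (x : K) : K := ∑ i ∈ range p, (ζ⁻¹) ^ (i * j) * σ^[i] x

variable {σ ζ p}

theorem map_res (hp0 : p ≠ 0) (hζ : σ ζ = ζ) (hζp : ζ ^ p = 1) (hσp : ∀ x, σ^[p] x = x) (j : ℕ)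
    (x : K) : σ (res σ ζ p j x) = ζ ^ j * res σ ζ p j x := by
  have hζ0 : ζ ≠ 0 := by
    intro h
    rw [h, zero_pow hp0] at hζp
    exact zero_ne_one hζp
  have hζi : σ ζ⁻¹ = ζ⁻¹ := by rw [map_inv₀, hζ]
  have hinvp : (ζ⁻¹) ^ p = 1 := by rw [inv_pow, hζp, inv_one]
  set f : ℕ → K := fun i => ζ ^ j * ((ζ⁻¹) ^ (i * j) * σ^[i] x) with hf
  have h1 : σ (res σ ζ p j x) = ∑ i ∈ range p, f (i + 1) := by
    rw [res, map_sum]
    refine Finset.sum_congr rfl fun i _ => ?_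
    rw [map_mul, map_pow, hζi, hf]
    simp only
    rw [Function.iterate_succ_apply', add_mul, one_mul, pow_add, ← mul_assoc, ← mul_assoc]
    congr 1
    rw [mul_comm (ζ ^ j), mul_assoc, ← mul_pow, mul_inv_cancel₀ hζ0, one_pow, mul_one]
  have h2 : ζ ^ j * res σ ζ p j x = ∑ i ∈ range p, f i := by
    rw [res, Finset.mul_sum]
  have h3 : f p = f 0 := by
    simp only [hf]
    rw [hσp, pow_mul, hinvp, one_pow, zero_mul, pow_zero, Function.iterate_zero, id]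
  have h4 := Finset.sum_range_succ f p
  have h5 := Finset.sum_range_succ' f p
  rw [h1, h2]
  rw [h4, h3] at h5
  exact (add_right_cancel h5).symm

theorem sum_res (hp : p.Prime) (hζp : ζ ^ p = 1) (hζ1 : ζ ≠ 1) (x : K) :
    ∑ j ∈ range p, res σ ζ p j x = (p : K) * x := by
  haveI : Fact p.Prime := ⟨hp⟩
  have hord : orderOf ζ = p := orderOf_eq_prime hζp hζ1
  have hζ0 : ζ ≠ 0 := by
    intro h
    rw [h, zero_pow hp.ne_zero] at hζp
    exact zero_ne_one hζp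
  have hinvp : (ζ⁻¹) ^ p = 1 := by rw [inv_pow, hζp, inv_one]
  have hinner : ∀ i ∈ range p, ∑ j ∈ range p, (ζ⁻¹) ^ (i * j) = if i = 0 then (p : K) else 0 := by
    intro i hi
    rw [Finset.mem_range] at hi
    by_cases hi0 : i = 0
    · simp [hi0]
    · rw [if_neg hi0]
      have hω1 : (ζ⁻¹) ^ i ≠ 1 := by
        intro h
        rw [inv_pow, inv_eq_one] at h
        have hdvd : orderOf ζ ∣ i := orderOf_dvd_of_pow_eq_one h
        rw [hord] at hdvd
        exact absurd (Nat.le_of_dvd (Nat.pos_of_ne_zero hi0) hdvd) (not_le.2 hi)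
      have hωp : ((ζ⁻¹) ^ i) ^ p = 1 := by rw [← pow_mul, mul_comm, pow_mul, hinvp, one_pow]
      have hgeom := geom_sum_mul ((ζ⁻¹) ^ i) p
      rw [hωp, sub_self] at hgeom
      have h0 : ∑ j ∈ range p, ((ζ⁻¹) ^ i) ^ j = 0 := by
        rcases mul_eq_zero.1 hgeom with h | h
        · exact h
        · exact absurd (sub_eq_zero.1 h) hω1
      rw [← h0]
      exact Finset.sum_congr rfl fun j _ => pow_mul _ _ _
  simp only [res]
  rw [Finset.sum_comm]
  have h1 : ∀ i ∈ range p, ∑ j ∈ range p, (ζ⁻¹) ^ (i * j) * σ^[i] x =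
      (if i = 0 then (p : K) else 0) * σ^[i] x := by
    intro i hi
    rw [← Finset.sum_mul, hinner i hi]
  rw [Finset.sum_congr rfl h1, Finset.sum_eq_single 0]
  · simp
  · intro i _ hi0
    rw [if_neg hi0, zero_mul]
  · intro h
    exact absurd (Finset.mem_range.2 hp.pos) h

end Resolvent

/-! ### A peu-ramifié Kummer generator has `v (θ - 1) ^ p ≤ v p` -/

section Binom

variable (v : AbsoluteValue K ℝ) (hv : IsNonarchimedean v)

include hv

theorem pow_le_of_one_add_pow {p : ℕ} (hp : p.Prime) {y : K} (hy : v y ≤ 1)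
    (h : v ((1 + y) ^ p - 1) ≤ v (p : K)) : v y ^ p ≤ v (p : K) := by
  have hp2 : 2 ≤ p := hp.two_le
  have hexp : (1 + y) ^ p - 1 = y ^ p + ∑ m ∈ Ico 1 p, y ^ m * (p.choose m : K) := by
    rw [add_comm 1 y, add_pow, Finset.range_eq_Ico, Finset.sum_Ico_succ_top (Nat.zero_le p),
      Finset.sum_eq_sum_Ico_succ_bot hp.pos]
    simp only [one_pow, mul_one, pow_zero, Nat.choose_zero_right, Nat.cast_one, Nat.sub_self,
      Nat.choose_self, zero_add]
    ring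
  have hmid : v (∑ m ∈ Ico 1 p, y ^ m * (p.choose m : K)) ≤ v (p : K) := by
    refine sum_le v hv _ _ (v.nonneg _) fun m hm => ?_
    rw [Finset.mem_Ico] at hm
    obtain ⟨k, hk⟩ := hp.dvd_choose_self (by omega) hm.2
    rw [hk, Nat.cast_mul, v.map_mul, v.map_mul, map_pow]
    have h1 : v (k : K) ≤ 1 := natCast_le_one v hv k
    have h2 : v y ^ m ≤ 1 := pow_le_one₀ (v.nonneg _) hy
    calc v y ^ m * (v (p : K) * v (k : K)) ≤ 1 * (v (p : K) * 1) := by
          gcongr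
      _ = v (p : K) := by ring
  have hyp : y ^ p = ((1 + y) ^ p - 1) - ∑ m ∈ Ico 1 p, y ^ m * (p.choose m : K) := by
    rw [hexp]; ring
  rw [← map_pow, hyp]
  exact (sub_le_max v hv _ _).trans (max_le h hmid)

end Binom

/-! ### The cyclic form of (R5′) -/

section Main

variable (σ : K →+* K) (F : Subfield K)

/-- A `ζ`-eigenvector of `σ` from an element moved by `σ`. -/
theorem exists_eigen (hF : ∀ x, x ∈ F ↔ σ x = x) {p : ℕ} (hp : p.Prime)
    (hσp : ∀ x, σ^[p] x = x) {ζ : K} (hζF : ζ ∈ F) (hζp : ζ ^ p = 1) (hζ1 : ζ ≠ 1)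
    (hp0 : (p : K) ≠ 0) {x₀ : K} (hx₀ : σ x₀ ≠ x₀) : ∃ θ : K, θ ≠ 0 ∧ σ θ = ζ * θ := by
  have hζσ : σ ζ = ζ := (hF ζ).1 hζF
  have hmap := fun j x => map_res (σ := σ) hp.ne_zero hζσ hζp hσp j x
  -- some resolvent with `0 < j < p` is nonzero
  have hex : ∃ j, 0 < j ∧ j < p ∧ res σ ζ p j x₀ ≠ 0 := by
    by_contra hno
    push Not at hno
    have hsum := sum_res (σ := σ) hp hζp hζ1 x₀
    rw [Finset.sum_eq_single 0] at hsum
    · have h0 := hmap 0 x₀
      rw [pow_zero, one_mul, hsum, map_mul, map_natCast] at h0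
      exact hx₀ (mul_left_cancel₀ hp0 h0)
    · intro j hj hj0
      exact hno j (Nat.pos_of_ne_zero hj0) (Finset.mem_range.1 hj)
    · intro h
      exact absurd (Finset.mem_range.2 hp.pos) h
  obtain ⟨j, hj0, hjp, hne⟩ := hex
  have hcop : Nat.Coprime j p :=
    Nat.coprime_comm.1 ((Nat.Prime.coprime_iff_not_dvd hp).2
      (fun h => absurd (Nat.le_of_dvd hj0 h) (not_le.2 hjp)))
  obtain ⟨m, -, hm⟩ := Nat.exists_mul_mod_eq_one_of_coprime hcop hp.one_lt
  refine ⟨res σ ζ p j x₀ ^ m, pow_ne_zero m hne, ?_⟩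
  rw [map_pow, hmap, mul_pow, ← pow_mul]
  congr 1
  have h1 : j * m = p * (j * m / p) + 1 := by
    have := Nat.div_add_mod (j * m) p
    rw [hm] at this
    exact this.symm
  rw [h1, pow_succ, pow_mul, hζp, one_pow, one_mul]

variable (v : AbsoluteValue K ℝ) (hv : IsNonarchimedean v)

include hv

/-- **(R5′), cyclic form.** -/
theorem exists_mem_of_cyclic (hF : ∀ x, x ∈ F ↔ σ x = x) {p : ℕ} (hp : p.Prime)
    (hσp : ∀ x, σ^[p] x = x) {ζ : K} (hζF : ζ ∈ F) (hζp : ζ ^ p = 1) (hζ1 : ζ ≠ 1)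
    (hpz : v (p : K) = v (ζ - 1) ^ (p - 1)) (hp1 : v (p : K) < 1)
    {π : K} (hπ0 : π ≠ 0) (hπ : ∀ i, 0 < i → i < p → ∀ g ∈ F, g ≠ 0 → v π ^ i ≠ v g)
    (hr1 : v (σ π / π - 1) < 1)
    (hPeu : ∀ w ∈ F, w ≠ 0 → (∃ x : K, x ^ p = w) →
      ∃ u ∈ F, ∃ z ∈ F, v (u - 1) ≤ v (p : K) ∧ z ≠ 0 ∧ w = u * z ^ p)
    {γ c ν : K} (hγ : γ ≠ 0) (hc : c ∈ F) (hc0 : c ≠ 0) (hrel : γ ^ p = c * ν)
    (hν : v (ν - 1) ≤ v (ζ - 1)) :
    ∃ g ∈ F, v γ = v g := by
  classical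
  have hp2 : 2 ≤ p := hp.two_le
  have hFσ : ∀ x ∈ F, σ x = x := fun x hx => (hF x).1 hx
  have hζσ : σ ζ = ζ := hFσ ζ hζF
  have ha0 : 0 < v (ζ - 1) := v.pos (sub_ne_zero.2 hζ1)
  have hp0 : (p : K) ≠ 0 := by
    intro h
    rw [h, v.map_zero] at hpz
    exact (pow_pos ha0 _).ne hpz
  have hpF : (p : K) ∈ F := natCast_mem F p
  -- `π` is moved by `σ`
  have hσπ : σ π ≠ π := by
    intro h
    exact hπ 1 one_pos (by omega) π ((hF π).2 h) hπ0 (pow_one _)
  -- the Kummer generator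
  obtain ⟨θ₀, hθ₀0, hθ₀⟩ := exists_eigen σ F hF hp hσp hζF hζp hζ1 hp0 hσπ
  have hwF : θ₀ ^ p ∈ F := by
    rw [hF, map_pow, hθ₀, mul_pow, hζp, one_mul]
  obtain ⟨u, huF, z, hzF, huv, hz0, huz⟩ := hPeu (θ₀ ^ p) hwF (pow_ne_zero p hθ₀0) ⟨θ₀, rfl⟩
  set θ : K := θ₀ / z with hθdef
  have hθ0 : θ ≠ 0 := div_ne_zero hθ₀0 hz0
  have hθ : σ θ = ζ * θ := by
    rw [hθdef, map_div₀, hθ₀, hFσ z hzF, mul_div_assoc]
  have hθu : θ ^ p = u := by
    rw [hθdef, div_pow, huz, mul_div_assoc, div_self (pow_ne_zero p hz0), mul_one]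
  -- `v θ = 1`, `v (θ - 1) ≤ 1`, `v (θ - 1) ^ p ≤ v p`
  have hu1 : v u = 1 := by
    have : u = 1 + (u - 1) := by ring
    rw [this, add_eq_of_lt v hv (by rw [v.map_one]; exact lt_of_le_of_lt huv hp1), v.map_one]
  have hvθ : v θ = 1 := by
    have h1 : v θ ^ p = 1 := by rw [← map_pow, hθu, hu1]
    exact (pow_eq_one_iff_of_nonneg (v.nonneg _) hp.ne_zero).1 h1
  have hy1 : v (θ - 1) ≤ 1 :=
    (sub_le_max v hv θ 1).trans (max_le hvθ.le (by rw [v.map_one]))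
  have hθp : v (θ - 1) ^ p ≤ v (p : K) := by
    refine pow_le_of_one_add_pow v hv hp hy1 ?_
    rw [add_sub_cancel, hθu]
    exact huv
  -- the eigen-decomposition: `θ ^ j`, `j < p`, span `K` over `F`
  have hdecomp : ∀ z : K, ∃ a : ℕ → K, (∀ j, a j ∈ F) ∧ z = ∑ j ∈ range p, a j * θ ^ j := by
    intro z
    refine ⟨fun j => (p : K)⁻¹ * (res σ ζ p j z / θ ^ j), fun j => ?_, ?_⟩
    · refine F.mul_mem (F.inv_mem hpF) ?_
      rw [hF, map_div₀, map_res hp.ne_zero hζσ hζp hσp, map_pow, hθ, mul_pow]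
      rw [mul_div_mul_left _ _ (pow_ne_zero j (fun h => by
        rw [h, zero_pow hp.ne_zero] at hζp; exact zero_ne_one hζp))]
    · have hsum := sum_res (σ := σ) hp hζp hζ1 z
      have h1 : ∀ j ∈ range p, (p : K)⁻¹ * (res σ ζ p j z / θ ^ j) * θ ^ j =
          (p : K)⁻¹ * res σ ζ p j z := by
        intro j _
        rw [mul_assoc, div_mul_cancel₀ _ (pow_ne_zero j hθ0)]
      rw [Finset.sum_congr rfl h1, ← Finset.mul_sum, hsum, inv_mul_cancel_left₀ hp0]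
  -- dimension count: `1, π, …, π ^ (p-1)` is an `F`-basis of `K`
  have hspanθ : Submodule.span F (Set.range fun j : Fin p => θ ^ (j : ℕ)) = ⊤ := by
    rw [eq_top_iff]
    intro z _
    obtain ⟨a, ha, hz⟩ := hdecomp z
    rw [hz, ← Fin.sum_univ_eq_sum_range (fun j => a j * θ ^ j) p]
    refine Submodule.sum_mem _ fun j _ => ?_
    have : a j * θ ^ (j : ℕ) = (⟨a j, ha j⟩ : F) • θ ^ (j : ℕ) := rfl
    rw [this]
    exact Submodule.smul_mem _ _ (Submodule.subset_span ⟨j, rfl⟩)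
  haveI : Module.Finite F K :=
    ⟨by rw [← hspanθ]; exact Submodule.fg_span (Set.finite_range _)⟩
  have hrank_le : Module.finrank F K ≤ p := by
    have h1 := finrank_range_le_card (R := F) (fun j : Fin p => θ ^ (j : ℕ))
    rw [Set.finrank, hspanθ, finrank_top, Fintype.card_fin] at h1
    exact h1
  -- linear independence of the powers of `π`
  have hlin : LinearIndependent F (fun i : Fin p => π ^ (i : ℕ)) := by
    rw [Fintype.linearIndependent_iff]
    intro g hg i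
    set w : ℕ → K := fun i => if h : i < p then (g ⟨i, h⟩ : K) * π ^ i else 0 with hw
    have hsum0 : ∑ i ∈ range p, w i = 0 := by
      rw [← Fin.sum_univ_eq_sum_range w p, ← hg]
      refine Finset.sum_congr rfl fun i _ => ?_
      simp only [hw, dif_pos i.2]
      rfl
    have hdist : ∀ i < p, ∀ j < p, i < j → w i ≠ 0 → w j ≠ 0 → v (w i) ≠ v (w j) := by
      intro i hi j hj hij hi0 hj0 he
      simp only [hw, dif_pos hi, dif_pos hj] at hi0 hj0 he
      have hgi : (g ⟨i, hi⟩ : K) ≠ 0 := left_ne_zero_of_mul hi0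
      have hgj : (g ⟨j, hj⟩ : K) ≠ 0 := left_ne_zero_of_mul hj0
      rw [v.map_mul, v.map_mul, map_pow, map_pow] at he
      have hπpos : 0 < v π := v.pos hπ0
      have hpow : v π ^ j = v π ^ (j - i) * v π ^ i := (pow_sub_mul_pow (v π) hij.le).symm
      rw [hpow] at he
      have h1 : v (g ⟨i, hi⟩ : K) = v (g ⟨j, hj⟩ : K) * v π ^ (j - i) := by
        have hpos : 0 < v π ^ i := pow_pos hπpos i
        have : v (g ⟨i, hi⟩ : K) * v π ^ i =
            (v (g ⟨j, hj⟩ : K) * v π ^ (j - i)) * v π ^ i := by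
          rw [he]; ring
        exact mul_right_cancel₀ hpos.ne' this
      refine hπ (j - i) (by omega) (by omega)
        ((g ⟨i, hi⟩ : K) / (g ⟨j, hj⟩ : K))
        (F.div_mem (g ⟨i, hi⟩).2 (g ⟨j, hj⟩).2) (div_ne_zero hgi hgj) ?_
      have hpos : 0 < v (g ⟨j, hj⟩ : K) := v.pos hgj
      rw [map_div₀, h1]
      field_simp
    obtain ⟨k, hk, hkmax, hkz⟩ := exists_sum_eq v hv p w hdist hp.pos
    rw [hsum0, v.map_zero] at hkz
    have hwi : w i = 0 := by
      have := hkmax i i.2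
      rw [← hkz] at this
      exact (v.eq_zero).1 (le_antisymm this (v.nonneg _))
    simp only [hw, dif_pos i.2] at hwi
    rcases mul_eq_zero.1 hwi with h | h
    · exact Subtype.ext h
    · exact absurd h (pow_ne_zero _ hπ0)
  have hrank_ge : p ≤ Module.finrank F K := by
    have := hlin.fintype_card_le_finrank
    rwa [Fintype.card_fin] at this
  have hrank : Fintype.card (Fin p) = Module.finrank F K := by
    rw [Fintype.card_fin]; exact le_antisymm hrank_ge hrank_le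
  have hspanπ : Submodule.span F (Set.range fun i : Fin p => π ^ (i : ℕ)) = ⊤ :=
    hlin.span_eq_top_of_card_eq_finrank' hrank
  have hspan : ∀ z : K, ∃ a : ℕ → K, (∀ i, a i ∈ F) ∧ z = ∑ i ∈ range p, a i * π ^ i := by
    intro z
    have hz : z ∈ Submodule.span F (Set.range fun i : Fin p => π ^ (i : ℕ)) := by
      rw [hspanπ]; exact Submodule.mem_top
    obtain ⟨g, hg⟩ := (Submodule.mem_span_range_iff_exists_fun F).1 hz
    refine ⟨fun i => if h : i < p then (g ⟨i, h⟩ : K) else 0, fun i => ?_, ?_⟩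
    · by_cases h : i < p
      · simp only [dif_pos h]; exact (g ⟨i, h⟩).2
      · simp only [dif_neg h]; exact F.zero_mem
    · rw [← hg, ← Fin.sum_univ_eq_sum_range
        (fun i => (if h : i < p then (g ⟨i, h⟩ : K) else 0) * π ^ i) p]
      refine Finset.sum_congr rfl fun i _ => ?_
      simp only [dif_pos i.2]
      rfl
  exact exists_mem_of_powerBasis v hv σ F hFσ hp hp1 hπ0 hπ hspan hr1 hζ1 hpz hθ hθp hγ hc hc0
    hrel hν

/-- **(R5′), cyclic form, arithmetic conclusion.**  If moreover the value group of `F` is `ρ ^ ℤ`,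
`v p = ρ ^ e` with `p ∤ e`, then `γ ^ p = p ^ a * ν`, `v (ν - 1) ≤ v (ζ - 1)` forces `p ∣ a`. -/
theorem dvd_of_cyclic (hF : ∀ x, x ∈ F ↔ σ x = x) {p : ℕ} (hp : p.Prime)
    (hσp : ∀ x, σ^[p] x = x) {ζ : K} (hζF : ζ ∈ F) (hζp : ζ ^ p = 1) (hζ1 : ζ ≠ 1)
    (hpz : v (p : K) = v (ζ - 1) ^ (p - 1)) (hp1 : v (p : K) < 1)
    {π : K} (hπ0 : π ≠ 0) (hπ : ∀ i, 0 < i → i < p → ∀ g ∈ F, g ≠ 0 → v π ^ i ≠ v g)
    (hr1 : v (σ π / π - 1) < 1)
    (hPeu : ∀ w ∈ F, w ≠ 0 → (∃ x : K, x ^ p = w) →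
      ∃ u ∈ F, ∃ z ∈ F, v (u - 1) ≤ v (p : K) ∧ z ≠ 0 ∧ w = u * z ^ p)
    {ρ : ℝ} (hρ0 : 0 < ρ) (hρ1 : ρ < 1) {e : ℕ} (hpe : ¬ p ∣ e) (hvp : v (p : K) = ρ ^ e)
    (hval : ∀ g ∈ F, g ≠ 0 → ∃ m : ℤ, v g = ρ ^ m)
    {γ ν : K} {a : ℤ} (hγ : γ ≠ 0) (hrel : γ ^ p = (p : K) ^ a * ν)
    (hν : v (ν - 1) ≤ v (ζ - 1)) : (p : ℤ) ∣ a := by
  have ha0 : 0 < v (ζ - 1) := v.pos (sub_ne_zero.2 hζ1)
  have hp0 : (p : K) ≠ 0 := by
    intro h
    rw [h, v.map_zero] at hpz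
    exact (pow_pos ha0 _).ne hpz
  have ha1 : v (ζ - 1) < 1 := by
    by_contra h
    rw [not_lt] at h
    have : (1 : ℝ) ≤ v (ζ - 1) ^ (p - 1) := one_le_pow₀ h
    rw [← hpz] at this
    exact absurd hp1 (not_lt.2 this)
  have hν1 : v ν = 1 := by
    have : ν = 1 + (ν - 1) := by ring
    rw [this, add_eq_of_lt v hv (by rw [v.map_one]; exact lt_of_le_of_lt hν ha1), v.map_one]
  have hmem := exists_mem_of_cyclic σ F v hv hF hp hσp hζF hζp hζ1 hpz hp1 hπ0 hπ hr1 hPeu hγ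
    (F.zpow_mem (natCast_mem F p) a) (zpow_ne_zero a hp0) hrel hν
  exact dvd_of_mem v F hp hρ0 hρ1 hpe hvp hval hrel hν1 hmem

end Main

end Fermat.Agent.S40.P.PeuCyclic
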