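/-
S40, row 67 (T6′), leaf (R5′): the SPANNING step of `PeuCyclic.exists_mem_of_cyclic`, exported on
its own (helper17 #3180 (1)); it needs neither `hr1` nor `hPeu`.

`σ^[p] = id` on `K`, `F` the fixed subfield, `ζ ∈ F` a primitive `p`-th root of unity, `p ≠ 0` in
`K`, and `π ∈ K` with `v π ^ i ∉ v (Fˣ)` for `0 < i < p`.  Then `1, π, …, π ^ (p-1)` span `K` over `F`.
-/
import Mathlib
import Fermat.Agent.S40.P.PeuCyclic

set_option autoImplicit false
set_option linter.style.haveILetI false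

namespace Fermat.Agent.S40.P.PeuCyclicSpan

open Finset Fermat.Agent.S40.P.PeuApprox Fermat.Agent.S40.P.PeuCyclic

variable {K : Type*} [Field K] (σ : K →+* K) (F : Subfield K)

/-- The eigen-decomposition: for a `ζ`-eigenvector `θ ≠ 0`, the powers `θ ^ j`, `j < p`, span `K`
over the fixed field `F`. -/
theorem span_of_eigen (hF : ∀ x, x ∈ F ↔ σ x = x) {p : ℕ} (hp : p.Prime)
    (hσp : ∀ x, σ^[p] x = x) {ζ : K} (hζF : ζ ∈ F) (hζp : ζ ^ p = 1) (hζ1 : ζ ≠ 1)
    (hp0 : (p : K) ≠ 0) {θ : K} (hθ0 : θ ≠ 0) (hθ : σ θ = ζ * θ) (z : K) :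
    ∃ a : ℕ → K, (∀ j, a j ∈ F) ∧ z = ∑ j ∈ range p, a j * θ ^ j := by
  have hζσ : σ ζ = ζ := (hF ζ).1 hζF
  have hpF : (p : K) ∈ F := natCast_mem F p
  refine ⟨fun j => (p : K)⁻¹ * (res σ ζ p j z / θ ^ j), fun j => ?_, ?_⟩
  · refine F.mul_mem (F.inv_mem hpF) ?_
    rw [hF, map_div₀, map_res hp.ne_zero hζσ hζp hσp, map_pow, hθ, mul_pow]
    rw [mul_div_mul_left _ _ (pow_ne_zero j (fun h => by
      rw [h, zero_pow hp.ne_zero] at hζp; exact zero_ne_one hζp))]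
  · have hsum := sum_res (σ := σ) hp hζp hζ1 z
    have h1 : ∀ j ∈ range p, (p : K)⁻¹ * (res σ ζ p j z / θ ^ j) * θ ^ j =
        (p : K)⁻¹ * res σ ζ p j z := by
      intro j _
      rw [mul_assoc, div_mul_cancel₀ _ (pow_ne_zero j hθ0)]
    rw [Finset.sum_congr rfl h1, ← Finset.mul_sum, hsum, inv_mul_cancel_left₀ hp0]

variable (v : AbsoluteValue K ℝ) (hv : IsNonarchimedean v)

include hv

/-- Ultrametric independence: powers of `π` with `v π ^ i ∉ v (Fˣ)` (`0 < i < p`) are linearly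
independent over `F`. -/
theorem linearIndependent_pow {p : ℕ} (hp0 : 0 < p) {π : K} (hπ0 : π ≠ 0)
    (hπ : ∀ i, 0 < i → i < p → ∀ g ∈ F, g ≠ 0 → v π ^ i ≠ v g) :
    LinearIndependent F (fun i : Fin p => π ^ (i : ℕ)) := by
  classical
  rw [Fintype.linearIndependent_iff]
  intro g hg i
  set w : ℕ → K := fun i => if h : i < p then (g ⟨i, h⟩ : K) * π ^ i else 0 with hw
  have hsum0 : ∑ i ∈ range p, w i = 0 := by
    rw [← Fin.sum_univ_eq_sum_range w p, ← hg]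
    refine Finset.sum_congr rfl fun i _ => ?_
    simp only [hw, dif_pos i.2]
    rfl
  have hdist : ∀ i < p, ∀ j < p, i < j → w i ≠ 0 → w j ≠ 0 → v (w i) ≠ v (w j) := by
    intro i hi j hj hij hi0 hj0 he
    simp only [hw, dif_pos hi, dif_pos hj] at hi0 hj0 he
    have hgi : (g ⟨i, hi⟩ : K) ≠ 0 := left_ne_zero_of_mul hi0
    have hgj : (g ⟨j, hj⟩ : K) ≠ 0 := left_ne_zero_of_mul hj0
    rw [v.map_mul, v.map_mul, map_pow, map_pow] at he
    have hπpos : 0 < v π := v.pos hπ0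
    have hpow : v π ^ j = v π ^ (j - i) * v π ^ i := (pow_sub_mul_pow (v π) hij.le).symm
    rw [hpow] at he
    have h1 : v (g ⟨i, hi⟩ : K) = v (g ⟨j, hj⟩ : K) * v π ^ (j - i) := by
      have hpos : 0 < v π ^ i := pow_pos hπpos i
      have : v (g ⟨i, hi⟩ : K) * v π ^ i =
          (v (g ⟨j, hj⟩ : K) * v π ^ (j - i)) * v π ^ i := by
        rw [he]; ring
      exact mul_right_cancel₀ hpos.ne' this
    refine hπ (j - i) (by omega) (by omega)
      ((g ⟨i, hi⟩ : K) / (g ⟨j, hj⟩ : K))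
      (F.div_mem (g ⟨i, hi⟩).2 (g ⟨j, hj⟩).2) (div_ne_zero hgi hgj) ?_
    have hpos : 0 < v (g ⟨j, hj⟩ : K) := v.pos hgj
    rw [map_div₀, h1]
    field_simp
  obtain ⟨k, hk, hkmax, hkz⟩ := exists_sum_eq v hv p w hdist hp0
  rw [hsum0, v.map_zero] at hkz
  have hwi : w i = 0 := by
    have := hkmax i i.2
    rw [← hkz] at this
    exact (v.eq_zero).1 (le_antisymm this (v.nonneg _))
  simp only [hw, dif_pos i.2] at hwi
  rcases mul_eq_zero.1 hwi with h | h
  · exact Subtype.ext h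
  · exact absurd h (pow_ne_zero _ hπ0)

/-- **The spanning step.**  `1, π, …, π ^ (p-1)` span `K` over the fixed field `F` of `σ`
(`σ^[p] = id`, `ζ ∈ F`), as soon as `v π ^ i ∉ v (Fˣ)` for `0 < i < p`. -/
theorem span_of_cyclic (hF : ∀ x, x ∈ F ↔ σ x = x) {p : ℕ} (hp : p.Prime)
    (hσp : ∀ x, σ^[p] x = x) {ζ : K} (hζF : ζ ∈ F) (hζp : ζ ^ p = 1) (hζ1 : ζ ≠ 1)
    (hp0 : (p : K) ≠ 0)
    {π : K} (hπ0 : π ≠ 0) (hπ : ∀ i, 0 < i → i < p → ∀ g ∈ F, g ≠ 0 → v π ^ i ≠ v g) :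
    ∀ z : K, ∃ a : ℕ → K, (∀ i, a i ∈ F) ∧ z = ∑ i ∈ range p, a i * π ^ i := by
  classical
  have hp2 : 2 ≤ p := hp.two_le
  have hσπ : σ π ≠ π := by
    intro h
    exact hπ 1 one_pos (by omega) π ((hF π).2 h) hπ0 (pow_one _)
  obtain ⟨θ, hθ0, hθ⟩ := exists_eigen σ F hF hp hσp hζF hζp hζ1 hp0 hσπ
  have hdecomp := span_of_eigen σ F hF hp hσp hζF hζp hζ1 hp0 hθ0 hθ
  have hspanθ : Submodule.span F (Set.range fun j : Fin p => θ ^ (j : ℕ)) = ⊤ := by
    rw [eq_top_iff]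
    intro z _
    obtain ⟨a, ha, hz⟩ := hdecomp z
    rw [hz, ← Fin.sum_univ_eq_sum_range (fun j => a j * θ ^ j) p]
    refine Submodule.sum_mem _ fun j _ => ?_
    have : a j * θ ^ (j : ℕ) = (⟨a j, ha j⟩ : F) • θ ^ (j : ℕ) := rfl
    rw [this]
    exact Submodule.smul_mem _ _ (Submodule.subset_span ⟨j, rfl⟩)
  haveI : Module.Finite F K :=
    ⟨by rw [← hspanθ]; exact Submodule.fg_span (Set.finite_range _)⟩
  have hrank_le : Module.finrank F K ≤ p := by
    have h1 := finrank_range_le_card (R := F) (fun j : Fin p => θ ^ (j : ℕ))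
    rw [Set.finrank, hspanθ, finrank_top, Fintype.card_fin] at h1
    exact h1
  have hlin := linearIndependent_pow F v hv hp.pos hπ0 hπ
  have hrank_ge : p ≤ Module.finrank F K := by
    have := hlin.fintype_card_le_finrank
    rwa [Fintype.card_fin] at this
  have hrank : Fintype.card (Fin p) = Module.finrank F K := by
    rw [Fintype.card_fin]; exact le_antisymm hrank_ge hrank_le
  have hspanπ : Submodule.span F (Set.range fun i : Fin p => π ^ (i : ℕ)) = ⊤ :=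
    hlin.span_eq_top_of_card_eq_finrank' hrank
  intro z
  have hz : z ∈ Submodule.span F (Set.range fun i : Fin p => π ^ (i : ℕ)) := by
    rw [hspanπ]; exact Submodule.mem_top
  obtain ⟨g, hg⟩ := (Submodule.mem_span_range_iff_exists_fun F).1 hz
  refine ⟨fun i => if h : i < p then (g ⟨i, h⟩ : K) else 0, fun i => ?_, ?_⟩
  · by_cases h : i < p
    · simp only [dif_pos h]; exact (g ⟨i, h⟩).2
    · simp only [dif_neg h]; exact F.zero_mem
  · rw [← hg, ← Fin.sum_univ_eq_sum_range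
      (fun i => (if h : i < p then (g ⟨i, h⟩ : K) else 0) * π ^ i) p]
    refine Finset.sum_congr rfl fun i _ => ?_
    simp only [dif_pos i.2]
    rfl

/-- The degree: `[K : F] = p` in the situation of `span_of_cyclic`. -/
theorem finrank_eq_of_cyclic (hF : ∀ x, x ∈ F ↔ σ x = x) {p : ℕ} (hp : p.Prime)
    (hσp : ∀ x, σ^[p] x = x) {ζ : K} (hζF : ζ ∈ F) (hζp : ζ ^ p = 1) (hζ1 : ζ ≠ 1)
    (hp0 : (p : K) ≠ 0)
    {π : K} (hπ0 : π ≠ 0) (hπ : ∀ i, 0 < i → i < p → ∀ g ∈ F, g ≠ 0 → v π ^ i ≠ v g) :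
    Module.finrank F K = p := by
  classical
  have hp2 : 2 ≤ p := hp.two_le
  have hσπ : σ π ≠ π := by
    intro h
    exact hπ 1 one_pos (by omega) π ((hF π).2 h) hπ0 (pow_one _)
  obtain ⟨θ, hθ0, hθ⟩ := exists_eigen σ F hF hp hσp hζF hζp hζ1 hp0 hσπ
  have hdecomp := span_of_eigen σ F hF hp hσp hζF hζp hζ1 hp0 hθ0 hθ
  have hspanθ : Submodule.span F (Set.range fun j : Fin p => θ ^ (j : ℕ)) = ⊤ := by
    rw [eq_top_iff]
    intro z _
    obtain ⟨a, ha, hz⟩ := hdecomp z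
    rw [hz, ← Fin.sum_univ_eq_sum_range (fun j => a j * θ ^ j) p]
    refine Submodule.sum_mem _ fun j _ => ?_
    have : a j * θ ^ (j : ℕ) = (⟨a j, ha j⟩ : F) • θ ^ (j : ℕ) := rfl
    rw [this]
    exact Submodule.smul_mem _ _ (Submodule.subset_span ⟨j, rfl⟩)
  haveI : Module.Finite F K :=
    ⟨by rw [← hspanθ]; exact Submodule.fg_span (Set.finite_range _)⟩
  have hrank_le : Module.finrank F K ≤ p := by
    have h1 := finrank_range_le_card (R := F) (fun j : Fin p => θ ^ (j : ℕ))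
    rw [Set.finrank, hspanθ, finrank_top, Fintype.card_fin] at h1
    exact h1
  have hlin := linearIndependent_pow F v hv hp.pos hπ0 hπ
  have hrank_ge : p ≤ Module.finrank F K := by
    have := hlin.fintype_card_le_finrank
    rwa [Fintype.card_fin] at this
  exact le_antisymm hrank_le hrank_ge

end Fermat.Agent.S40.P.PeuCyclicSpan
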