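/-
S40, row 67 (T6′, static route), leaf (R5′): **the `π`-free form of `PeuCyclic.exists_mem_of_cyclic`**
(helper17 #3180 (2) / #3200; dispatch helper8 #3193 (b)).

`K` a field with a nonarchimedean absolute value `v`, `σ` an ISOMETRIC ring endomorphism with
`σ^[p] = id`, `F` its fixed subfield, `ζ ∈ F` a primitive `p`-th root of unity, `hPeu` the abstract
peu-ramifié property of `K / F`.  Then for `γ ^ p = c ν`, `c ∈ Fˣ`, `v (ν - 1) ≤ v (ζ - 1)`:
`v γ ∈ v (Fˣ)`.

Case split: (A) every `v x`, `x ≠ 0`, lies in `v (Fˣ)`: trivial.  (B) some `π` with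
`v π ∉ v (Fˣ)`: `N π := ∏_{j<p} σ^j π ∈ F` has `v (N π) = v π ^ p`, so `v π ^ i ∉ v (Fˣ)` for
`0 < i < p` (Bézout); by `PeuCyclicSpan.span_of_cyclic` every `z` with `v z ≤ 1` is congruent to
an element of `F` modulo `{v < 1}`, hence `v (σ z - z) < 1`; for `c := σ π / π`:
`1 = ∏_{j<p} σ^j c ≡ c ^ p`, so `v (c ^ p - 1) < 1` and `v (c - 1) < 1` (binomial, `v p < 1`).

Mathlib + `PeuApprox`/`PeuCyclic`/`PeuCyclicSpan` only.
-/
import Mathlib
import Fermat.Agent.S40.P.PeuCyclicSpan

set_option autoImplicit false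
set_option linter.style.haveILetI false

namespace Fermat.Agent.S40.P.PeuCyclicTop

open Finset Fermat.Agent.S40.P.PeuApprox Fermat.Agent.S40.P.PeuCyclic
  Fermat.Agent.S40.P.PeuCyclicSpan

variable {K : Type*} [Field K]

/-! ### Ultrametric helpers -/

section Ultra

variable (v : AbsoluteValue K ℝ) (hv : IsNonarchimedean v)

include hv

theorem sum_lt {ι : Type*} (s : Finset ι) (f : ι → K) {C : ℝ} (hC : 0 < C)
    (h : ∀ i ∈ s, v (f i) < C) : v (∑ i ∈ s, f i) < C := by
  classical
  induction s using Finset.induction_on with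
  | empty => simpa using hC
  | insert a s ha ih =>
    rw [Finset.sum_insert ha]
    exact lt_of_le_of_lt (hv _ _) (max_lt (h a (Finset.mem_insert_self a s))
      (ih fun i hi => h i (Finset.mem_insert_of_mem hi)))

/-- `v y ^ p ≤ max (v ((1 + y) ^ p - 1)) (v p)` for `v y ≤ 1`. -/
theorem pow_le_max {p : ℕ} (hp : p.Prime) {y : K} (hy : v y ≤ 1) :
    v y ^ p ≤ max (v ((1 + y) ^ p - 1)) (v (p : K)) := by
  have hp2 : 2 ≤ p := hp.two_le
  have hexp : (1 + y) ^ p - 1 = y ^ p + ∑ m ∈ Ico 1 p, y ^ m * (p.choose m : K) := by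
    rw [add_comm 1 y, add_pow, Finset.range_eq_Ico, Finset.sum_Ico_succ_top (Nat.zero_le p),
      Finset.sum_eq_sum_Ico_succ_bot hp.pos]
    simp only [one_pow, mul_one, pow_zero, Nat.choose_zero_right, Nat.cast_one, Nat.sub_self,
      Nat.choose_self, zero_add]
    ring
  have hmid : v (∑ m ∈ Ico 1 p, y ^ m * (p.choose m : K)) ≤ v (p : K) := by
    refine sum_le v hv _ _ (v.nonneg _) fun m hm => ?_
    rw [Finset.mem_Ico] at hm
    obtain ⟨k, hk⟩ := hp.dvd_choose_self (by omega) hm.2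
    rw [hk, Nat.cast_mul, v.map_mul, v.map_mul, map_pow]
    have h1 : v (k : K) ≤ 1 := natCast_le_one v hv k
    have h2 : v y ^ m ≤ 1 := pow_le_one₀ (v.nonneg _) hy
    calc v y ^ m * (v (p : K) * v (k : K)) ≤ 1 * (v (p : K) * 1) := by
          gcongr
      _ = v (p : K) := by ring
  have hyp : y ^ p = ((1 + y) ^ p - 1) - ∑ m ∈ Ico 1 p, y ^ m * (p.choose m : K) := by
    rw [hexp]; ring
  rw [← map_pow, hyp]
  exact (sub_le_max v hv _ _).trans (max_le_max le_rfl hmid)

end Ultra

/-! ### The norm `∏_{j<p} σ^j π` -/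

section NormProd

variable (σ : K →+* K)

/-- `σ` permutes the factors of `∏_{j<p} σ^j x` cyclically. -/
theorem map_prod_iterate {p : ℕ} (hσp : ∀ x, σ^[p] x = x) (x : K) :
    σ (∏ j ∈ range p, σ^[j] x) = ∏ j ∈ range p, σ^[j] x := by
  rw [map_prod]
  have h1 : ∀ j ∈ range p, σ (σ^[j] x) = σ^[j + 1] x := fun j _ =>
    (Function.iterate_succ_apply' σ j x).symm
  rw [Finset.prod_congr rfl h1]
  have h4 := Finset.prod_range_succ (fun j => σ^[j] x) p
  have h5 := Finset.prod_range_succ' (fun j => σ^[j] x) p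
  rw [h4, hσp, Function.iterate_zero, id] at h5
  have hx : x = 0 ∨ x ≠ 0 := eq_or_ne x 0
  rcases hx with rfl | hx0
  · -- both sides vanish unless `p = 0`
    rcases Nat.eq_zero_or_pos p with rfl | hp0
    · simp
    · have h0 : ∀ n, σ^[n] (0 : K) = 0 := fun n => by
        induction n with
        | zero => rfl
        | succ n ih => rw [Function.iterate_succ_apply', ih, map_zero]
      rw [Finset.prod_eq_zero (Finset.mem_range.2 hp0) (h0 _),
        Finset.prod_eq_zero (Finset.mem_range.2 hp0) (h0 _)]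
  · exact (mul_right_cancel₀ hx0 h5).symm

end NormProd

/-! ### The wrapper -/

section Main

variable (v : AbsoluteValue K ℝ) (hv : IsNonarchimedean v) (σ : K →+* K)

include hv

/-- **(R5′), cyclic form without `π`.** -/
theorem exists_mem_of_cyclic_top (hσv : ∀ x, v (σ x) = v x) (F : Subfield K)
    (hF : ∀ x, x ∈ F ↔ σ x = x) {p : ℕ} (hp : p.Prime) (hσp : ∀ x, σ^[p] x = x)
    {ζ : K} (hζF : ζ ∈ F) (hζp : ζ ^ p = 1) (hζ1 : ζ ≠ 1)
    (hpz : v (p : K) = v (ζ - 1) ^ (p - 1)) (hp1 : v (p : K) < 1)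
    (hPeu : ∀ w ∈ F, w ≠ 0 → (∃ x : K, x ^ p = w) →
      ∃ u ∈ F, ∃ z ∈ F, v (u - 1) ≤ v (p : K) ∧ z ≠ 0 ∧ w = u * z ^ p)
    {γ c ν : K} (hγ : γ ≠ 0) (hc : c ∈ F) (hc0 : c ≠ 0) (hrel : γ ^ p = c * ν)
    (hν : v (ν - 1) ≤ v (ζ - 1)) :
    ∃ g ∈ F, v γ = v g := by
  classical
  by_cases hA : ∀ x : K, x ≠ 0 → ∃ g ∈ F, v x = v g
  · exact hA γ hγ
  push Not at hA
  obtain ⟨π, hπ0, hπF⟩ := hA
  have hp2 : 2 ≤ p := hp.two_le
  have hFσ : ∀ x ∈ F, σ x = x := fun x hx => (hF x).1 hx
  have ha0 : 0 < v (ζ - 1) := v.pos (sub_ne_zero.2 hζ1)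
  have hp0 : (p : K) ≠ 0 := by
    intro h
    rw [h, v.map_zero] at hpz
    exact (pow_pos ha0 _).ne hpz
  have hvπ : 0 < v π := v.pos hπ0
  have hiter : ∀ (n : ℕ) (x : K), v (σ^[n] x) = v x := by
    intro n x
    induction n with
    | zero => rfl
    | succ n ih => rw [Function.iterate_succ_apply', hσv, ih]
  -- the norm of `π`
  set Nπ : K := ∏ j ∈ range p, σ^[j] π with hNπ
  have hNF : Nπ ∈ F := (hF Nπ).2 (map_prod_iterate σ hσp π)
  have hNv : v Nπ = v π ^ p := by
    rw [hNπ, map_prod, Finset.prod_congr rfl (fun j _ => hiter j π), Finset.prod_const,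
      Finset.card_range]
  have hN0 : Nπ ≠ 0 := by
    intro h
    rw [h, v.map_zero] at hNv
    exact (pow_pos hvπ p).ne hNv
  -- `hπ`
  have hπ : ∀ i, 0 < i → i < p → ∀ g ∈ F, g ≠ 0 → v π ^ i ≠ v g := by
    intro i hi0 hip g hgF hg0 he
    have hcop : Nat.Coprime i p :=
      Nat.coprime_comm.1 ((Nat.Prime.coprime_iff_not_dvd hp).2
        (fun h => absurd (Nat.le_of_dvd hi0 h) (not_le.2 hip)))
    obtain ⟨m, -, hm⟩ := Nat.exists_mul_mod_eq_one_of_coprime hcop hp.one_lt
    have h1 : i * m = p * (i * m / p) + 1 := by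
      have := Nat.div_add_mod (i * m) p
      rw [hm] at this
      exact this.symm
    set q := i * m / p with hq
    apply hπF (g ^ m / Nπ ^ q) (F.div_mem (F.pow_mem hgF m) (F.pow_mem hNF q))
    rw [map_div₀, map_pow, map_pow, ← he, hNv, ← pow_mul, ← pow_mul, h1, pow_succ,
      mul_div_assoc, mul_comm, div_mul_cancel₀]
    · exact (pow_pos hvπ _).ne'
  -- every integral element is moved by less than `1`
  have hspan := span_of_cyclic σ F v hv hF hp hσp hζF hζp hζ1 hp0 hπ0 hπ
  have hmove : ∀ z : K, v z ≤ 1 → v (σ z - z) < 1 := by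
    intro z hz1
    obtain ⟨a, ha, hz⟩ := hspan z
    -- distinct norms of the terms
    have hdist : ∀ i < p, ∀ j < p, i < j → a i * π ^ i ≠ 0 → a j * π ^ j ≠ 0 →
        v (a i * π ^ i) ≠ v (a j * π ^ j) := by
      intro i _ j hj hij hi0 hj0 he
      have hai : a i ≠ 0 := left_ne_zero_of_mul hi0
      have haj : a j ≠ 0 := left_ne_zero_of_mul hj0
      rw [v.map_mul, v.map_mul, map_pow, map_pow] at he
      have hpow : v π ^ j = v π ^ (j - i) * v π ^ i := (pow_sub_mul_pow (v π) hij.le).symm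
      rw [hpow] at he
      have h1 : v (a i) = v (a j) * v π ^ (j - i) := by
        have hpos : 0 < v π ^ i := pow_pos hvπ i
        have : v (a i) * v π ^ i = (v (a j) * v π ^ (j - i)) * v π ^ i := by
          rw [he]; ring
        exact mul_right_cancel₀ hpos.ne' this
      refine hπ (j - i) (by omega) (by omega) (a i / a j) (F.div_mem (ha i) (ha j))
        (div_ne_zero hai haj) ?_
      have hpos : 0 < v (a j) := v.pos haj
      rw [map_div₀, h1]
      field_simp
    obtain ⟨k, hk, hkmax, hkz⟩ := exists_sum_eq v hv p (fun i => a i * π ^ i) hdist hp.pos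
    have hterm : ∀ i < p, v (a i * π ^ i) ≤ 1 := fun i hi =>
      (hkmax i hi).trans (by rw [← hkz, ← hz]; exact hz1)
    have hterm' : ∀ i < p, 0 < i → v (a i * π ^ i) < 1 := by
      intro i hi hi0
      refine lt_of_le_of_ne (hterm i hi) ?_
      intro h1
      have hai : a i ≠ 0 := by
        intro h0
        rw [h0, zero_mul, v.map_zero] at h1
        exact zero_ne_one h1
      refine hπ i hi0 hi (a i)⁻¹ (F.inv_mem (ha i)) (inv_ne_zero hai) ?_
      rw [v.map_mul, map_pow] at h1
      rw [map_inv₀]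
      exact eq_inv_of_mul_eq_one_right h1
    have hσz : σ z - z = ∑ i ∈ range p, a i * (σ (π ^ i) - π ^ i) := by
      rw [hz, map_sum, ← Finset.sum_sub_distrib]
      refine Finset.sum_congr rfl fun i _ => ?_
      rw [map_mul, hFσ _ (ha i)]
      ring
    rw [hσz]
    refine sum_lt v hv _ _ one_pos fun i hi => ?_
    rw [Finset.mem_range] at hi
    rcases Nat.eq_zero_or_pos i with rfl | hi0
    · simp
    · rw [v.map_mul]
      have h2 : v (σ (π ^ i) - π ^ i) ≤ v (π ^ i) :=
        (sub_le_max v hv _ _).trans (max_le (hσv _).le le_rfl)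
      calc v (a i) * v (σ (π ^ i) - π ^ i) ≤ v (a i) * v (π ^ i) := by
            gcongr
        _ = v (a i * π ^ i) := (v.map_mul _ _).symm
        _ < 1 := hterm' i hi hi0
  -- `c := σ π / π`
  have hσπ0 : σ π ≠ 0 := fun h => hπ0 ((map_eq_zero σ).1 h)
  set c : K := σ π / π with hcdef
  have hvc : v c = 1 := by
    rw [hcdef, map_div₀, hσv, div_self hvπ.ne']
  have hmovej : ∀ j : ℕ, v (σ^[j] c - c) < 1 := by
    intro j
    induction j with
    | zero => simp
    | succ j ih =>
      have h1 : σ^[j + 1] c - c = σ (σ^[j] c - c) + (σ c - c) := by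
        rw [Function.iterate_succ_apply', map_sub]; ring
      rw [h1]
      refine lt_of_le_of_lt (hv _ _) (max_lt ?_ (hmove c hvc.le))
      rw [hσv]; exact ih
  -- `∏_{j<p} σ^j c = 1`
  have hprod : ∏ j ∈ range p, σ^[j] c = 1 := by
    have h1 : ∀ j ∈ range p, σ^[j] c = σ^[j + 1] π / σ^[j] π := by
      intro j _
      have hit : ∀ (n : ℕ) (x y : K), σ^[n] (x / y) = σ^[n] x / σ^[n] y := by
        intro n x y
        induction n with
        | zero => rfl
        | succ n ih => rw [Function.iterate_succ_apply', ih, map_div₀,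
            ← Function.iterate_succ_apply' σ, ← Function.iterate_succ_apply' σ]
      rw [hcdef, hit, ← Function.iterate_succ_apply]
    have htel : ∀ n : ℕ, ∏ j ∈ range n, (σ^[j + 1] π / σ^[j] π) = σ^[n] π / π := by
      intro n
      induction n with
      | zero => simp [div_self hπ0]
      | succ n ih =>
        have hne : σ^[n] π ≠ 0 := by
          intro h
          have := hiter n π
          rw [h, v.map_zero] at this
          exact hvπ.ne this
        rw [Finset.prod_range_succ, ih]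
        field_simp
    rw [Finset.prod_congr rfl h1, htel p, hσp, div_self hπ0]
  -- `v (c ^ p - 1) < 1`
  have hcp : v (c ^ p - 1) < 1 := by
    have hind : ∀ n : ℕ, v (∏ j ∈ range n, σ^[j] c - c ^ n) < 1 := by
      intro n
      induction n with
      | zero => simp
      | succ n ih =>
        have h1 : ∏ j ∈ range (n + 1), σ^[j] c - c ^ (n + 1) =
            (∏ j ∈ range n, σ^[j] c - c ^ n) * σ^[n] c + c ^ n * (σ^[n] c - c) := by
          rw [Finset.prod_range_succ, pow_succ]; ring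
        rw [h1]
        refine lt_of_le_of_lt (hv _ _) (max_lt ?_ ?_)
        · rw [v.map_mul, hiter, hvc, mul_one]; exact ih
        · rw [v.map_mul, map_pow, hvc, one_pow, one_mul]; exact hmovej n
    have := hind p
    rw [hprod] at this
    rwa [← v.map_neg, neg_sub] at this
  -- `v (c - 1) < 1`
  have hr1 : v (σ π / π - 1) < 1 := by
    have hy1 : v (c - 1) ≤ 1 :=
      (sub_le_max v hv c 1).trans (max_le hvc.le (by rw [v.map_one]))
    have h1 := pow_le_max v hv hp hy1
    rw [add_sub_cancel] at h1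
    have h2 : v (c - 1) ^ p < 1 := lt_of_le_of_lt h1 (max_lt hcp hp1)
    by_contra hge
    rw [not_lt] at hge
    exact absurd h2 (not_lt.2 (one_le_pow₀ hge))
  exact exists_mem_of_cyclic σ F v hv hF hp hσp hζF hζp hζ1 hpz hp1 hπ0 hπ hr1 hPeu hγ hc hc0
    hrel hν

end Main

end Fermat.Agent.S40.P.PeuCyclicTop
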