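/-
Row 62 §M1, leaf (PEU ⇒ trop ∈ ℤ), local algebra.

`p` odd, `L ⊆ PadicAlgCl p` peu ramifiée (`IsPeuRamifie p L`), `E₀ ≤ L` finite unramified over `ℚ_p`,
`ζ ∈ L` a primitive `p`-th root of unity, `w ∈ E₀` with a `p`-th root in `L`.  Then the (integral)
valuation of `w` is divisible by `p`:  `‖w‖ = p ^ n → p ∣ n`.

Proof: `F := E₀(ζ)`; every nonzero element of `F` has norm in `‖ζ - 1‖ ^ ℤ` (the `E₀`-basis
`1, π, …, π^{p-2}`, `π = ζ - 1`, `‖π‖^{p-1} = ‖p‖`, terms of pairwise distinct norms);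
`w = u z ^ p` with `‖u‖ = 1` gives `‖π‖^{(p-1) n'} = ‖π‖^{p a}`.
-/
import Mathlib
import Fermat.Agent.S56.Flat.KummerBound.Defs
import Fermat.Agent.S55.LocalInt
import Fermat.Agent.S55.GL.LocalDegreesLocal

set_option autoImplicit false
set_option linter.style.haveILetI false
set_option linter.unusedSectionVars false

namespace Fermat.Agent.S40.P.PeuVal

open IsLocalRing IntermediateField Polynomial Fermat.Agent.S55.LocalInt
  Fermat.Agent.S55.Local.Unram Fermat.Agent.S56.Flat.KummerBound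

/-! ### An ultrametric lemma: sums of terms with pairwise distinct norms -/

section Ultra

variable {V : Type*} [SeminormedAddCommGroup V] [IsUltrametricDist V]

theorem exists_norm_sum_eq {ι : Type*} [DecidableEq ι] (s : Finset ι) (f : ι → V)
    (hdist : ∀ i ∈ s, ∀ j ∈ s, i ≠ j → ‖f i‖ ≠ 0 → ‖f j‖ ≠ 0 → ‖f i‖ ≠ ‖f j‖) :
    (∀ i ∈ s, ‖f i‖ = 0) ∨ ∃ i ∈ s, ‖f i‖ ≠ 0 ∧ ‖∑ j ∈ s, f j‖ = ‖f i‖ := by
  induction s using Finset.induction_on with
  | empty => left; simp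
  | insert a s ha ih =>
    have hdist' : ∀ i ∈ s, ∀ j ∈ s, i ≠ j → ‖f i‖ ≠ 0 → ‖f j‖ ≠ 0 → ‖f i‖ ≠ ‖f j‖ :=
      fun i hi j hj => hdist i (Finset.mem_insert_of_mem hi) j (Finset.mem_insert_of_mem hj)
    rw [Finset.sum_insert ha]
    rcases ih hdist' with h0 | ⟨i, hi, hi0, hsum⟩
    · -- the tail sum has norm zero
      have hS : ‖∑ j ∈ s, f j‖ = 0 := by
        refine le_antisymm ?_ (norm_nonneg _)
        obtain hs | hs := s.eq_empty_or_nonempty
        · simp [hs]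
        · obtain ⟨j, hj, hle⟩ := IsUltrametricDist.exists_norm_finsetSum_le_of_nonempty hs f
          exact hle.trans (h0 j hj).le
      by_cases hfa : ‖f a‖ = 0
      · left
        intro i hi
        rcases Finset.mem_insert.1 hi with rfl | hi
        · exact hfa
        · exact h0 i hi
      · right
        refine ⟨a, Finset.mem_insert_self a s, hfa, ?_⟩
        have hne : ‖f a‖ ≠ ‖∑ j ∈ s, f j‖ := by rw [hS]; exact hfa
        rw [IsUltrametricDist.norm_add_eq_max_of_norm_ne_norm hne, hS]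
        exact max_eq_left (norm_nonneg _)
    · by_cases hfa : ‖f a‖ = 0
      · right
        refine ⟨i, Finset.mem_insert_of_mem hi, hi0, ?_⟩
        have hne : ‖f a‖ ≠ ‖∑ j ∈ s, f j‖ := by rw [hsum, hfa]; exact fun h => hi0 h.symm
        rw [IsUltrametricDist.norm_add_eq_max_of_norm_ne_norm hne, hfa, hsum]
        exact max_eq_right (norm_nonneg _)
      · have hai : a ≠ i := fun h => ha (h ▸ hi)
        have hne0 : ‖f a‖ ≠ ‖f i‖ :=
          hdist a (Finset.mem_insert_self a s) i (Finset.mem_insert_of_mem hi) hai hfa hi0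
        have hne : ‖f a‖ ≠ ‖∑ j ∈ s, f j‖ := by rw [hsum]; exact hne0
        right
        rw [IsUltrametricDist.norm_add_eq_max_of_norm_ne_norm hne, hsum]
        rcases le_total ‖f a‖ ‖f i‖ with h | h
        · exact ⟨i, Finset.mem_insert_of_mem hi, hi0, max_eq_right h⟩
        · exact ⟨a, Finset.mem_insert_self a s, hfa, max_eq_left h⟩

end Ultra

/-! ### The norm of `ζ - 1` -/

section Zeta

variable {p : ℕ} [Fact p.Prime]

local notation "Ω" => PadicAlgCl p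

theorem norm_le_one_of_isPrimitiveRoot {ζ : Ω} (hζ : IsPrimitiveRoot ζ p) : ‖ζ‖ = 1 := by
  have hp : p.Prime := Fact.out
  have h2 : ‖ζ‖ ^ p = 1 := by rw [← norm_pow, hζ.pow_eq_one, norm_one]
  exact (pow_eq_one_iff_of_nonneg (norm_nonneg _) hp.ne_zero).1 h2

/-- `‖ζ - 1‖ ^ (p - 1) = ‖p‖ = p⁻¹` for a primitive `p`-th root of unity. -/
theorem norm_sub_one_pow {ζ : Ω} (hζ : IsPrimitiveRoot ζ p) :
    ‖ζ - 1‖ ^ (p - 1) = (p : ℝ)⁻¹ := by
  have hp : p.Prime := Fact.out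
  -- work in the ring of integers of `Ω`
  let A : Subalgebra ℤ_[p] Ω := integralClosure ℤ_[p] Ω
  have hmem : ∀ y : Ω, y ∈ A ↔ ‖y‖ ≤ 1 := fun y =>
    (mem_integralClosure_iff ℤ_[p] Ω).trans (isIntegral_padicInt_iff_norm_le_one p y)
  have hζA : ζ ∈ A := (hmem ζ).2 (norm_le_one_of_isPrimitiveRoot hζ).le
  set ζ₀ : A := ⟨ζ, hζA⟩ with hζ₀
  have hζ₀' : IsPrimitiveRoot ζ₀ p :=
    IsPrimitiveRoot.of_map_of_injective (f := A.val) (by exact hζ) Subtype.val_injective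
  have hass := Fermat.Agent.S55.GL.LocalDegrees.associated_sub_one_pow_natCast (A := A) (p := p)
    (k := 0) (ζ := ζ₀) (by simpa using hζ₀')
  rw [pow_zero, one_mul] at hass
  obtain ⟨u, hu⟩ := hass
  have hu1 : ‖((u : A) : Ω)‖ = 1 := by
    have h1 : ‖((u : A) : Ω)‖ ≤ 1 := (hmem _).1 (u : A).2
    have h2 : ‖(((u⁻¹ : Aˣ) : A) : Ω)‖ ≤ 1 := (hmem _).1 ((u⁻¹ : Aˣ) : A).2
    have h3 : ((u : A) : Ω) * (((u⁻¹ : Aˣ) : A) : Ω) = 1 := by
      have h0 : ((u : A) * ((u⁻¹ : Aˣ) : A) : A) = 1 := Units.mul_inv u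
      have := congrArg (fun t : A => (t : Ω)) h0
      simpa only [MulMemClass.coe_mul, OneMemClass.coe_one] using this
    have h4 : ‖((u : A) : Ω)‖ * ‖(((u⁻¹ : Aˣ) : A) : Ω)‖ = 1 := by rw [← norm_mul, h3, norm_one]
    nlinarith [norm_nonneg ((u : A) : Ω), norm_nonneg (((u⁻¹ : Aˣ) : A) : Ω)]
  have h5 : (ζ - 1) ^ (p - 1) * ((u : A) : Ω) = (p : Ω) := by
    have := congrArg (fun t : A => (t : Ω)) hu
    simpa [hζ₀] using this
  have h6 := congrArg norm h5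
  rw [norm_mul, norm_pow, hu1, mul_one] at h6
  rw [h6]
  exact norm_natCast_self p

theorem norm_sub_one_pos {ζ : Ω} (hζ : IsPrimitiveRoot ζ p) : 0 < ‖ζ - 1‖ := by
  have hp : p.Prime := Fact.out
  rw [norm_pos_iff, sub_ne_zero]
  exact hζ.ne_one hp.one_lt

theorem norm_sub_one_lt_one {ζ : Ω} (hζ : IsPrimitiveRoot ζ p) : ‖ζ - 1‖ < 1 := by
  have hp : p.Prime := Fact.out
  by_contra h
  rw [not_lt] at h
  have h1 : (1 : ℝ) ≤ ‖ζ - 1‖ ^ (p - 1) := one_le_pow₀ h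
  rw [norm_sub_one_pow hζ] at h1
  have hq : (1 : ℝ) < p := by exact_mod_cast hp.one_lt
  exact absurd h1 (not_le.mpr (inv_lt_one_of_one_lt₀ hq))

/-- `(p : ℝ) ^ n = ‖ζ - 1‖ ^ (-(p - 1) * n)`. -/
theorem zpow_eq_norm_sub_one_zpow {ζ : Ω} (hζ : IsPrimitiveRoot ζ p) (n : ℤ) :
    (p : ℝ) ^ n = ‖ζ - 1‖ ^ (-((p - 1 : ℕ) : ℤ) * n) := by
  have hp : p.Prime := Fact.out
  have hp0 : (p : ℝ) ≠ 0 := by exact_mod_cast hp.ne_zero
  rw [zpow_mul, zpow_neg, zpow_natCast, norm_sub_one_pow hζ, inv_inv]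

end Zeta

/-! ### The value group of `E₀(ζ)`, `E₀` unramified -/

section ValueGroup

variable {p : ℕ} [Fact p.Prime]

local notation "Ω" => PadicAlgCl p

/-- the polynomial `1 + X + ⋯ + X^n` -/
theorem geomPoly_monic (K : Type*) [Field K] (n : ℕ) :
    (∑ i ∈ Finset.range (n + 1), (X : K[X]) ^ i).Monic :=
  monic_geom_sum_X (Nat.succ_ne_zero n)

theorem geomPoly_natDegree (K : Type*) [Field K] (n : ℕ) :
    (∑ i ∈ Finset.range (n + 1), (X : K[X]) ^ i).natDegree = n := by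
  have h1 : (∑ i ∈ Finset.range (n + 1), (X : K[X]) ^ i) * (X - 1) = X ^ (n + 1) - 1 :=
    geom_sum_mul X (n + 1)
  have h2 := congrArg natDegree h1
  have hX1 : (X - 1 : K[X]).Monic := by
    have := monic_X_sub_C (1 : K)
    rwa [map_one] at this
  rw [(geomPoly_monic K n).natDegree_mul hX1] at h2
  have h3 : (X - 1 : K[X]).natDegree = 1 := by
    have := natDegree_X_sub_C (1 : K)
    rwa [map_one] at this
  have h4 : (X ^ (n + 1) - 1 : K[X]).natDegree = n + 1 := by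
    have := natDegree_X_pow_sub_C (R := K) (n := n + 1) (r := 1)
    rwa [map_one] at this
  rw [h3, h4] at h2
  omega

/-- every element of `E₀[ζ]` is a polynomial of degree `< p - 1` in `π = ζ - 1`. -/
theorem exists_coeff_of_aeval {E₀ : IntermediateField ℚ_[p] Ω} {ζ : Ω} (hζ : IsPrimitiveRoot ζ p)
    (q : E₀[X]) : ∃ c : ℕ → E₀, aeval ζ q = ∑ i ∈ Finset.range (p - 1), (c i : Ω) * (ζ - 1) ^ i := by
  have hp : p.Prime := Fact.out
  obtain ⟨n, hn⟩ : ∃ n, p = n + 2 := ⟨p - 2, by have := hp.two_le; omega⟩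
  set g : E₀[X] := ∑ i ∈ Finset.range (n + 1 + 1), (X : E₀[X]) ^ i with hg
  have hgm : g.Monic := geomPoly_monic E₀ (n + 1)
  have hgd : g.natDegree = n + 1 := geomPoly_natDegree E₀ (n + 1)
  have hgζ : aeval ζ g = 0 := by
    have h1 : (ζ - 1) * aeval ζ g = 0 := by
      rw [hg, map_sum]
      simp only [map_pow, aeval_X]
      rw [mul_comm, geom_sum_mul, ← hn, hζ.pow_eq_one, sub_self]
    rcases mul_eq_zero.1 h1 with h | h
    · exact absurd (sub_eq_zero.1 h) (hζ.ne_one hp.one_lt)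
    · exact h
  set r : E₀[X] := q %ₘ g with hr
  have hrq : aeval ζ q = aeval ζ r := by
    conv_lhs => rw [← modByMonic_add_div q g]
    rw [map_add, map_mul, hgζ, zero_mul, add_zero]
  have hrd : r.natDegree < n + 1 := by
    have := natDegree_modByMonic_lt q hgm (by
      intro h1
      have := congrArg natDegree h1
      rw [hgd, natDegree_one] at this
      omega)
    rwa [hgd] at this
  set r' : E₀[X] := r.comp (X + 1) with hr'
  have hr'ζ : aeval (ζ - 1) r' = aeval ζ r := by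
    rw [hr', aeval_comp]
    simp
  have hr'd : r'.natDegree < n + 1 := by
    refine lt_of_le_of_lt ?_ hrd
    rw [hr']
    refine le_trans natDegree_comp_le ?_
    have : (X + 1 : E₀[X]).natDegree ≤ 1 := by
      have := natDegree_X_add_C (1 : E₀)
      rw [map_one] at this
      rw [this]
    calc r.natDegree * (X + 1 : E₀[X]).natDegree ≤ r.natDegree * 1 := Nat.mul_le_mul_left _ this
      _ = r.natDegree := mul_one _
  refine ⟨fun i => r'.coeff i, ?_⟩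
  rw [hrq, ← hr'ζ, aeval_eq_sum_range' (show r'.natDegree < p - 1 by omega)]
  refine Finset.sum_congr rfl fun i _ => ?_
  rw [Algebra.smul_def]
  rfl

/-- **The value group of `E₀(ζ_p)`** for `E₀/ℚ_p` finite unramified is `‖ζ - 1‖ ^ ℤ`. -/
theorem exists_norm_eq_zpow {E₀ : IntermediateField ℚ_[p] Ω} [FiniteDimensional ℚ_[p] E₀]
    (hunr : IsUnramifiedIn ℤ_[p] E₀) {ζ : Ω} (hζ : IsPrimitiveRoot ζ p) {y : Ω}
    (hy : y ∈ (IntermediateField.adjoin E₀ {ζ} : IntermediateField E₀ Ω)) (hy0 : y ≠ 0) :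
    ∃ a : ℤ, ‖y‖ = ‖ζ - 1‖ ^ a := by
  classical
  have hp : p.Prime := Fact.out
  have hπ0 := norm_sub_one_pos hζ
  have hπ1 := norm_sub_one_lt_one hζ
  have hval := (isUnramifiedIn_iff_forall_norm_eq_zpow E₀).1 hunr
  -- `y` is a polynomial in `ζ`
  have hint : IsIntegral E₀ ζ := by
    refine ⟨X ^ p - 1, monic_X_pow_sub_C 1 hp.ne_zero, ?_⟩
    simp [hζ.pow_eq_one]
  have hy' : y ∈ Algebra.adjoin E₀ {ζ} := by
    rw [← IntermediateField.adjoin_simple_toSubalgebra_of_isAlgebraic hint.isAlgebraic]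
    exact hy
  rw [Algebra.adjoin_singleton_eq_range_aeval] at hy'
  obtain ⟨q, rfl⟩ := hy'
  obtain ⟨c, hc⟩ := exists_coeff_of_aeval hζ q
  rw [show (aeval ζ).toRingHom q = aeval ζ q from rfl] at hy0 ⊢
  rw [hc] at hy0 ⊢
  -- the norms of the terms
  have hterm : ∀ i, c i ≠ 0 → ∃ a : ℤ, ‖(c i : Ω) * (ζ - 1) ^ i‖ = ‖ζ - 1‖ ^ a ∧
      a % ((p - 1 : ℕ) : ℤ) = (i : ℤ) % ((p - 1 : ℕ) : ℤ) := by
    intro i hi
    obtain ⟨n, hn⟩ := hval (c i) hi
    refine ⟨-((p - 1 : ℕ) : ℤ) * n + i, ?_, ?_⟩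
    · rw [norm_mul, norm_pow, hn, zpow_eq_norm_sub_one_zpow hζ, zpow_add₀ hπ0.ne', zpow_natCast]
    · rw [neg_mul, ← mul_neg, Int.mul_add_emod_self_left]
  have hc0 : ∀ i, ‖(c i : Ω) * (ζ - 1) ^ i‖ ≠ 0 → c i ≠ 0 := by
    intro i hi h0
    apply hi
    rw [h0]
    simp
  have hdist : ∀ i ∈ Finset.range (p - 1), ∀ j ∈ Finset.range (p - 1), i ≠ j →
      ‖(c i : Ω) * (ζ - 1) ^ i‖ ≠ 0 → ‖(c j : Ω) * (ζ - 1) ^ j‖ ≠ 0 →
      ‖(c i : Ω) * (ζ - 1) ^ i‖ ≠ ‖(c j : Ω) * (ζ - 1) ^ j‖ := by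
    intro i hi j hj hij hi0 hj0 heq
    obtain ⟨a, ha, hai⟩ := hterm i (hc0 i hi0)
    obtain ⟨b, hb, hbj⟩ := hterm j (hc0 j hj0)
    rw [ha, hb] at heq
    have hab : a = b := zpow_right_injective₀ hπ0 hπ1.ne heq
    rw [hab, hbj] at hai
    rw [Finset.mem_range] at hi hj
    have h1 : (j : ℤ) % ((p - 1 : ℕ) : ℤ) = j := Int.emod_eq_of_lt (by positivity) (by exact_mod_cast hj)
    have h2 : (i : ℤ) % ((p - 1 : ℕ) : ℤ) = i := Int.emod_eq_of_lt (by positivity) (by exact_mod_cast hi)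
    rw [h1, h2] at hai
    exact hij (by exact_mod_cast hai.symm)
  rcases exists_norm_sum_eq (Finset.range (p - 1)) (fun i => (c i : Ω) * (ζ - 1) ^ i) hdist with
    h0 | ⟨i, _, hi0, hsum⟩
  · exfalso
    apply hy0
    refine Finset.sum_eq_zero fun i hi => ?_
    exact norm_eq_zero.1 (h0 i hi)
  · obtain ⟨a, ha, -⟩ := hterm i (hc0 i hi0)
    exact ⟨a, hsum.trans ha⟩

end ValueGroup

/-! ### The main lemma -/

section Main

variable {p : ℕ} [Fact p.Prime]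

local notation "Ω" => PadicAlgCl p

/-- **(PEU ⇒ integral valuation divisible by `p`).**  `L` peu ramifiée, `E₀ ≤ L` finite unramified,
`ζ_p ∈ L`, `w ∈ E₀` with `‖w‖ = p ^ n` and a `p`-th root in `L`: then `p ∣ n`. -/
theorem dvd_of_isPeuRamifie {L E₀ : IntermediateField ℚ_[p] Ω} [FiniteDimensional ℚ_[p] E₀]
    (hL : IsPeuRamifie p L) (hE₀L : E₀ ≤ L) (hunr : IsUnramifiedIn ℤ_[p] E₀)
    {ζ : Ω} (hζ : IsPrimitiveRoot ζ p) (hζL : ζ ∈ L)
    {w : Ω} (hw : w ∈ E₀) {n : ℤ} (hn : ‖w‖ = (p : ℝ) ^ n)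
    {x : Ω} (hxL : x ∈ L) (hxw : x ^ p = w) : (p : ℤ) ∣ n := by
  classical
  have hp : p.Prime := Fact.out
  have hp0 : (0 : ℝ) < p := by exact_mod_cast hp.pos
  have hπ0 := norm_sub_one_pos hζ
  have hπ1 := norm_sub_one_lt_one hζ
  have hint : IsIntegral ℚ_[p] ζ := Algebra.IsIntegral.isIntegral ζ
  haveI : FiniteDimensional ℚ_[p] ℚ_[p]⟮ζ⟯ := IntermediateField.adjoin.finiteDimensional hint
  set F : IntermediateField ℚ_[p] Ω := E₀ ⊔ ℚ_[p]⟮ζ⟯ with hF
  haveI : FiniteDimensional ℚ_[p] F := IntermediateField.finiteDimensional_sup E₀ ℚ_[p]⟮ζ⟯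
  have hE₀F : E₀ ≤ F := le_sup_left
  have hζF : ζ ∈ F := (le_sup_right : ℚ_[p]⟮ζ⟯ ≤ F) (IntermediateField.mem_adjoin_simple_self ℚ_[p] ζ)
  have hFL : F ≤ L := sup_le hE₀L (IntermediateField.adjoin_simple_le_iff.2 hζL)
  -- `F ⊆ E₀(ζ)`
  have hFG : ∀ y : Ω, y ∈ F → y ∈ (IntermediateField.adjoin E₀ {ζ} : IntermediateField E₀ Ω) := by
    have h1 : F ≤ (IntermediateField.adjoin E₀ {ζ} : IntermediateField E₀ Ω).restrictScalars ℚ_[p] := by
      refine sup_le ?_ (IntermediateField.adjoin_simple_le_iff.2 ?_)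
      · intro c hc
        exact (IntermediateField.adjoin E₀ {ζ}).algebraMap_mem ⟨c, hc⟩
      · exact IntermediateField.mem_adjoin_simple_self E₀ ζ
    exact fun y hy => h1 hy
  -- the root of unity in `F`
  set ζF : F := ⟨ζ, hζF⟩ with hζF'
  have hζF'' : IsPrimitiveRoot ζF p :=
    IsPrimitiveRoot.of_map_of_injective (f := algebraMap F Ω) (by exact hζ)
      (FaithfulSMul.algebraMap_injective F Ω)
  -- the exponent `e`
  obtain ⟨ϖ, hϖ⟩ := IsDiscreteValuationRing.exists_irreducible (integralClosure ℤ_[p] F)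
  have hpne : Ideal.span {((p : ℕ) : integralClosure ℤ_[p] F)} ≠ ⊥ := by
    rw [Ne, Ideal.span_singleton_eq_bot]
    exact_mod_cast hp.ne_zero
  obtain ⟨e, he⟩ := IsDiscreteValuationRing.ideal_eq_span_pow_irreducible hpne hϖ
  have hpe : Ideal.span {((p : ℕ) : integralClosure ℤ_[p] F)} =
      maximalIdeal (integralClosure ℤ_[p] F) ^ e := by
    rw [he, hϖ.maximalIdeal_eq, Ideal.span_singleton_pow]
  have hpmem : ((p : ℕ) : integralClosure ℤ_[p] F) ∈ maximalIdeal (integralClosure ℤ_[p] F) :=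
    natCast_mem_maximalIdeal F
  have he1 : 1 ≤ e := by
    rcases Nat.eq_zero_or_pos e with h0 | h0
    · exfalso
      rw [h0, pow_zero, Ideal.one_eq_top] at hpe
      have h1 : maximalIdeal (integralClosure ℤ_[p] F) = ⊤ :=
        top_le_iff.1 (hpe ▸ (Ideal.span_singleton_le_iff_mem _).2 hpmem)
      exact (IsLocalRing.maximalIdeal.isMaximal _).ne_top h1
    · exact h0
  -- `w` in `F`
  have hw0 : w ≠ 0 := by
    intro h0
    rw [h0, norm_zero] at hn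
    exact (zpow_pos hp0 n).ne hn
  set wF : F := ⟨w, hE₀F hw⟩ with hwF
  have hwF0 : wF ≠ 0 := fun h => hw0 (congrArg (fun t : F => (t : Ω)) h)
  obtain ⟨u, z, hu, hz0, hwz⟩ := hL F hFL ζF hζF'' e hpe wF hwF0 ⟨x, hxL, hxw⟩
  -- norms
  have hu1 : ‖(((u : integralClosure ℤ_[p] F) : F) : Ω)‖ = 1 := by
    have hum : u - 1 ∈ maximalIdeal (integralClosure ℤ_[p] F) :=
      Ideal.pow_le_self (Nat.one_le_iff_ne_zero.1 he1) hu
    rw [mem_maximalIdeal_iff_norm_lt_one] at hum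
    have h1 : (((u - 1 : integralClosure ℤ_[p] F) : F) : Ω) = ((u : F) : Ω) - 1 := by
      push_cast
      rfl
    rw [h1] at hum
    have h2 : ((u : F) : Ω) = 1 + (((u : F) : Ω) - 1) := by ring
    rw [h2]
    have hne : ‖(1 : Ω)‖ ≠ ‖((u : F) : Ω) - 1‖ := by
      rw [norm_one]
      exact hum.ne'
    rw [IsUltrametricDist.norm_add_eq_max_of_norm_ne_norm hne, norm_one]
    exact max_eq_left hum.le
  have hzΩ : ((z : F) : Ω) ≠ 0 := fun h => hz0 (Subtype.ext h)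
  obtain ⟨a, ha⟩ := exists_norm_eq_zpow hunr hζ (hFG _ z.2) hzΩ
  have hwnorm : ‖w‖ = ‖ζ - 1‖ ^ ((p : ℤ) * a) := by
    have h1 : w = (((u : integralClosure ℤ_[p] F) : F) : Ω) * ((z : F) : Ω) ^ p := by
      have := congrArg (fun t : F => (t : Ω)) hwz
      simpa [hwF] using this
    rw [h1, norm_mul, norm_pow, hu1, one_mul, ha, ← zpow_natCast, ← zpow_mul, mul_comm]
  rw [hn, zpow_eq_norm_sub_one_zpow hζ] at hwnorm
  have hexp : -((p - 1 : ℕ) : ℤ) * n = (p : ℤ) * a := zpow_right_injective₀ hπ0 hπ1.ne hwnorm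
  -- `p ∣ (p - 1) n` and `gcd (p, p - 1) = 1`
  have hdvd : (p : ℤ) ∣ ((p - 1 : ℕ) : ℤ) * n := by
    refine ⟨-a, ?_⟩
    linarith
  have hcop : IsCoprime (p : ℤ) ((p - 1 : ℕ) : ℤ) := by
    rw [Nat.isCoprime_iff_coprime]
    have : p - 1 + 1 = p := Nat.sub_add_cancel hp.one_le
    have h1 : Nat.Coprime (p - 1 + 1) (p - 1) := (Nat.coprime_self_add_left).2 (Nat.coprime_one_left _)
    rwa [this] at h1
  exact hcop.dvd_of_dvd_mul_left hdvd

end Main

end Fermat.Agent.S40.P.PeuVal
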