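/-
Row 67 (T6′, static route), leaf (R5), LOCAL form — the instantiation of the abstract cyclic core
(`PeuApprox` + `PeuCyclic`, helper19; `PeuCyclicTop`) at subfields of `Ω = PadicAlgCl p`.

`E₀ / ℚ_p` finite unramified, `K / E₀` finite Galois with `p² ∤ [K : E₀]`, `K` peu ramifiée,
`ζ_p ∈ K`, `γ ∈ Kˣ` with `γ ^ p ∈ p ^ a (1 + (ζ_p - 1) 𝒪_K)`.  Then `p ∣ a`.

Proof.  If `p ∤ [K : E₀]`: `‖γ‖ ^ [K:E₀] = ‖N_{K/E₀} γ‖ ∈ p ^ ℤ` and `‖γ‖ ^ p = p ^ (-a)`.
Otherwise let `s ∈ Gal(K/E₀)` be of order `p` (Cauchy), `F := K ^ ⟨s⟩`, `[K:F] = p`, `p ∤ [F:E₀]`;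
the cyclic core gives `g ∈ F` with `‖γ‖ = ‖g‖`, and `‖g‖ ^ [F:E₀] ∈ p ^ ℤ` as before.
No ramification theory (no uniformisers, no `e`, no DVR beyond the definition of `IsPeuRamifie`).
-/
import Mathlib
import Fermat.Agent.S40.P.PeuVal
import Fermat.Agent.S40.P.PeuCyclicTop

set_option autoImplicit false
set_option linter.style.haveILetI false
set_option linter.unusedSectionVars false

namespace Fermat.Agent.S40.P.PeuApproxLocal

open IsLocalRing IntermediateField Polynomial Fermat.Agent.S55.LocalInt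
  Fermat.Agent.S55.Local.Unram Fermat.Agent.S56.Flat.KummerBound Fermat.Agent.S40.P.PeuVal

variable {p : ℕ} [Fact p.Prime]

local notation "Ω" => PadicAlgCl p


/-- Two `ℚ_p`-embeddings of a field into `PadicAlgCl p` have the same norm pointwise. -/
theorem norm_algHom_eq {A : Type*} [Field A] [Algebra ℚ_[p] A] (φ ψ : A →ₐ[ℚ_[p]] Ω) (y : A) :
    ‖φ y‖ = ‖ψ y‖ := by
  rw [← PadicAlgCl.spectralNorm_eq, ← PadicAlgCl.spectralNorm_eq, spectralNorm, spectralNorm,
    minpoly.algHom_eq φ φ.injective, minpoly.algHom_eq ψ ψ.injective]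

/-- **Value group.**  `E₀` unramified, `F` an intermediate field of `K / E₀`: the norm of `g ∈ Fˣ`
to the power `[F : E₀]` is a power of `p`. -/
theorem exists_norm_pow_eq_zpow {E₀ : IntermediateField ℚ_[p] Ω} [FiniteDimensional ℚ_[p] E₀]
    (hE₀ : IsUnramifiedIn ℤ_[p] E₀) {K : IntermediateField E₀ Ω} [FiniteDimensional E₀ K]
    (F : IntermediateField E₀ K) (g : F) (hg : g ≠ 0) :
    ∃ j : ℤ, ‖((g : K) : Ω)‖ ^ Module.finrank E₀ F = (p : ℝ) ^ j := by
  classical
  haveI : Module.Free E₀ F := Module.Free.of_divisionRing E₀ F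
  haveI : FiniteDimensional E₀ F := IntermediateField.finiteDimensional_left F
  have hN0 : Algebra.norm E₀ g ≠ 0 := by
    rw [Ne, Algebra.norm_eq_zero_iff]
    exact hg
  obtain ⟨j, hj⟩ := (isUnramifiedIn_iff_forall_norm_eq_zpow E₀).1 hE₀ _ hN0
  refine ⟨j, ?_⟩
  rw [← hj]
  have h1 := Algebra.norm_eq_prod_embeddings E₀ Ω g
  have h2 : ‖algebraMap E₀ Ω (Algebra.norm E₀ g)‖ = ‖((g : K) : Ω)‖ ^ Module.finrank E₀ F := by
    rw [h1, norm_prod]
    have h3 : ∀ φ : F →ₐ[E₀] Ω, ‖φ g‖ = ‖((g : K) : Ω)‖ := by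
      intro φ
      exact norm_algHom_eq (φ.restrictScalars ℚ_[p])
        ((K.val.comp F.val).restrictScalars ℚ_[p]) g
    rw [Finset.prod_congr rfl (fun φ _ => h3 φ), Finset.prod_const, Finset.card_univ,
      AlgHom.card]
  exact h2.symm


/-- The arithmetic conclusion. -/
theorem dvd_of_norm_eq {E₀ : IntermediateField ℚ_[p] Ω} [FiniteDimensional ℚ_[p] E₀]
    (hE₀ : IsUnramifiedIn ℤ_[p] E₀) {K : IntermediateField E₀ Ω} [FiniteDimensional E₀ K]
    (F : IntermediateField E₀ K) (hF : ¬ p ∣ Module.finrank E₀ F) {γ : Ω} (hγ0 : γ ≠ 0) (a : ℤ)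
    (hγa : ‖γ‖ ^ p = (p : ℝ) ^ (-a)) (g : F) (hg : ‖γ‖ = ‖((g : K) : Ω)‖) : (p : ℤ) ∣ a := by
  have hp : p.Prime := Fact.out
  have hp0 : (0 : ℝ) < p := by exact_mod_cast hp.pos
  have hp1 : (1 : ℝ) < p := by exact_mod_cast hp.one_lt
  have hg0 : g ≠ 0 := by
    rintro rfl
    rw [ZeroMemClass.coe_zero, ZeroMemClass.coe_zero, norm_zero, norm_eq_zero] at hg
    exact hγ0 hg
  obtain ⟨j, hj⟩ := exists_norm_pow_eq_zpow hE₀ F g hg0
  set n := Module.finrank E₀ F with hn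
  rw [← hg] at hj
  have h1 : (p : ℝ) ^ (-a * n) = (p : ℝ) ^ (j * p) := by
    rw [zpow_mul, ← hγa, zpow_mul, ← hj, zpow_natCast, zpow_natCast, ← pow_mul, ← pow_mul, mul_comm]
  have h2 : -a * n = j * p := zpow_right_injective₀ hp0 hp1.ne' h1
  have h3 : (p : ℤ) ∣ a * n := ⟨-j, by linarith⟩
  rcases (Nat.prime_iff_prime_int.1 hp).dvd_or_dvd h3 with h | h
  · exact h
  · exact absurd (Int.natCast_dvd_natCast.1 h) hF


theorem finiteDimensional_lift {E₀ : IntermediateField ℚ_[p] Ω} [FiniteDimensional ℚ_[p] E₀]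
    (K : IntermediateField E₀ Ω) [FiniteDimensional E₀ K] (F : IntermediateField E₀ K) :
    FiniteDimensional ℚ_[p] ((IntermediateField.lift F).restrictScalars ℚ_[p]) := by
  haveI h1 : FiniteDimensional ℚ_[p] K := Module.Finite.trans E₀ K
  haveI h2 : FiniteDimensional ℚ_[p] (K.restrictScalars ℚ_[p]) := h1
  have hle : (IntermediateField.lift F).restrictScalars ℚ_[p] ≤ K.restrictScalars ℚ_[p] := by
    intro y hy
    exact IntermediateField.lift_le F hy
  exact Module.Finite.of_injective (IntermediateField.inclusion hle).toLinearMap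
    (IntermediateField.inclusion hle).injective

/-- norm form of IsPeuRamifie -/
theorem exists_norm_form {L F : IntermediateField ℚ_[p] Ω} [FiniteDimensional ℚ_[p] F]
    (hL : IsPeuRamifie p L) (hFL : F ≤ L) {ζ : Ω} (hζ : IsPrimitiveRoot ζ p) (hζF : ζ ∈ F)
    {w : Ω} (hw : w ∈ F) (hw0 : w ≠ 0) {x : Ω} (hxL : x ∈ L) (hxw : x ^ p = w) :
    ∃ u ∈ F, ∃ z ∈ F, ‖u - 1‖ ≤ ‖(p : Ω)‖ ∧ z ≠ 0 ∧ w = u * z ^ p := by
  classical
  have hp : p.Prime := Fact.out
  set ζF : F := ⟨ζ, hζF⟩ with hζF'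
  have hζF'' : IsPrimitiveRoot ζF p :=
    IsPrimitiveRoot.of_map_of_injective (f := algebraMap F Ω) (by exact hζ)
      (FaithfulSMul.algebraMap_injective F Ω)
  obtain ⟨ϖ, hϖ⟩ := IsDiscreteValuationRing.exists_irreducible (integralClosure ℤ_[p] F)
  have hpne : Ideal.span {((p : ℕ) : integralClosure ℤ_[p] F)} ≠ ⊥ := by
    rw [Ne, Ideal.span_singleton_eq_bot]
    exact_mod_cast hp.ne_zero
  obtain ⟨e, he⟩ := IsDiscreteValuationRing.ideal_eq_span_pow_irreducible hpne hϖ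
  have hpe : Ideal.span {((p : ℕ) : integralClosure ℤ_[p] F)} =
      maximalIdeal (integralClosure ℤ_[p] F) ^ e := by
    rw [he, hϖ.maximalIdeal_eq, Ideal.span_singleton_pow]
  set wF : F := ⟨w, hw⟩ with hwF
  have hwF0 : wF ≠ 0 := fun h => hw0 (congrArg (fun t : F => (t : Ω)) h)
  obtain ⟨u, z, hu, hz0, hwz⟩ := hL F hFL ζF hζF'' e hpe wF hwF0 ⟨x, hxL, hxw⟩
  refine ⟨((u : F) : Ω), (u : F).2, (z : Ω), z.2, ?_, fun h => hz0 (Subtype.ext h), ?_⟩
  · rw [← hpe, mem_span_natCast_iff] at hu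
    have h1 : (((u - 1 : integralClosure ℤ_[p] F) : F) : Ω) = ((u : F) : Ω) - 1 := by
      push_cast
      rfl
    rw [h1] at hu
    rw [norm_natCast_self]
    exact hu
  · have := congrArg (fun t : F => (t : Ω)) hwz
    simpa [hwF] using this


/-- The restriction of the norm of `Ω` to a subfield, as an absolute value. -/
noncomputable def absK {E₀ : IntermediateField ℚ_[p] Ω} (K : IntermediateField E₀ Ω) :
    AbsoluteValue K ℝ where
  toFun x := ‖(x : Ω)‖
  map_mul' x y := by simp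
  nonneg' x := norm_nonneg _
  eq_zero' x := by simp
  add_le' x y := by
    push_cast
    exact norm_add_le _ _

theorem absK_apply {E₀ : IntermediateField ℚ_[p] Ω} (K : IntermediateField E₀ Ω) (x : K) :
    absK K x = ‖(x : Ω)‖ := rfl

theorem absK_nonarch {E₀ : IntermediateField ℚ_[p] Ω} (K : IntermediateField E₀ Ω) :
    IsNonarchimedean (absK K) := by
  intro x y
  rw [absK_apply, absK_apply, absK_apply]
  push_cast
  exact IsUltrametricDist.norm_add_le_max _ _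

theorem absK_algEquiv {E₀ : IntermediateField ℚ_[p] Ω} (K : IntermediateField E₀ Ω)
    (s : K ≃ₐ[E₀] K) (x : K) : absK K (s x) = absK K x := by
  rw [absK_apply, absK_apply]
  exact norm_algHom_eq ((K.val.comp (s : K →ₐ[E₀] K)).restrictScalars ℚ_[p])
    (K.val.restrictScalars ℚ_[p]) x

theorem pow_eq_pow_iff_of_isPrimitiveRoot {A : Type*} [CommMonoid A] {ζ : A} {k : ℕ} (hk : 0 < k)
    (hζ : IsPrimitiveRoot ζ k) (a b : ℕ) : ζ ^ a = ζ ^ b ↔ a ≡ b [MOD k] := by
  rw [pow_eq_pow_mod a hζ.pow_eq_one, pow_eq_pow_mod b hζ.pow_eq_one]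
  constructor
  · intro h
    exact hζ.pow_inj (Nat.mod_lt _ hk) (Nat.mod_lt _ hk) h
  · intro h
    rw [h]

/-- an automorphism of order `p` fixes the `p`-th roots of unity -/
theorem fixes_root_of_orderOf {A : Type*} [Field A] {G : Type*} [Group G] [MulSemiringAction G A]
    (s : G) (hs : orderOf s = p) {ζ : A} (hζ : IsPrimitiveRoot ζ p) : s • ζ = ζ := by
  have hp : p.Prime := Fact.out
  have h1 : (s • ζ) ^ p = 1 := by rw [← smul_pow', hζ.pow_eq_one, smul_one]
  obtain ⟨k, hk, hkζ⟩ := hζ.eq_pow_of_pow_eq_one h1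
  have h2 : ∀ j : ℕ, s ^ j • ζ = ζ ^ (k ^ j) := by
    intro j
    induction j with
    | zero => simp
    | succ j ih => rw [pow_succ', mul_smul, ih, smul_pow', ← hkζ, ← pow_mul, pow_succ, mul_comm]
  have h3 := h2 p
  rw [← hs, pow_orderOf_eq_one, one_smul, hs] at h3
  have h4 : ζ ^ 1 = ζ ^ (k ^ p) := by rw [pow_one]; exact h3
  rw [pow_eq_pow_iff_of_isPrimitiveRoot hp.pos hζ] at h4
  have h5 : (k : ZMod p) ^ p = k := ZMod.pow_card _
  have h6 : ((k ^ p : ℕ) : ZMod p) = ((1 : ℕ) : ZMod p) :=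
    ((ZMod.natCast_eq_natCast_iff _ _ _).2 h4).symm
  rw [Nat.cast_pow, h5] at h6
  have h7 : k ≡ 1 [MOD p] := (ZMod.natCast_eq_natCast_iff _ _ _).1 h6
  rw [← hkζ]
  have h8 : ζ ^ k = ζ ^ 1 := by
    rw [pow_eq_pow_iff_of_isPrimitiveRoot hp.pos hζ]
    exact h7
  rw [h8, pow_one]


/-- **(R5), LOCAL form.** -/
theorem dvd_of_pow_approx {E₀ : IntermediateField ℚ_[p] Ω} [FiniteDimensional ℚ_[p] E₀]
    (hE₀ : IsUnramifiedIn ℤ_[p] E₀) (K : IntermediateField E₀ Ω) [FiniteDimensional E₀ K]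
    [IsGalois E₀ K] (hdeg : ¬ p ^ 2 ∣ Module.finrank E₀ K)
    (hPeu : IsPeuRamifie p (K.restrictScalars ℚ_[p])) {ζ : Ω} (hζ : IsPrimitiveRoot ζ p)
    (hζK : ζ ∈ K) {γ : Ω} (hγ : γ ∈ K) (hγ0 : γ ≠ 0) (a : ℤ)
    (h : ‖γ ^ p / (p : Ω) ^ a - 1‖ ≤ ‖ζ - 1‖) : (p : ℤ) ∣ a := by
  classical
  have hp : p.Prime := Fact.out
  have hpR : (0 : ℝ) < p := by exact_mod_cast hp.pos
  have hpΩ : (p : Ω) ≠ 0 := by exact_mod_cast hp.ne_zero
  have hπ1 := norm_sub_one_lt_one hζ
  -- the unit `ν`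
  set ν : Ω := γ ^ p / (p : Ω) ^ a with hν
  have hν1 : ‖ν‖ = 1 := by
    have h1 : ν = 1 + (ν - 1) := by ring
    have hne : ‖(1 : Ω)‖ ≠ ‖ν - 1‖ := by
      rw [norm_one]
      exact (lt_of_le_of_lt h hπ1).ne'
    rw [h1, IsUltrametricDist.norm_add_eq_max_of_norm_ne_norm hne, norm_one]
    exact max_eq_left (lt_of_le_of_lt h hπ1).le
  have hγa : ‖γ‖ ^ p = (p : ℝ) ^ (-a) := by
    have h1 : γ ^ p = ν * (p : Ω) ^ a := by
      rw [hν, div_mul_cancel₀ _ (zpow_ne_zero a hpΩ)]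
    rw [← norm_pow, h1, norm_mul, hν1, one_mul, norm_zpow, norm_natCast_self, inv_zpow', ]
  by_cases hpG : p ∣ Module.finrank E₀ K
  swap
  · -- tame case: `F := ⊤`
    refine dvd_of_norm_eq hE₀ (⊤ : IntermediateField E₀ K) ?_ hγ0 a hγa ⟨⟨γ, hγ⟩, mem_top⟩ rfl
    rwa [IntermediateField.finrank_top']
  · -- an element of order `p`
    have hcard : Nat.card (K ≃ₐ[E₀] K) = Module.finrank E₀ K := IsGalois.card_aut_eq_finrank E₀ K
    obtain ⟨s, hs⟩ := exists_prime_orderOf_dvd_card' p (hcard ▸ hpG)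
    set P : Subgroup (K ≃ₐ[E₀] K) := Subgroup.zpowers s with hP
    set F : IntermediateField E₀ K := IntermediateField.fixedField P with hF
    have hFK : Module.finrank F K = p := by
      rw [IntermediateField.finrank_fixedField_eq_card, hP, Nat.card_zpowers, hs]
    haveI : Module.Free E₀ F := Module.Free.of_divisionRing E₀ F
    haveI : Module.Free F K := Module.Free.of_divisionRing F K
    have hmul : Module.finrank E₀ F * Module.finrank F K = Module.finrank E₀ K :=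
      Module.finrank_mul_finrank E₀ F K
    have hFcop : ¬ p ∣ Module.finrank E₀ F := fun hd => hdeg (by
      rw [← hmul, hFK, pow_two]
      exact mul_dvd_mul_right hd p)
    suffices hg : ∃ g : F, ‖γ‖ = ‖((g : K) : Ω)‖ by
      obtain ⟨g, hg⟩ := hg
      exact dvd_of_norm_eq hE₀ F hFcop hγ0 a hγa g hg
    -- membership in `F`
    have hmemF : ∀ x : K, x ∈ F.toSubfield ↔ (s : K →+* K) x = x := by
      intro x
      rw [IntermediateField.mem_toSubfield, hF, IntermediateField.mem_fixedField_iff]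
      constructor
      · intro hx
        exact hx s (Subgroup.mem_zpowers s)
      · intro hx f hf
        have h1 : P ≤ MulAction.stabilizer (K ≃ₐ[E₀] K) x := by
          rw [hP, Subgroup.zpowers_le, MulAction.mem_stabilizer_iff]
          exact hx
        exact MulAction.mem_stabilizer_iff.1 (h1 hf)
    -- `σ ^ p = 1`
    have hσp : ∀ x : K, (s : K →+* K)^[p] x = x := by
      intro x
      have hsp : s ^ p = 1 := by
        have h0 := pow_orderOf_eq_one s
        rwa [hs] at h0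
      show (⇑s)^[p] x = x
      rw [← AlgEquiv.coe_pow, hsp]
      rfl
    -- the root of unity
    set ζK : K := ⟨ζ, hζK⟩ with hζK'
    have hζK'' : IsPrimitiveRoot ζK p :=
      IsPrimitiveRoot.of_map_of_injective (f := algebraMap K Ω) (by exact hζ)
        (FaithfulSMul.algebraMap_injective K Ω)
    have hζF : ζK ∈ F.toSubfield := by
      rw [hmemF]
      exact fixes_root_of_orderOf s hs hζK''
    have hpz : absK K (p : K) = absK K (ζK - 1) ^ (p - 1) := by
      rw [absK_apply, absK_apply, hζK']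
      push_cast
      rw [norm_sub_one_pow hζ, norm_natCast_self]
    have hp1 : absK K (p : K) < 1 := by
      rw [absK_apply]
      push_cast
      rw [norm_natCast_self]
      exact inv_lt_one_of_one_lt₀ (by exact_mod_cast hp.one_lt)
    -- the field `F` inside `Ω`
    set FΩ : IntermediateField ℚ_[p] Ω := (IntermediateField.lift F).restrictScalars ℚ_[p] with hFΩ
    haveI : FiniteDimensional ℚ_[p] FΩ := finiteDimensional_lift K F
    have hFΩle : FΩ ≤ K.restrictScalars ℚ_[p] := fun y hy => IntermediateField.lift_le F hy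
    have hmemFΩ : ∀ x : K, (x : Ω) ∈ FΩ ↔ x ∈ F := fun x => IntermediateField.mem_lift x
    have hPeu' : ∀ w ∈ F.toSubfield, w ≠ 0 → (∃ x : K, x ^ p = w) →
        ∃ u ∈ F.toSubfield, ∃ z ∈ F.toSubfield,
          absK K (u - 1) ≤ absK K (p : K) ∧ z ≠ 0 ∧ w = u * z ^ p := by
      intro w hw hw0 ⟨x, hx⟩
      have hw0' : (w : Ω) ≠ 0 := fun h0 => hw0 (Subtype.ext h0)
      obtain ⟨u, hu, z, hz, huz, hz0, hwuz⟩ := exists_norm_form hPeu hFΩle hζ
        ((hmemFΩ ζK).2 hζF) ((hmemFΩ w).2 hw) hw0' (x := (x : Ω)) x.2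
        (by rw [← hx]; push_cast; rfl)
      have huK : u ∈ K := IntermediateField.lift_le F hu
      have hzK : z ∈ K := IntermediateField.lift_le F hz
      refine ⟨⟨u, huK⟩, (hmemFΩ ⟨u, huK⟩).1 hu, ⟨z, hzK⟩, (hmemFΩ ⟨z, hzK⟩).1 hz, ?_,
        fun h0 => hz0 (congrArg Subtype.val h0), ?_⟩
      · rw [absK_apply, absK_apply]
        push_cast
        exact huz
      · apply Subtype.ext
        push_cast
        exact hwuz
    -- the data `γ, c, ν`
    set γK : K := ⟨γ, hγ⟩ with hγK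
    have hγK0 : γK ≠ 0 := fun h0 => hγ0 (congrArg Subtype.val h0)
    have hpK : (p : K) ≠ 0 := by exact_mod_cast hp.ne_zero
    have hrel : γK ^ p = (p : K) ^ a * (γK ^ p / (p : K) ^ a) := by
      rw [mul_div_cancel₀ _ (zpow_ne_zero a hpK)]
    have hνK : absK K (γK ^ p / (p : K) ^ a - 1) ≤ absK K (ζK - 1) := by
      rw [absK_apply, absK_apply]
      push_cast
      exact h
    obtain ⟨g, hgF, hg⟩ := PeuCyclicTop.exists_mem_of_cyclic_top (absK K) (absK_nonarch K)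
      (s : K →+* K) (absK_algEquiv K s) F.toSubfield hmemF hp hσp hζF hζK''.pow_eq_one
      (hζK''.ne_one hp.one_lt) hpz hp1 hPeu' hγK0 (zpow_mem (_root_.natCast_mem F.toSubfield p) a)
      (zpow_ne_zero a hpK) hrel hνK
    exact ⟨⟨g, hgF⟩, hg⟩

end Fermat.Agent.S40.P.PeuApproxLocal
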