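/-
Row 67 (T6′, static route), leaf (R5) — the LOCAL GALOIS half of the global pack.

`Γ_p = Gal(Ω / ℚ_p)`, `N ⊴ Γ_p` (in the application: the kernel of the action on `V ≅ E[p]`),
`L / ℚ_p` finite Galois with `Gal(Ω / L) ≤ N` and all `L ⊔ E₀` (`E₀` finite unramified) peu
ramifiées, `p² ∤ [Γ_p : N]`, `ζ_p` fixed by `N`, `γ` fixed by `N ∩ inertia`,
`γ ^ p ∈ p ^ a (1 + (ζ_p - 1) 𝒪)`.  Then `p ∣ a`.

Proof: `L′ :=` fixed field of `N` (`≤ L`, finite Galois, `Gal(Ω / L′) = N` by finite Galois theory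
inside `L`), `γ ∈ L′ ⊔ En p n` (`PeuLocal.exists_mem_sup_En`), `K := L′ ⊔ En p n` is peu ramifiée
(a subfield of `L ⊔ En p n`), `Gal(K / En p n) ↪ Γ_p ⧸ N`, and `PeuApproxLocal.dvd_of_pow_approx`.
-/
import Mathlib
import Fermat.Agent.S40.P.PeuLocal
import Fermat.Agent.S40.P.PeuApproxLocal

set_option autoImplicit false
set_option linter.style.haveILetI false
set_option linter.unusedSectionVars false

namespace Fermat.Agent.S40.P.PeuApproxInertia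

open IsLocalRing IntermediateField Fermat.Agent.S55.LocalInt Fermat.Agent.S55.Local.Unram
  Fermat.Agent.S56.Flat.KummerBound Fermat.Agent.S56.PT.UnramInstNorm
  Fermat.Agent.S56.Flat.Etale.Connected Fermat.Agent.S40.P.PeuVal Fermat.Agent.S40.P.PeuLocal

variable {p : ℕ} [Fact p.Prime]

local notation "Ω" => PadicAlgCl p


/-- `IsPeuRamifie` passes to subfields. -/
theorem isPeuRamifie_mono {K₁ K₂ : IntermediateField ℚ_[p] Ω} (h : K₁ ≤ K₂)
    (h₂ : IsPeuRamifie p K₂) : IsPeuRamifie p K₁ := by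
  intro F _ hF ζ hζ e he w hw ⟨x, hx, hxw⟩
  exact h₂ F (hF.trans h) ζ hζ e he w hw ⟨x, h hx, hxw⟩

theorem fixedField_le (N : Subgroup (Ω ≃ₐ[ℚ_[p]] Ω)) {L : IntermediateField ℚ_[p] Ω} (hLN : ∀ τ : Ω ≃ₐ[ℚ_[p]] Ω, (∀ y ∈ L, τ y = y) → τ ∈ N) :
    (IntermediateField.fixedField N : IntermediateField ℚ_[p] Ω) ≤ L := by
  intro x hx
  have hL := InfiniteGalois.fixedField_fixingSubgroup (k := ℚ_[p]) (K := Ω) L
  rw [← hL, IntermediateField.mem_fixedField_iff]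
  intro τ hτ
  rw [IntermediateField.mem_fixingSubgroup_iff] at hτ
  exact (IntermediateField.mem_fixedField_iff N x).1 hx τ (hLN τ hτ)

theorem mem_of_fixes_fixedField (N : Subgroup (Ω ≃ₐ[ℚ_[p]] Ω)) {L : IntermediateField ℚ_[p] Ω}
    [FiniteDimensional ℚ_[p] L] [IsGalois ℚ_[p] L]
    (hLN : ∀ τ : Ω ≃ₐ[ℚ_[p]] Ω, (∀ y ∈ L, τ y = y) → τ ∈ N)
    (τ : Ω ≃ₐ[ℚ_[p]] Ω) (hτ : ∀ y ∈ IntermediateField.fixedField N, τ y = y) : τ ∈ N := by
  classical
  set res : (Ω ≃ₐ[ℚ_[p]] Ω) →* (L ≃ₐ[ℚ_[p]] L) := AlgEquiv.restrictNormalHom L with hres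
  have hresapp : ∀ (σ : Ω ≃ₐ[ℚ_[p]] Ω) (x : L), ((res σ x : L) : Ω) = σ (x : Ω) := fun σ x =>
    AlgEquiv.restrictNormal_commutes σ L x
  set Nb : Subgroup (L ≃ₐ[ℚ_[p]] L) := N.map res with hNb
  have h1 : res τ ∈ (IntermediateField.fixedField Nb).fixingSubgroup := by
    rw [IntermediateField.mem_fixingSubgroup_iff]
    intro x hx
    apply Subtype.ext
    rw [hresapp]
    apply hτ
    rw [IntermediateField.mem_fixedField_iff]
    intro n hn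
    rw [← hresapp]
    exact congrArg Subtype.val
      ((IntermediateField.mem_fixedField_iff Nb x).1 hx (res n) (Subgroup.mem_map_of_mem res hn))
  rw [IntermediateField.fixingSubgroup_fixedField] at h1
  obtain ⟨n, hn, hnτ⟩ := Subgroup.mem_map.1 h1
  have h2 : n⁻¹ * τ ∈ N := by
    apply hLN
    intro y hy
    have h3 : res (n⁻¹ * τ) = 1 := by rw [map_mul, map_inv, hnτ, inv_mul_cancel]
    have h4 := hresapp (n⁻¹ * τ) ⟨y, hy⟩
    rw [h3] at h4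
    exact h4.symm
  have h5 : τ = n * (n⁻¹ * τ) := by group
  rw [h5]
  exact N.mul_mem hn h2

theorem normal_fixedField (N : Subgroup (Ω ≃ₐ[ℚ_[p]] Ω)) [N.Normal] : Normal ℚ_[p] (IntermediateField.fixedField N) := by
  rw [IntermediateField.normal_iff_forall_map_le']
  intro σ x hx
  obtain ⟨y, hy, rfl⟩ := (IntermediateField.mem_map _).1 hx
  rw [IntermediateField.mem_fixedField_iff] at hy ⊢
  intro n hn
  have h1 : σ⁻¹ * n * σ ∈ N := by
    have := Subgroup.Normal.conj_mem (inferInstance : N.Normal) n hn σ⁻¹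
    simpa using this
  have h2 := hy _ h1
  have h3 : n (σ y) = σ ((σ⁻¹ * n * σ) y) := by
    simp [AlgEquiv.mul_apply]
  show n (σ y) = σ y
  rw [h3, h2]

/-- The degree bound: `Gal(K / E₀)` embeds into `Γ_p ⧸ N` when `K = L′ ⊔ E₀`, `L′` the fixed field of
`N`. -/
theorem card_dvd_index (N : Subgroup (Ω ≃ₐ[ℚ_[p]] Ω)) [N.Normal]
    [Finite ((Ω ≃ₐ[ℚ_[p]] Ω) ⧸ N)]
    {E₀ : IntermediateField ℚ_[p] Ω} (K : IntermediateField E₀ Ω) [Normal E₀ K]
    (hK : K.restrictScalars ℚ_[p] = IntermediateField.fixedField N ⊔ E₀)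
    (hN : ∀ τ : Ω ≃ₐ[ℚ_[p]] Ω, (∀ y ∈ IntermediateField.fixedField N, τ y = y) → τ ∈ N) :
    Nat.card (K ≃ₐ[E₀] K) ∣ Nat.card ((Ω ≃ₐ[ℚ_[p]] Ω) ⧸ N) := by
  classical
  haveI : Normal E₀ Ω := Normal.tower_top_of_normal ℚ_[p] E₀ Ω
  set ρ : (Ω ≃ₐ[E₀] Ω) →* (K ≃ₐ[E₀] K) := AlgEquiv.restrictNormalHom K with hρ
  have hρsurj : Function.Surjective ρ := AlgEquiv.restrictNormalHom_surjective Ω
  have hρapp : ∀ (σ : Ω ≃ₐ[E₀] Ω) (x : K), ((ρ σ x : K) : Ω) = σ (x : Ω) := fun σ x =>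
    AlgEquiv.restrictNormal_commutes σ K x
  set ψ : (Ω ≃ₐ[E₀] Ω) →* (Ω ≃ₐ[ℚ_[p]] Ω) ⧸ N :=
    (QuotientGroup.mk' N).comp (AlgEquiv.restrictScalarsHom ℚ_[p]) with hψ
  have hψ1 : ∀ σ : Ω ≃ₐ[E₀] Ω, ψ σ = 1 ↔ σ.restrictScalars ℚ_[p] ∈ N := by
    intro σ
    rw [hψ, MonoidHom.comp_apply, QuotientGroup.mk'_apply, QuotientGroup.eq_one_iff]
    rfl
  -- `ker ρ ≤ ker ψ`
  have hker : ρ.ker ≤ ψ.ker := by
    intro σ hσ
    rw [MonoidHom.mem_ker] at hσ ⊢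
    rw [hψ1]
    apply hN
    intro y hy
    have hyK : y ∈ K := by
      have : y ∈ K.restrictScalars ℚ_[p] := by
        rw [hK]
        exact (le_sup_left : _ ≤ IntermediateField.fixedField N ⊔ E₀) hy
      exact this
    have h1 := hρapp σ ⟨y, hyK⟩
    rw [hσ] at h1
    exact h1.symm
  set φ : (K ≃ₐ[E₀] K) →* (Ω ≃ₐ[ℚ_[p]] Ω) ⧸ N :=
    ρ.liftOfRightInverse (Function.surjInv hρsurj) (Function.rightInverse_surjInv hρsurj)
      ⟨ψ, hker⟩ with hφ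
  have hφρ : ∀ σ, φ (ρ σ) = ψ σ := fun σ =>
    MonoidHom.liftOfRightInverse_comp_apply ρ _ (Function.rightInverse_surjInv hρsurj) ⟨ψ, hker⟩ σ
  have hφinj : Function.Injective φ := by
    rw [injective_iff_map_eq_one]
    intro s hs
    obtain ⟨σ, rfl⟩ := hρsurj s
    rw [hφρ, hψ1] at hs
    -- `σ` fixes `K` pointwise
    have h1 : σ.restrictScalars ℚ_[p] ∈
        (IntermediateField.fixedField N ⊔ E₀ : IntermediateField ℚ_[p] Ω).fixingSubgroup := by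
      rw [IntermediateField.fixingSubgroup_sup, Subgroup.mem_inf,
        IntermediateField.mem_fixingSubgroup_iff, IntermediateField.mem_fixingSubgroup_iff]
      refine ⟨fun y hy => ?_, fun y hy => ?_⟩
      · exact (IntermediateField.mem_fixedField_iff N y).1 hy _ hs
      · exact σ.commutes ⟨y, hy⟩
    rw [IntermediateField.mem_fixingSubgroup_iff] at h1
    ext x
    rw [hρapp, AlgEquiv.one_apply]
    have hx : (x : Ω) ∈ K.restrictScalars ℚ_[p] := x.2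
    rw [hK] at hx
    exact h1 _ hx
  exact Subgroup.card_dvd_of_injective φ hφinj


/-- **(R5), local Galois form.** -/
theorem dvd_of_inertia_fixed (N : Subgroup (Ω ≃ₐ[ℚ_[p]] Ω)) [N.Normal]
    {L : IntermediateField ℚ_[p] Ω} [FiniteDimensional ℚ_[p] L] [IsGalois ℚ_[p] L]
    (hLN : ∀ τ : Ω ≃ₐ[ℚ_[p]] Ω, (∀ y ∈ L, τ y = y) → τ ∈ N)
    (hPeu : ∀ E₀ : IntermediateField ℚ_[p] Ω, IsUnramifiedIn ℤ_[p] E₀ → IsPeuRamifie p (L ⊔ E₀))
    (hidx : ¬ p ^ 2 ∣ Nat.card ((Ω ≃ₐ[ℚ_[p]] Ω) ⧸ N))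
    {ζ : Ω} (hζ : IsPrimitiveRoot ζ p) (hζN : ∀ τ ∈ N, τ ζ = ζ)
    {γ : Ω} (hγ0 : γ ≠ 0) (hγN : ∀ τ ∈ N, IsInertial τ → τ γ = γ) (a : ℤ)
    (h : ‖γ ^ p / (p : Ω) ^ a - 1‖ ≤ ‖ζ - 1‖) : (p : ℤ) ∣ a := by
  classical
  have hp : p.Prime := Fact.out
  set L' : IntermediateField ℚ_[p] Ω := IntermediateField.fixedField N with hL'
  have hL'L : L' ≤ L := fixedField_le N hLN
  have hN : ∀ τ : Ω ≃ₐ[ℚ_[p]] Ω, (∀ y ∈ L', τ y = y) → τ ∈ N :=
    fun τ hτ => mem_of_fixes_fixedField N hLN τ hτ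
  haveI : FiniteDimensional ℚ_[p] L' :=
    Module.Finite.of_injective (IntermediateField.inclusion hL'L).toLinearMap
      (IntermediateField.inclusion hL'L).injective
  haveI : Normal ℚ_[p] L' := normal_fixedField N
  -- `γ` lies in `L' ⊔ En`
  obtain ⟨k, hk⟩ := exists_mem_sup_En (L := L') (x := γ)
    (fun τ hτ hτL => hγN τ (hN τ hτL) hτ)
  set E₀ : IntermediateField ℚ_[p] Ω := En p (k + 1) with hE₀
  have hunr : IsUnramifiedIn ℤ_[p] E₀ := isUnramifiedIn_En p (Nat.succ_pos k)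
  haveI : FiniteDimensional ℚ_[p] E₀ := hunr.1
  haveI : IsGalois ℚ_[p] E₀ := hunr.isGalois
  -- the field `K`
  set Kq : IntermediateField ℚ_[p] Ω := L' ⊔ E₀ with hKq
  haveI : FiniteDimensional ℚ_[p] Kq := IntermediateField.finiteDimensional_sup L' E₀
  haveI : Normal ℚ_[p] Kq := inferInstance
  haveI : IsGalois ℚ_[p] Kq := ⟨⟩
  set K : IntermediateField E₀ Ω := IntermediateField.extendScalars (le_sup_right : E₀ ≤ Kq) with hK
  have hKres : K.restrictScalars ℚ_[p] = Kq := rfl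
  haveI : FiniteDimensional ℚ_[p] K := (inferInstance : FiniteDimensional ℚ_[p] Kq)
  haveI : IsGalois ℚ_[p] K := (inferInstance : IsGalois ℚ_[p] Kq)
  haveI : FiniteDimensional E₀ K := FiniteDimensional.right ℚ_[p] E₀ K
  haveI : IsGalois E₀ K := IsGalois.tower_top_of_isGalois ℚ_[p] E₀ K
  -- the index is finite
  haveI : Finite ((Ω ≃ₐ[ℚ_[p]] Ω) ⧸ N) := by
    apply Nat.finite_of_card_ne_zero
    intro h0
    exact hidx (h0 ▸ dvd_zero _)
  have hdeg : ¬ p ^ 2 ∣ Module.finrank E₀ K := by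
    rw [← IsGalois.card_aut_eq_finrank E₀ K]
    intro hd
    exact hidx (hd.trans (card_dvd_index N K hKres hN))
  have hPeuK : IsPeuRamifie p (K.restrictScalars ℚ_[p]) := by
    rw [hKres]
    exact isPeuRamifie_mono (sup_le_sup_right hL'L E₀) (hPeu E₀ hunr)
  have hζK : ζ ∈ K := by
    have h1 : ζ ∈ L' := by
      rw [hL', IntermediateField.mem_fixedField_iff]
      exact hζN
    exact (le_sup_left : L' ≤ Kq) h1
  exact PeuApproxLocal.dvd_of_pow_approx hunr K hdeg hPeuK hζ hζK (show γ ∈ K from hk) hγ0 a h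

end Fermat.Agent.S40.P.PeuApproxInertia
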