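/-
Row 63 T6′ (R5′), group-theoretic input: **a `p`-group acting faithfully and additively on a group
of exponent `p` and order dividing `p²` has order dividing `p`** (`p² ∤ #GL₂(𝔽_p)`).

Application: the image of wild inertia in `GL(E[p])` has order `1` or `p`, so the field cut out by
`E[p]` (times an unramified field and `ζ_p`) is an extension of degree dividing `p` of a tamely
ramified field — no theory of `E` needed.

Mathlib only.
-/
import Mathlib

set_option autoImplicit false
set_option linter.style.haveILetI false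

namespace Fermat.Agent.S40.P.PGroupGL2

open Module

variable {p : ℕ} [hp : Fact p.Prime]

/-! ### The order of `GL(V)` -/

/-- The order of `GL(V)` for a finite `𝔽_p`-vector space `V`. -/
theorem card_linearEquiv {V : Type*} [AddCommGroup V] [Module (ZMod p) V] [Finite V] :
    Nat.card (V ≃ₗ[ZMod p] V) =
      ∏ i : Fin (finrank (ZMod p) V), (p ^ finrank (ZMod p) V - p ^ (i : ℕ)) := by
  haveI : Module.Finite (ZMod p) V := Module.Finite.of_finite
  let b : Basis (Fin (finrank (ZMod p) V)) (ZMod p) V := finBasis (ZMod p) V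
  have e : GL (Fin (finrank (ZMod p) V)) (ZMod p) ≃* (V ≃ₗ[ZMod p] V) :=
    (Matrix.GeneralLinearGroup.toLin' b).trans
      (LinearMap.GeneralLinearGroup.generalLinearEquiv (ZMod p) V)
  rw [← Nat.card_congr e.toEquiv, Matrix.card_GL_field, ZMod.card]

theorem coprime_aux : Nat.Coprime p ((p ^ 2 - 1) * (p - 1)) := by
  have hp2 : 2 ≤ p := hp.out.two_le
  rw [Nat.Prime.coprime_iff_not_dvd hp.out, Nat.Prime.dvd_mul hp.out]
  rintro (h | h)
  · have h1 : 1 ≤ p ^ 2 := Nat.one_le_pow _ _ (by omega)
    have h2 : p ∣ p ^ 2 - (p ^ 2 - 1) := Nat.dvd_sub (dvd_pow_self p two_ne_zero) h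
    have h3 : p ^ 2 - (p ^ 2 - 1) = 1 := by omega
    rw [h3, Nat.dvd_one] at h2
    omega
  · have := Nat.le_of_dvd (by omega) h
    omega

/-- **A `p`-subgroup of `GL(V)`, `dim V ≤ 2`, has order dividing `p`.** -/
theorem card_dvd_of_isPGroup {V : Type*} [AddCommGroup V] [Module (ZMod p) V] [Finite V]
    (hV : finrank (ZMod p) V ≤ 2) (H : Subgroup (V ≃ₗ[ZMod p] V)) (hH : IsPGroup p H) :
    Nat.card H ∣ p := by
  haveI : Module.Finite (ZMod p) V := Module.Finite.of_finite
  haveI : Finite (V ≃ₗ[ZMod p] V) :=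
    Finite.of_injective (fun f : V ≃ₗ[ZMod p] V => (f : V → V)) DFunLike.coe_injective
  have hp2 : 2 ≤ p := hp.out.two_le
  obtain ⟨k, hk⟩ := hH.exists_card_eq
  have hdvd : Nat.card H ∣ Nat.card (V ≃ₗ[ZMod p] V) := Subgroup.card_subgroup_dvd_card H
  rw [hk]
  rw [hk, card_linearEquiv] at hdvd
  suffices hk1 : k ≤ 1 by
    calc p ^ k ∣ p ^ 1 := pow_dvd_pow p hk1
      _ = p := pow_one p
  by_contra hk2
  have h2k : p ^ 2 ∣ p ^ k := pow_dvd_pow p (by omega)
  have hd := h2k.trans hdvd
  have hcop := coprime_aux (p := p)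
  generalize finrank (ZMod p) V = n at hV hd
  interval_cases n
  · simp only [Finset.univ_eq_empty, Finset.prod_empty, Nat.dvd_one] at hd
    have : 2 ^ 2 ≤ p ^ 2 := Nat.pow_le_pow_left hp2 2
    omega
  · simp only [Finset.univ_unique, Fin.default_eq_zero, Fin.val_zero, pow_one, pow_zero,
      Finset.prod_singleton] at hd
    have h1 : p ∣ p - 1 := (dvd_pow_self p two_ne_zero).trans hd
    have := Nat.le_of_dvd (by omega) h1
    omega
  · rw [Fin.prod_univ_two] at hd
    simp only [Fin.val_zero, pow_zero, Fin.val_one, pow_one] at hd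
    have h3 : (p ^ 2 - 1) * (p ^ 2 - p) = p * ((p ^ 2 - 1) * (p - 1)) := by
      have : p ^ 2 - p = p * (p - 1) := by
        rw [Nat.mul_sub, mul_one, sq]
      rw [this]; ring
    have hd' : p * p ∣ p * ((p ^ 2 - 1) * (p - 1)) := by
      rw [← sq, ← h3]; exact hd
    have hp0 : 0 < p := by omega
    have h4 : p ∣ (p ^ 2 - 1) * (p - 1) := (Nat.mul_dvd_mul_iff_left hp0).1 hd'
    exact (Nat.Prime.coprime_iff_not_dvd hp.out).1 hcop h4

/-! ### Raw actions (`IsGalAction` shape) -/

/-- A group of order dividing `p` is generated by each of its non-trivial elements, which have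
order `p`. -/
theorem exists_pow_eq_of_card_dvd {P : Type*} [Group P] (h : Nat.card P ∣ p) {g : P} (hg : g ≠ 1)
    (x : P) : ∃ k : ℕ, k < p ∧ x = g ^ k := by
  haveI : Finite P := Nat.finite_of_card_ne_zero (fun h0 => by
    rw [h0, zero_dvd_iff] at h; exact hp.out.ne_zero h)
  have hcard : Nat.card P = p := by
    rcases (Nat.dvd_prime hp.out).1 h with h1 | h1
    · exfalso
      haveI : Subsingleton P := (Nat.card_eq_one_iff_unique.1 h1).1
      exact hg (Subsingleton.elim _ _)
    · exact h1
  have hord : orderOf g = p := by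
    have h1 : orderOf g ∣ p := hcard ▸ orderOf_dvd_natCard g
    rcases (Nat.dvd_prime hp.out).1 h1 with h2 | h2
    · exact absurd (orderOf_eq_one_iff.1 h2) hg
    · exact h2
  have hx : x ∈ Subgroup.zpowers g := by
    have h1 : Nat.card (Subgroup.zpowers g) = Nat.card P := by
      rw [Nat.card_zpowers, hord, hcard]
    have h2 : Subgroup.zpowers g = ⊤ := Subgroup.eq_top_of_card_eq _ h1
    rw [h2]; exact Subgroup.mem_top x
  classical
  obtain ⟨k, hk⟩ := (mem_zpowers_iff_mem_range_orderOf.1 hx |> Finset.mem_image.1)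
  exact ⟨k, by simpa [hord] using hk.1, hk.2.symm⟩

/-- The linear representation attached to a raw additive action on an `𝔽_p`-vector space. -/
noncomputable def actHom {G : Type*} [Group G] {M : Type*} [AddCommGroup M] [Module (ZMod p) M]
    (act : G → M → M) (hone : ∀ y, act 1 y = y)
    (hmul : ∀ σ τ y, act (σ * τ) y = act σ (act τ y))
    (hadd : ∀ σ y y', act σ (y + y') = act σ y + act σ y') : G →* (M ≃ₗ[ZMod p] M) where
  toFun σ :=
    { toFun := act σ
      invFun := act σ⁻¹
      left_inv := fun y => by rw [← hmul, inv_mul_cancel, hone]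
      right_inv := fun y => by rw [← hmul, mul_inv_cancel, hone]
      map_add' := hadd σ
      map_smul' := fun c m =>
        ZMod.map_smul
          ({ toFun := act σ
             map_zero' := by
               have h := hadd σ 0 0
               rw [add_zero] at h
               exact left_eq_add.1 h
             map_add' := hadd σ } : M →+ M) c m }
  map_one' := LinearEquiv.ext fun y => hone y
  map_mul' σ τ := LinearEquiv.ext fun y => by
    rw [LinearEquiv.mul_apply]; exact hmul σ τ y

theorem actHom_apply {G : Type*} [Group G] {M : Type*} [AddCommGroup M] [Module (ZMod p) M]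
    (act : G → M → M) (hone : ∀ y, act 1 y = y)
    (hmul : ∀ σ τ y, act (σ * τ) y = act σ (act τ y))
    (hadd : ∀ σ y y', act σ (y + y') = act σ y + act σ y') (σ : G) (y : M) :
    actHom (p := p) act hone hmul hadd σ y = act σ y := rfl

theorem finrank_le_two_of_card_dvd {M : Type*} [AddCommGroup M] [Module (ZMod p) M] [Finite M]
    (hcard : Nat.card M ∣ p ^ 2) : finrank (ZMod p) M ≤ 2 := by
  haveI : Module.Finite (ZMod p) M := Module.Finite.of_finite
  have h1 : Nat.card M = Nat.card (ZMod p) ^ finrank (ZMod p) M :=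
    Module.natCard_eq_pow_finrank
  rw [h1, Nat.card_zmod] at hcard
  exact (Nat.pow_dvd_pow_iff_le_right hp.out.one_lt).1 hcard

/-- Action form, with a given `𝔽_p`-structure. -/
theorem card_dvd_of_isPGroup_act_aux {G : Type*} [Group G] {M : Type*} [AddCommGroup M]
    [Module (ZMod p) M] [Finite M]
    (act : G → M → M) (hone : ∀ y, act 1 y = y)
    (hmul : ∀ σ τ y, act (σ * τ) y = act σ (act τ y))
    (hadd : ∀ σ y y', act σ (y + y') = act σ y + act σ y')
    (hcard : Nat.card M ∣ p ^ 2)
    (P : Subgroup G) (hP : IsPGroup p P)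
    (hfaith : ∀ σ ∈ P, (∀ y, act σ y = y) → σ = 1) : Nat.card P ∣ p := by
  have hV := finrank_le_two_of_card_dvd hcard
  set f := actHom (p := p) act hone hmul hadd with hf
  have h2 := card_dvd_of_isPGroup hV (P.map f) (hP.map f)
  have hinj : Function.Injective (f.comp P.subtype) := by
    rw [injective_iff_map_eq_one]
    intro σ hσ
    have h3 : (σ : G) = 1 := hfaith σ σ.2 (fun y => by
      have := congrArg (fun e : M ≃ₗ[ZMod p] M => e y) hσ
      simpa [hf, actHom_apply] using this)
    exact Subtype.ext h3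
  have hrange : P.map f = (f.comp P.subtype).range := by
    rw [MonoidHom.range_comp, Subgroup.range_subtype]
  rw [hrange] at h2
  have h4 : Nat.card (f.comp P.subtype).range = Nat.card P :=
    Nat.card_congr (MonoidHom.ofInjective hinj).toEquiv.symm
  rwa [h4] at h2

/-- **Action form.**  `act : G → M → M` an action of a group `G` by additive maps on a finite group
`M` of exponent `p` and order dividing `p²`; `P ≤ G` a `p`-subgroup acting faithfully.  Then
`#P ∣ p`. -/
theorem card_dvd_of_isPGroup_act {G : Type*} [Group G] {M : Type*} [AddCommGroup M] [Finite M]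
    (act : G → M → M) (hone : ∀ y, act 1 y = y)
    (hmul : ∀ σ τ y, act (σ * τ) y = act σ (act τ y))
    (hadd : ∀ σ y y', act σ (y + y') = act σ y + act σ y')
    (hpM : ∀ m : M, p • m = 0) (hcard : Nat.card M ∣ p ^ 2)
    (P : Subgroup G) (hP : IsPGroup p P)
    (hfaith : ∀ σ ∈ P, (∀ y, act σ y = y) → σ = 1) : Nat.card P ∣ p :=
  @card_dvd_of_isPGroup_act_aux p hp G _ M _ (AddCommGroup.zmodModule hpM) _ act hone hmul hadd
    hcard P hP hfaith


/-- Cyclic form, with a given `𝔽_p`-structure, no faithfulness. -/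
theorem exists_generator_act_aux {G : Type*} [Group G] {M : Type*} [AddCommGroup M]
    [Module (ZMod p) M] [Finite M]
    (act : G → M → M) (hone : ∀ y, act 1 y = y)
    (hmul : ∀ σ τ y, act (σ * τ) y = act σ (act τ y))
    (hadd : ∀ σ y y', act σ (y + y') = act σ y + act σ y')
    (hcard : Nat.card M ∣ p ^ 2)
    (P : Subgroup G) (hP : IsPGroup p P) :
    ∃ σ₀ ∈ P, ∀ τ ∈ P, ∃ k : ℕ, k < p ∧ ∀ y, act τ y = act (σ₀ ^ k) y := by
  have hV := finrank_le_two_of_card_dvd hcard
  set f := actHom (p := p) act hone hmul hadd with hf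
  have h2 := card_dvd_of_isPGroup hV (P.map f) (hP.map f)
  by_cases htriv : ∀ τ ∈ P, f τ = 1
  · refine ⟨1, P.one_mem, fun τ hτ => ⟨0, hp.out.pos, fun y => ?_⟩⟩
    have := congrArg (fun e : M ≃ₗ[ZMod p] M => e y) (htriv τ hτ)
    simpa [hf, actHom_apply, hone] using this
  · push Not at htriv
    obtain ⟨σ₀, hσ₀, hne⟩ := htriv
    refine ⟨σ₀, hσ₀, fun τ hτ => ?_⟩
    have hg : (⟨f σ₀, Subgroup.mem_map_of_mem f hσ₀⟩ : P.map f) ≠ 1 := by
      intro h
      exact hne (congrArg Subtype.val h)
    obtain ⟨k, hk, hτk⟩ := exists_pow_eq_of_card_dvd h2 hg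
      (⟨f τ, Subgroup.mem_map_of_mem f hτ⟩ : P.map f)
    refine ⟨k, hk, fun y => ?_⟩
    have h3 : f τ = f σ₀ ^ k := by
      have := congrArg Subtype.val hτk
      simpa using this
    rw [← map_pow] at h3
    exact congrArg (fun e : M ≃ₗ[ZMod p] M => e y) h3

/-- **Cyclic form.**  The image of a `p`-subgroup `P ≤ G` in the automorphisms of `M` (exponent
`p`, order dividing `p²`) is cyclic of order dividing `p`: there is `σ₀ ∈ P` such that every
`τ ∈ P` acts on `M` as a power `σ₀ ^ k`, `k < p`. -/
theorem exists_generator_act {G : Type*} [Group G] {M : Type*} [AddCommGroup M] [Finite M]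
    (act : G → M → M) (hone : ∀ y, act 1 y = y)
    (hmul : ∀ σ τ y, act (σ * τ) y = act σ (act τ y))
    (hadd : ∀ σ y y', act σ (y + y') = act σ y + act σ y')
    (hpM : ∀ m : M, p • m = 0) (hcard : Nat.card M ∣ p ^ 2)
    (P : Subgroup G) (hP : IsPGroup p P) :
    ∃ σ₀ ∈ P, ∀ τ ∈ P, ∃ k : ℕ, k < p ∧ ∀ y, act τ y = act (σ₀ ^ k) y :=
  @exists_generator_act_aux p hp G _ M _ (AddCommGroup.zmodModule hpM) _ act hone hmul hadd
    hcard P hP

end Fermat.Agent.S40.P.PGroupGL2
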