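/-
Row 67 (R5′), group theory: **`p² ∤ #G` for a finite group `G` acting faithfully and additively on
a group `M` of exponent `p` and order dividing `p²`** (Sylow + `PGroupGL2.card_dvd_of_isPGroup_act`).
This is the `hdeg` of helper17's `dvd_of_pow_approx` (`G = Gal(K/E₀) ↪ GL(V)`).

Mathlib + `PGroupGL2` only.
-/
import Mathlib
import Fermat.Agent.S40.P.PGroupGL2

set_option autoImplicit false
set_option linter.style.haveILetI false

namespace Fermat.Agent.S40.P.PGroupGL2Card

open Fermat.Agent.S40.P.PGroupGL2

variable {p : ℕ} [hp : Fact p.Prime]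

/-- **`p² ∤ #G`** for a finite group acting faithfully by additive maps on `M`, `p • M = 0`,
`#M ∣ p²`. -/
theorem not_sq_dvd_card_of_act {G : Type*} [Group G] [Finite G] {M : Type*} [AddCommGroup M]
    [Finite M] (act : G → M → M) (hone : ∀ y, act 1 y = y)
    (hmul : ∀ σ τ y, act (σ * τ) y = act σ (act τ y))
    (hadd : ∀ σ y y', act σ (y + y') = act σ y + act σ y')
    (hpM : ∀ m : M, p • m = 0) (hcard : Nat.card M ∣ p ^ 2)
    (hfaith : ∀ σ : G, (∀ y, act σ y = y) → σ = 1) : ¬ p ^ 2 ∣ Nat.card G := by
  intro hdvd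
  obtain ⟨P, hP⟩ := Sylow.exists_subgroup_card_pow_prime p hdvd
  have hPp : IsPGroup p P := IsPGroup.of_card hP
  have h1 := card_dvd_of_isPGroup_act act hone hmul hadd hpM hcard P hPp
    (fun σ _ h => hfaith σ h)
  rw [hP] at h1
  have h2 : p ^ 2 ≤ p := Nat.le_of_dvd hp.out.pos h1
  have h3 : 2 ≤ p := hp.out.two_le
  nlinarith

/-- Variant for a group acting through a homomorphism with a kernel: `p² ∤ [G : ker]`, stated as
`p² ∤ #(G ⧸ N)` for a normal subgroup `N` containing exactly the elements acting trivially. -/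
theorem not_sq_dvd_index_of_act {G : Type*} [Group G] {M : Type*} [AddCommGroup M]
    [Finite M] (act : G → M → M) (hone : ∀ y, act 1 y = y)
    (hmul : ∀ σ τ y, act (σ * τ) y = act σ (act τ y))
    (hadd : ∀ σ y y', act σ (y + y') = act σ y + act σ y')
    (hpM : ∀ m : M, p • m = 0) (hcard : Nat.card M ∣ p ^ 2)
    (N : Subgroup G) [N.Normal] [Finite (G ⧸ N)]
    (hN : ∀ σ : G, σ ∈ N ↔ ∀ y, act σ y = y) : ¬ p ^ 2 ∣ Nat.card (G ⧸ N) := by
  -- the induced action of `G ⧸ N`
  have hwd : ∀ a b : G, QuotientGroup.leftRel N a b → act a = act b := by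
    intro a b hab
    rw [QuotientGroup.leftRel_apply] at hab
    have h1 := (hN _).1 hab
    funext y
    have h2 := h1 y
    rw [hmul] at h2
    have h3 := congrArg (act a) h2
    rw [← hmul, mul_inv_cancel, hone] at h3
    exact h3.symm
  let act' : G ⧸ N → M → M := fun q => Quotient.liftOn' q act hwd
  have hact' : ∀ g : G, act' (QuotientGroup.mk g) = act g := fun g => rfl
  refine not_sq_dvd_card_of_act act' ?_ ?_ ?_ hpM hcard ?_
  · intro y
    have : (1 : G ⧸ N) = QuotientGroup.mk (1 : G) := rfl
    rw [this, hact', hone]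
  · intro a b y
    induction a using QuotientGroup.induction_on with
    | H a =>
      induction b using QuotientGroup.induction_on with
      | H b =>
        rw [← QuotientGroup.mk_mul, hact', hact', hact', hmul]
  · intro a y y'
    induction a using QuotientGroup.induction_on with
    | H a => rw [hact', hadd]
  · intro a ha
    induction a using QuotientGroup.induction_on with
    | H a =>
      rw [hact'] at ha
      exact (QuotientGroup.eq_one_iff a).2 ((hN a).2 ha)

end Fermat.Agent.S40.P.PGroupGL2Card
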