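/-
Row 67 (R5′), GLOBAL PACK (helper29): **`p ∣ a` for a Kummer generator `γ` of the field cut out by
a copy `V` of `W[p]`, `W` an integral model of the Frey curve, `p = P.p ∣ abc`.**

This file is the pure `CopyOfE` / `padicEmbedding` dictionary.  The local statement
(helper17, `S40/P/PeuApproxInertia.dvd_of_inertia_fixed`) enters as ONE named hypothesis
`InertiaFixed p`; the arithmetic input is `EM/Frey.exists_peu_copyOfE` (E-MULT) and the group
theory is `PGroupGL2Card.not_sq_dvd_index_of_act` (`p² ∤ [Γ_p : N]`, `N` the kernel of the action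
of the local Galois group on `V`).

* `InertiaFixed p` : the local statement, verbatim;
* `dvd_of_copyOfE_of_peu` : any `p`, any `W`, the "peu ramifié" field `L` as a hypothesis;
* ★ `dvd_of_copyOfE_mult` : the Frey form, approximation `≤ ‖ζ − 1‖`;
* ★ `dvd_of_copyOfE_mult_p` : the same with the approximation `≤ ‖p‖` (the shape of the node
  identity (R4)).
-/
import Mathlib
import Fermat.Agent.S40.EM.Frey
import Fermat.Agent.S40.P.PGroupGL2Card
import Fermat.Agent.S40.P.PeuVal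

set_option autoImplicit false
set_option linter.style.haveILetI false
set_option linter.unusedSectionVars false
set_option linter.unusedVariables false

noncomputable section

namespace Fermat.Agent.S40.P.PeuApproxPack

open WeierstrassCurve WeierstrassCurve.Affine
open Fermat.Agent.S56.Flat Fermat.Agent.S56.Flat.KummerBound
  Fermat.Agent.S56.Flat.Etale.Connected Fermat.Agent.S56.PT.UnramInstNorm
  Fermat.Agent.S55.Local.Unram
open Fermat.Agent.N4F.Res Fermat.Agent.S40.Top.CopyOfE Fermat.Agent.S40.Top.Eigen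
open Fermat.Agent.S58.Form.Hres (Tp)

local notation "Qbar" => AlgebraicClosure ℚ
local notation "Γ" => (AlgebraicClosure ℚ ≃ₐ[ℚ] AlgebraicClosure ℚ)

/-- **The local statement** (helper17, `PeuApproxInertia.dvd_of_inertia_fixed`): `N` a normal
subgroup of the local Galois group containing the automorphisms fixing a finite Galois `L / ℚ_p`
all of whose unramified enlargements are peu ramifiées, `p² ∤ [Γ_p : N]`, `ζ_p` fixed by `N`, `γ`
fixed by the inertial elements of `N`, and `γ ^ p ≡ p ^ a` to precision `‖ζ_p − 1‖`.  Then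
`p ∣ a`. -/
def InertiaFixed (p : ℕ) [Fact p.Prime] : Prop :=
  ∀ (N : Subgroup (PadicAlgCl p ≃ₐ[ℚ_[p]] PadicAlgCl p)) [N.Normal]
    {L : IntermediateField ℚ_[p] (PadicAlgCl p)} [FiniteDimensional ℚ_[p] L] [IsGalois ℚ_[p] L],
    (∀ τ : PadicAlgCl p ≃ₐ[ℚ_[p]] PadicAlgCl p, (∀ y ∈ L, τ y = y) → τ ∈ N) →
    (∀ E₀ : IntermediateField ℚ_[p] (PadicAlgCl p), IsUnramifiedIn ℤ_[p] E₀ →
      IsPeuRamifie p (L ⊔ E₀)) →
    ¬ p ^ 2 ∣ Nat.card ((PadicAlgCl p ≃ₐ[ℚ_[p]] PadicAlgCl p) ⧸ N) →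
    ∀ {ζ : PadicAlgCl p}, IsPrimitiveRoot ζ p → (∀ τ ∈ N, τ ζ = ζ) →
    ∀ {γ : PadicAlgCl p}, γ ≠ 0 → (∀ τ ∈ N, IsInertial τ → τ γ = γ) →
    ∀ a : ℤ, ‖γ ^ p / (p : PadicAlgCl p) ^ a - 1‖ ≤ ‖ζ - 1‖ → (p : ℤ) ∣ a

section General

variable {p : ℕ} [hp : Fact p.Prime] {W : WeierstrassCurve ℤ} {N : ℕ} [NeZero N]
  {V : Submodule (ZMod p) (Jtors N p)}

local notation "Ω" => PadicAlgCl p

/-- The action of the local Galois group on a Galois-stable submodule of `J₀(N)[p]`. -/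
def locRep (V : Submodule (ZMod p) (Jtors N p)) (hst : IsGalStable V) :
    (Ω ≃ₐ[ℚ_[p]] Ω) →* (Module.End (ZMod p) (SubT V))ˣ :=
  ((galSub V hst).comp (localGaloisToGlobal p)).toHomUnits

theorem locRep_apply (hst : IsGalStable V) (τ : Ω ≃ₐ[ℚ_[p]] Ω) (x : SubT V) :
    ((locRep V hst τ : (Module.End (ZMod p) (SubT V))ˣ) : Module.End (ZMod p) (SubT V)) x =
      galSub V hst (localGaloisToGlobal p τ) x := rfl

theorem mem_ker_locRep_iff (hst : IsGalStable V) (τ : Ω ≃ₐ[ℚ_[p]] Ω) :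
    τ ∈ (locRep V hst).ker ↔
      ∀ x : Jtors N p, x ∈ V → galTors N p (localGaloisToGlobal p τ) x = x := by
  rw [MonoidHom.mem_ker, Units.ext_iff]
  constructor
  · intro h x hx
    have h1 := congrArg (fun f : Module.End (ZMod p) (SubT V) => (f (SubT.mk x hx)).val) h
    exact h1
  · intro h
    apply LinearMap.ext
    intro x
    apply SubT.ext
    exact h x.val x.val_mem

/-- A local inertial automorphism restricts to the inertia group at `padicPlace p`. -/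
theorem localGaloisToGlobal_mem_inertia {τ : Ω ≃ₐ[ℚ_[p]] Ω} (hτ : IsInertial τ) :
    localGaloisToGlobal p τ ∈ (padicPlace p).inertiaSubgroupIn ℚ := by
  have h3 : τ ∈ ((padicPlace p).inertiaSubgroupIn ℚ).comap (localGaloisToGlobal p) := by
    rw [comap_inertiaSubgroupIn_eq]
    exact hτ
  exact h3

theorem finite_subT (V : Submodule (ZMod p) (Jtors N p)) : Finite (SubT V) := by
  haveI : Finite (Jtors N p) := (inputs N).torsionFinite p hp.out.pos
  exact Finite.of_injective (SubT.incl V) (SubT.incl_injective V)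

theorem finite_end_subT (V : Submodule (ZMod p) (Jtors N p)) :
    Finite (Module.End (ZMod p) (SubT V)) := by
  haveI := finite_subT V
  exact Finite.of_injective (fun f : Module.End (ZMod p) (SubT V) => (f : SubT V → SubT V))
    DFunLike.coe_injective

theorem finite_quotient_ker (hst : IsGalStable V) :
    Finite ((Ω ≃ₐ[ℚ_[p]] Ω) ⧸ (locRep V hst).ker) := by
  haveI := finite_end_subT V
  haveI : Finite (Module.End (ZMod p) (SubT V))ˣ := Finite.of_injective _ Units.val_injective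
  exact Finite.of_equiv _ (QuotientGroup.quotientKerEquivRange (locRep V hst)).symm.toEquiv

theorem card_subT (hΔ : W.Δ ≠ 0) (hp2 : p ≠ 2) (hC : CopyOfE W p V) :
    Nat.card (SubT V) = p ^ 2 := by
  have h4 : Module.finrank (ZMod p) (SubT V) = 2 := hC.finrank_eq hΔ hp2
  haveI := finite_subT V
  haveI : Module.Finite (ZMod p) (SubT V) := Module.Finite.of_finite
  rw [Module.natCard_eq_pow_finrank (K := ZMod p), h4, Nat.card_zmod]

theorem nsmul_subT (m : SubT V) : p • m = 0 := by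
  rw [← Nat.cast_smul_eq_nsmul (ZMod p), ZMod.natCast_self, zero_smul]

/-- `p² ∤ [Γ_p : N]`, `N` the kernel of the action on a copy of `W[p]`. -/
theorem not_sq_dvd_index_ker (hΔ : W.Δ ≠ 0) (hp2 : p ≠ 2) (hC : CopyOfE W p V)
    (hst : IsGalStable V) :
    ¬ p ^ 2 ∣ Nat.card ((Ω ≃ₐ[ℚ_[p]] Ω) ⧸ (locRep V hst).ker) := by
  haveI := finite_subT V
  haveI := finite_quotient_ker hst
  refine Fermat.Agent.S40.P.PGroupGL2Card.not_sq_dvd_index_of_act
    (fun (τ : Ω ≃ₐ[ℚ_[p]] Ω) (m : SubT V) =>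
      ((locRep V hst τ : (Module.End (ZMod p) (SubT V))ˣ) : Module.End (ZMod p) (SubT V)) m)
    (fun y => ?_) (fun σ τ y => ?_) (fun σ y y' => map_add _ _ _)
    nsmul_subT (card_subT hΔ hp2 hC).dvd (locRep V hst).ker (fun σ => ?_)
  · show ((locRep V hst 1 : (Module.End (ZMod p) (SubT V))ˣ) :
      Module.End (ZMod p) (SubT V)) y = y
    rw [map_one]
    rfl
  · show ((locRep V hst (σ * τ) : (Module.End (ZMod p) (SubT V))ˣ) :
      Module.End (ZMod p) (SubT V)) y = _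
    rw [map_mul]
    rfl
  · rw [MonoidHom.mem_ker, Units.ext_iff]
    exact ⟨fun h y => by rw [h]; rfl, fun h => LinearMap.ext h⟩

/-- **The pack, general form**: `V` a copy of `W[p]` (`p` odd, `Δ(W) ≠ 0`), `L` a finite Galois
extension of `ℚ_p` all of whose unramified enlargements are peu ramifiées and whose fixing
automorphisms act trivially on `V`. -/
theorem dvd_of_copyOfE_of_peu (hIF : InertiaFixed p) (hΔ : W.Δ ≠ 0) (hp2 : p ≠ 2)
    (hC : CopyOfE W p V)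
    (hpeu : ∃ L : IntermediateField ℚ_[p] Ω, FiniteDimensional ℚ_[p] L ∧ IsGalois ℚ_[p] L ∧
      (∀ E₀ : IntermediateField ℚ_[p] Ω, IsUnramifiedIn ℤ_[p] E₀ → IsPeuRamifie p (L ⊔ E₀)) ∧
      ∀ τ : Ω ≃ₐ[ℚ_[p]] Ω, (∀ y ∈ L, τ y = y) →
        ∀ x : Jtors N p, x ∈ V → galTors N p (localGaloisToGlobal p τ) x = x)
    {ζ : Qbar} (hζ : IsPrimitiveRoot ζ p) {γ : Qbar} (hγ : γ ≠ 0) (a : ℤ)
    (h2 : ∀ σ ∈ (padicPlace p).inertiaSubgroupIn ℚ,
      (∀ x : Jtors N p, x ∈ V → galTors N p σ x = x) → σ γ = γ)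
    (h1 : ‖padicEmbedding p (γ ^ p / (p : Qbar) ^ a) - 1‖ ≤ ‖padicEmbedding p ζ - 1‖) :
    (p : ℤ) ∣ a := by
  obtain ⟨L, hLfin, hLgal, hLpeu, hLfix⟩ := hpeu
  haveI := hLfin
  haveI := hLgal
  have hst := hC.isGalStable
  have hinj : Function.Injective (padicEmbedding p) := (padicEmbedding p).toRingHom.injective
  have hker : ∀ τ : Ω ≃ₐ[ℚ_[p]] Ω, τ ∈ (locRep V hst).ker ↔
      ∀ x : Jtors N p, x ∈ V → galTors N p (localGaloisToGlobal p τ) x = x :=
    mem_ker_locRep_iff hst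
  have hidx := not_sq_dvd_index_ker hΔ hp2 hC hst
  -- the dictionary
  refine hIF (locRep V hst).ker (L := L) (fun τ hτ => (hker τ).2 (hLfix τ hτ)) hLpeu hidx
    (ζ := padicEmbedding p ζ) (hζ.map_of_injective hinj) ?_
    (γ := padicEmbedding p γ) ((map_ne_zero_iff _ hinj).2 hγ) ?_ a ?_
  · intro τ hτ
    rw [← padicEmbedding_localGaloisToGlobal]
    exact congrArg _ (fixes_zeta_of_fixes hΔ hp2 _
      (hC.fixes_of_fixes' _ ((hker τ).1 hτ)) hζ)
  · intro τ hτ hτI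
    rw [← padicEmbedding_localGaloisToGlobal]
    exact congrArg _ (h2 _ (localGaloisToGlobal_mem_inertia hτI) ((hker τ).1 hτ))
  · have h3 : padicEmbedding p (γ ^ p / (p : Qbar) ^ a) =
        padicEmbedding p γ ^ p / (p : Ω) ^ a := by
      rw [map_div₀, map_pow, map_zpow₀, map_natCast]
    rw [← h3]
    exact h1

/-- `‖p‖ ≤ ‖ζ_p − 1‖` in `ℚ̄_p`. -/
theorem norm_natCast_le_norm_sub_one {ζ : Ω} (hζ : IsPrimitiveRoot ζ p) :
    ‖(p : Ω)‖ ≤ ‖ζ - 1‖ := by
  have h1 := Fermat.Agent.S40.P.PeuVal.norm_sub_one_pow hζ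
  have h2 := Fermat.Agent.S40.P.PeuVal.norm_sub_one_lt_one hζ
  have h3 : ‖(p : Ω)‖ = ‖ζ - 1‖ ^ (p - 1) := by
    rw [h1]
    exact Fermat.Agent.S55.LocalInt.norm_natCast_self p
  have h4 : 1 ≤ p - 1 := by
    have := hp.out.two_le
    omega
  rw [h3]
  calc ‖ζ - 1‖ ^ (p - 1) ≤ ‖ζ - 1‖ ^ 1 :=
        pow_le_pow_of_le_one (norm_nonneg _) h2.le h4
    _ = ‖ζ - 1‖ := pow_one _

end General

/-! ### The Frey form -/

variable (P : FreyPackage)

/-- ★ **(R5′), GLOBAL PACK, multiplicative case.**  `p = P.p ∣ abc`, `W` an integral model of the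
Frey curve, `V` a copy of `W[p]` in `J₀(N)[p]`, `γ ∈ ℚ̄ˣ` fixed by the inertial automorphisms at
`padicPlace p` acting trivially on `V`, with `γ ^ p ≡ p ^ a` to precision `‖ζ_p − 1‖`.  Then
`p ∣ a`. -/
theorem dvd_of_copyOfE_mult (habc : (P.p : ℤ) ∣ P.a * P.b * P.c)
    {W : WeierstrassCurve ℤ} (hW : W.IsIntegralModelOf P.freyCurve)
    (hΔ : W.Δ ≠ 0) {N : ℕ} [NeZero N] :
    haveI : Fact P.p.Prime := ⟨P.pp⟩
    InertiaFixed P.p →
    ∀ (V : Submodule (ZMod P.p) (Jtors N P.p)), CopyOfE W P.p V →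
    ∀ {ζ : Qbar}, IsPrimitiveRoot ζ P.p → ∀ {γ : Qbar}, γ ≠ 0 → ∀ a : ℤ,
      (∀ σ ∈ (padicPlace P.p).inertiaSubgroupIn ℚ,
        (∀ x : Jtors N P.p, x ∈ V → galTors N P.p σ x = x) → σ γ = γ) →
      ‖padicEmbedding P.p (γ ^ P.p / (P.p : Qbar) ^ a) - 1‖ ≤ ‖padicEmbedding P.p ζ - 1‖ →
      (P.p : ℤ) ∣ a := by
  haveI : Fact P.p.Prime := ⟨P.pp⟩
  intro hIF V hC ζ hζ γ hγ a h2 h1
  have hp2 : P.p ≠ 2 := by
    have := P.hp5
    omega
  obtain ⟨L, e1, e2, -, e4, e5⟩ :=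
    Fermat.Agent.S40.EM.Frey.exists_peu_copyOfE P habc hW (N := N) V hC
  exact dvd_of_copyOfE_of_peu hIF hΔ hp2 hC ⟨L, e1, e2, e4, e5⟩ hζ hγ a h2 h1

/-- ★ **(R5′), GLOBAL PACK, precision `‖p‖`** (the shape of the output of the node identity (R4)):
no root of unity in the statement. -/
theorem dvd_of_copyOfE_mult_p (habc : (P.p : ℤ) ∣ P.a * P.b * P.c)
    {W : WeierstrassCurve ℤ} (hW : W.IsIntegralModelOf P.freyCurve)
    (hΔ : W.Δ ≠ 0) {N : ℕ} [NeZero N] :
    haveI : Fact P.p.Prime := ⟨P.pp⟩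
    InertiaFixed P.p →
    ∀ (V : Submodule (ZMod P.p) (Jtors N P.p)), CopyOfE W P.p V →
    ∀ {γ : Qbar}, γ ≠ 0 → ∀ a : ℤ,
      (∀ σ ∈ (padicPlace P.p).inertiaSubgroupIn ℚ,
        (∀ x : Jtors N P.p, x ∈ V → galTors N P.p σ x = x) → σ γ = γ) →
      ‖padicEmbedding P.p (γ ^ P.p / (P.p : Qbar) ^ a) - 1‖ ≤ ‖(P.p : PadicAlgCl P.p)‖ →
      (P.p : ℤ) ∣ a := by
  haveI : Fact P.p.Prime := ⟨P.pp⟩
  intro hIF V hC γ hγ a h2 h1
  obtain ⟨ζ, hζ⟩ := Fermat.Agent.N4F.Res.exists_isPrimitiveRoot_Qbar P.p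
  have hinj : Function.Injective (padicEmbedding P.p) :=
    (padicEmbedding P.p).toRingHom.injective
  exact dvd_of_copyOfE_mult P habc hW hΔ hIF V hC hζ hγ a h2
    (h1.trans (norm_natCast_le_norm_sub_one (hζ.map_of_injective hinj)))

end Fermat.Agent.S40.P.PeuApproxPack
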