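/-
Row 67 (R5′), GLOBAL PACK, UNCONDITIONAL (helper29): `PeuApproxPack` with its one named hypothesis
`InertiaFixed p` discharged by helper17's `PeuApproxInertia.dvd_of_inertia_fixed`.

* `inertiaFixed p : InertiaFixed p`;
* ★ `dvd_of_copyOfE` : `p = P.p ∣ abc`, `W` an integral model of the Frey curve, `V` a copy of
  `W[p]` in `J₀(N)[p]`, `γ ∈ ℚ̄ˣ` fixed by the inertial automorphisms at `padicPlace p` acting
  trivially on `V`, `γ ^ p ≡ p ^ a` to precision `‖ζ_p − 1‖`  ⇒  `p ∣ a`;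
* ★ `dvd_of_copyOfE_p` : the same with precision `‖p‖` (no root of unity in the statement).
-/
import Mathlib
import Fermat.Agent.S40.P.PeuApproxPack
import Fermat.Agent.S40.P.PeuApproxInertia

set_option autoImplicit false
set_option linter.style.haveILetI false
set_option linter.unusedSectionVars false
set_option linter.unusedVariables false

noncomputable section

namespace Fermat.Agent.S40.P.PeuApproxFrey

open Fermat.Agent.S40.P.PeuApproxPack
open Fermat.Agent.N4F.Res Fermat.Agent.S40.Top.CopyOfE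

local notation "Qbar" => AlgebraicClosure ℚ

/-- The local statement holds (helper17). -/
theorem inertiaFixed (p : ℕ) [Fact p.Prime] : InertiaFixed p :=
  fun N _ _ _ _ hLN hPeu hidx _ hζ hζN _ hγ0 hγN a h =>
    Fermat.Agent.S40.P.PeuApproxInertia.dvd_of_inertia_fixed N hLN hPeu hidx hζ hζN hγ0 hγN a h

variable (P : FreyPackage)

/-- ★ **(R5′), GLOBAL PACK, multiplicative case, unconditional.** -/
theorem dvd_of_copyOfE (habc : (P.p : ℤ) ∣ P.a * P.b * P.c)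
    {W : WeierstrassCurve ℤ} (hW : W.IsIntegralModelOf P.freyCurve)
    (hΔ : W.Δ ≠ 0) {N : ℕ} [NeZero N] :
    haveI : Fact P.p.Prime := ⟨P.pp⟩
    ∀ (V : Submodule (ZMod P.p) (Jtors N P.p)), CopyOfE W P.p V →
    ∀ {ζ : Qbar}, IsPrimitiveRoot ζ P.p → ∀ {γ : Qbar}, γ ≠ 0 → ∀ a : ℤ,
      (∀ σ ∈ (padicPlace P.p).inertiaSubgroupIn ℚ,
        (∀ x : Jtors N P.p, x ∈ V → galTors N P.p σ x = x) → σ γ = γ) →
      ‖padicEmbedding P.p (γ ^ P.p / (P.p : Qbar) ^ a) - 1‖ ≤ ‖padicEmbedding P.p ζ - 1‖ →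
      (P.p : ℤ) ∣ a := by
  haveI : Fact P.p.Prime := ⟨P.pp⟩
  exact dvd_of_copyOfE_mult P habc hW hΔ (inertiaFixed P.p)

/-- ★ **(R5′), GLOBAL PACK, precision `‖p‖`, unconditional** (the shape of the output of the node
identity (R4)). -/
theorem dvd_of_copyOfE_p (habc : (P.p : ℤ) ∣ P.a * P.b * P.c)
    {W : WeierstrassCurve ℤ} (hW : W.IsIntegralModelOf P.freyCurve)
    (hΔ : W.Δ ≠ 0) {N : ℕ} [NeZero N] :
    haveI : Fact P.p.Prime := ⟨P.pp⟩
    ∀ (V : Submodule (ZMod P.p) (Jtors N P.p)), CopyOfE W P.p V →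
    ∀ {γ : Qbar}, γ ≠ 0 → ∀ a : ℤ,
      (∀ σ ∈ (padicPlace P.p).inertiaSubgroupIn ℚ,
        (∀ x : Jtors N P.p, x ∈ V → galTors N P.p σ x = x) → σ γ = γ) →
      ‖padicEmbedding P.p (γ ^ P.p / (P.p : Qbar) ^ a) - 1‖ ≤ ‖(P.p : PadicAlgCl P.p)‖ →
      (P.p : ℤ) ∣ a := by
  haveI : Fact P.p.Prime := ⟨P.pp⟩
  exact dvd_of_copyOfE_mult_p P habc hW hΔ (inertiaFixed P.p)

end Fermat.Agent.S40.P.PeuApproxFrey
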